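import Fermat.Agent.S28.Defs

/-!
# Crux / GT : `j(q^s)` as `y^{-s} · U(y)`, `U = jNum(y^s)`
-/

set_option autoImplicit false

open ModularCurve

namespace Fermat.Agent.Crux.GT

noncomputable section

/-- `qExpand` of a power series is `PowerSeries.expand`. -/
theorem qExpand_ofPowerSeries (R : Type*) [CommRing R] (s : ℕ) [NeZero s] (V : PowerSeries R) :
    qExpand R s (HahnSeries.ofPowerSeries ℤ R V)
      = HahnSeries.ofPowerSeries ℤ R (PowerSeries.expand s (NeZero.ne s) V) := by
  ext k
  have hs : (0 : ℤ) < (s : ℤ) := by exact_mod_cast Nat.pos_of_ne_zero (NeZero.ne s)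
  by_cases hk : (s : ℤ) ∣ k
  · obtain ⟨m, rfl⟩ := hk
    rw [qExpand_coeff_mul]
    rcases le_or_gt 0 m with hm | hm
    · lift m to ℕ using hm
      rw [HahnSeries.ofPowerSeries_apply_coeff,
        show (s : ℤ) * (m : ℤ) = ((s * m : ℕ) : ℤ) by push_cast; ring,
        HahnSeries.ofPowerSeries_apply_coeff, PowerSeries.coeff_expand_mul]
    · rw [ofPowerSeries_coeff_of_neg _ hm,
        ofPowerSeries_coeff_of_neg _ (mul_neg_of_pos_of_neg hs hm)]
  · rw [qExpand_coeff_of_not_dvd s _ hk]
    rcases le_or_gt 0 k with hk0 | hk0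
    · lift k to ℕ using hk0
      rw [HahnSeries.ofPowerSeries_apply_coeff, PowerSeries.coeff_expand_of_not_dvd]
      exact fun h => hk (by exact_mod_cast h)
    · rw [ofPowerSeries_coeff_of_neg _ hk0]

/-- `U = jNum(y^s)`. -/
def jU (R : Type*) [CommRing R] (s : ℕ) [NeZero s] : PowerSeries R :=
  PowerSeries.expand s (NeZero.ne s) (jNum.map (Int.castRingHom R))

theorem constantCoeff_jU (R : Type*) [CommRing R] (s : ℕ) [NeZero s] :
    PowerSeries.constantCoeff (jU R s) = 1 := by
  rw [jU, PowerSeries.constantCoeff_expand, ← PowerSeries.coeff_zero_eq_constantCoeff,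
    PowerSeries.coeff_map, PowerSeries.coeff_zero_eq_constantCoeff, constantCoeff_jNum]
  simp

theorem qExpand_jqModC (R : Type*) [CommRing R] (s : ℕ) [NeZero s] :
    qExpand R s (jqModC R)
      = HahnSeries.single (-(s : ℤ)) (1 : R) * HahnSeries.ofPowerSeries ℤ R (jU R s) := by
  rw [jqModC, map_mul, qExpand_single, qExpand_ofPowerSeries, jU, mul_neg, mul_one]

end

end Fermat.Agent.Crux.GT
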