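import Fermat.Agent.Crux.GT.Formal
import Fermat.Agent.S28.Defs
import Fermat.Agent.Crux.GT.QExp

/-!
# Crux / GT : the two base coordinates

`j = P(t)/Q(t)` with
* `s = 2` (used for `ℓ` odd):  `P = 256 (T² - T + 1)³`, `Q = T² (T - 1)²`   (Legendre `λ`);
* `s = 3` (used for `ℓ = 2`):  `P = 27 T³ (T³ + 8)³`,  `Q = (T³ - 1)³`      (Hesse).

`IsBase s P Q` collects everything the rest of `Crux/GT` uses about `(P, Q)`.

Useful identities (all `ring`-checkable):
* `lamP - 1728 lamQ = 64 ((T + 1) (T - 2) (2 T - 1))²`,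
  `lamP' lamQ - lamP lamQ' = 256 (T² - T + 1)² T (T - 1) (2 T - 1) (T - 2) (T + 1)`,
  `(1 - 3u) (1 + u)³ = 1 - u² (6 + 8 u + 3 u²)` with `u = T (T - 1)`, `T² - T + 1 = 1 + u`
  (Bezout: `(1 - 3u) lamP + 256 (6 + 8u + 3u²) lamQ = 256`);
* `hesP - 1728 hesQ = 27 (T⁶ - 20 T³ - 8)²`,
  `hesP' hesQ - hesP hesQ' = 81 T² (T³ + 8)² (T⁶ - 20 T³ - 8) (T³ - 1)²`.
-/

set_option autoImplicit false

open Polynomial ModularCurve

namespace Fermat.Agent.Crux.GT

noncomputable section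

def lamP : ℤ[X] := 256 * (X ^ 2 - X + 1) ^ 3
def lamQ : ℤ[X] := X ^ 2 * (X - 1) ^ 2
def hesP : ℤ[X] := 27 * X ^ 3 * (X ^ 3 + 8) ^ 3
def hesQ : ℤ[X] := (X ^ 3 - 1) ^ 3

/-- `Z(y) / y` as a Laurent series. -/
def tOf {R : Type*} [CommRing R] (Z : PowerSeries R) : LaurentSeries R :=
  HahnSeries.single (-1 : ℤ) (1 : R) * HahnSeries.ofPowerSeries ℤ R Z

/-- The properties of a base coordinate `j = P(t)/Q(t)`, `q = y^s`, `t = Z(y)/y`. -/
structure IsBase (s : ℕ) [NeZero s] (P Q : ℤ[X]) : Prop where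
  /-- existence of the formal coordinate over every ring in which `s` is invertible -/
  formal : ∀ (R : Type) [CommRing R], IsUnit (s : R) →
    ∃ Z : PowerSeries R, IsUnit (PowerSeries.constantCoeff Z) ∧
      aeval (tOf Z) P = qExpand R s (jqModC R) * aeval (tOf Z) Q
  /-- over a point `c` with `Q(c) ≠ 0` the map `t ↦ P(t)/Q(t)` has the ramification index of
  `j : ℍ → ℂ` over `c₀ = P(c)/Q(c)` : `3` over `0`, `2` over `1728`, `1` otherwise. -/
  mult : ∀ (κ : Type) [Field κ] [CharZero κ] (c : κ), aeval c Q ≠ 0 →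
    ∃ (e : ℕ) (H : κ[X]),
      P.map (Int.castRingHom κ) - C (aeval c P / aeval c Q) * Q.map (Int.castRingHom κ)
        = (X - C c) ^ e * H ∧ H.eval c ≠ 0 ∧
      (aeval c P = 0 → e = 3) ∧ (aeval c P = 1728 * aeval c Q → e = 2) ∧
      (aeval c P ≠ 0 → aeval c P ≠ 1728 * aeval c Q → e = 1)
  bezout : ∃ (a b : ℤ[X]) (k : ℕ), a * P + b * Q = C ((s : ℤ) ^ k)
  deg : Q.natDegree < P.natDegree
  lc : ∃ k : ℕ, P.leadingCoeff = (s : ℤ) ^ k
  monic : Q.Monic

/-! ### Legendre -/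

/-- `q ↦ y^s` on power series inside Laurent series. -/
theorem lam_exists_qExpand_ofPowerSeries {R : Type*} [CommRing R] (s : ℕ) [NeZero s]
    (u : PowerSeries R) :
    ∃ U : PowerSeries R, PowerSeries.constantCoeff U = PowerSeries.constantCoeff u ∧
      qExpand R s (HahnSeries.ofPowerSeries ℤ R u) = HahnSeries.ofPowerSeries ℤ R U := by
  classical
  have hs : 0 < s := Nat.pos_of_ne_zero (NeZero.ne s)
  refine ⟨PowerSeries.mk fun n => if s ∣ n then PowerSeries.coeff (n / s) u else 0, ?_, ?_⟩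
  · rw [← PowerSeries.coeff_zero_eq_constantCoeff_apply, PowerSeries.coeff_mk,
      if_pos (dvd_zero s), Nat.zero_div, PowerSeries.coeff_zero_eq_constantCoeff_apply]
  · ext k
    rcases lt_or_ge k 0 with hk | hk
    · rw [ofPowerSeries_coeff_of_neg _ hk]
      by_cases hd : (s : ℤ) ∣ k
      · obtain ⟨m, rfl⟩ := hd
        rw [qExpand_coeff_mul]
        apply ofPowerSeries_coeff_of_neg
        by_contra hm
        rw [not_lt] at hm
        have : (0 : ℤ) ≤ (s : ℤ) * m := mul_nonneg (by positivity) hm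
        omega
      · exact qExpand_coeff_of_not_dvd s _ hd
    · lift k to ℕ using hk
      rw [HahnSeries.ofPowerSeries_apply_coeff, PowerSeries.coeff_mk]
      by_cases hd : s ∣ k
      · rw [if_pos hd]
        obtain ⟨m, rfl⟩ := hd
        rw [Nat.mul_div_cancel_left m hs, Nat.cast_mul, qExpand_coeff_mul,
          HahnSeries.ofPowerSeries_apply_coeff]
      · rw [if_neg hd]
        exact qExpand_coeff_of_not_dvd s _ (fun h => hd (Int.natCast_dvd_natCast.1 h))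

/-- `j(y^s) = y^(-s) U(y)`, `U(0) = 1`. -/
theorem lam_exists_qExpand_jqModC (R : Type*) [CommRing R] (s : ℕ) [NeZero s] :
    ∃ U : PowerSeries R, PowerSeries.constantCoeff U = 1 ∧
      qExpand R s (jqModC R) =
        HahnSeries.single (-1 : ℤ) (1 : R) ^ s * HahnSeries.ofPowerSeries ℤ R U := by
  obtain ⟨U, hU0, hU⟩ := lam_exists_qExpand_ofPowerSeries s (jNum.map (Int.castRingHom R))
  refine ⟨U, ?_, ?_⟩
  · rw [hU0, ← PowerSeries.coeff_zero_eq_constantCoeff_apply, PowerSeries.coeff_map,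
      PowerSeries.coeff_zero_eq_constantCoeff_apply, constantCoeff_jNum]
    simp
  · rw [jqModC, map_mul, hU, qExpand_single, HahnSeries.single_pow, one_pow]
    congr 2

theorem lam_aevalP {A : Type*} [CommRing A] [Algebra ℤ A] (c : A) :
    aeval c lamP = 256 * (c ^ 2 - c + 1) ^ 3 := by
  simp [lamP, map_ofNat]

theorem lam_aevalQ {A : Type*} [CommRing A] [Algebra ℤ A] (c : A) :
    aeval c lamQ = c ^ 2 * (c - 1) ^ 2 := by
  simp [lamQ]

theorem lam_mapP {A : Type*} [CommRing A] :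
    lamP.map (Int.castRingHom A) = 256 * (X ^ 2 - X + 1) ^ 3 := by
  simp [lamP]

theorem lam_mapQ {A : Type*} [CommRing A] :
    lamQ.map (Int.castRingHom A) = X ^ 2 * (X - 1) ^ 2 := by
  simp [lamQ]

/-- a root `c` of `F`: `F = (X - c) H` with `H(c) = F'(c)`. -/
theorem lam_exists_eq_mul_of_root {κ : Type*} [Field κ] (F : κ[X]) (c : κ) (h : F.eval c = 0) :
    ∃ H : κ[X], F = (X - C c) * H ∧ H.eval c = F.derivative.eval c := by
  obtain ⟨H, hH⟩ := dvd_iff_isRoot.2 h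
  refine ⟨H, hH, ?_⟩
  rw [hH]
  simp

theorem lam_mult (κ : Type) [Field κ] [CharZero κ] (c : κ) (hc : aeval c lamQ ≠ 0) :
    ∃ (e : ℕ) (H : κ[X]),
      lamP.map (Int.castRingHom κ) - C (aeval c lamP / aeval c lamQ) * lamQ.map (Int.castRingHom κ)
        = (X - C c) ^ e * H ∧ H.eval c ≠ 0 ∧
      (aeval c lamP = 0 → e = 3) ∧ (aeval c lamP = 1728 * aeval c lamQ → e = 2) ∧
      (aeval c lamP ≠ 0 → aeval c lamP ≠ 1728 * aeval c lamQ → e = 1) := by
  rw [lam_mapP, lam_mapQ]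
  by_cases hA : aeval c lamP = 0
  · -- `j = 0`
    have h1 : c ^ 2 - c + 1 = 0 := by
      rw [lam_aevalP] at hA
      have h256 : (256 : κ) ≠ 0 := by norm_num
      exact pow_eq_zero_iff (three_ne_zero) |>.1 ((mul_eq_zero.1 hA).resolve_left h256)
    have h1C : (C c : κ[X]) ^ 2 - C c + 1 = 0 := by
      have := congrArg (C : κ → κ[X]) h1
      simpa [map_ofNat] using this
    refine ⟨3, 256 * (X - C (1 - c)) ^ 3, ?_, ?_, fun _ => rfl, fun h => ?_, fun h => absurd hA h⟩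
    · rw [hA, zero_div, C_0, zero_mul, sub_zero]
      have h2 : (X : κ[X]) ^ 2 - X + 1 = (X - C c) * (X - C (1 - c)) := by
        rw [C_sub, C_1]
        linear_combination h1C
      rw [h2]
      ring
    · have h3 : (2 * c - 1) ≠ 0 := by
        intro h3
        have : (3 : κ) = 0 := by linear_combination 4 * h1 - (2 * c - 1) * h3
        norm_num at this
      simp only [eval_mul, eval_pow, eval_sub, eval_X, eval_C, eval_ofNat]
      have h4 : c - (1 - c) = 2 * c - 1 := by ring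
      rw [h4]
      exact mul_ne_zero (by norm_num) (pow_ne_zero 3 h3)
    · exfalso
      rw [hA] at h
      exact (mul_ne_zero (by norm_num) hc) h.symm
  by_cases hB : aeval c lamP = 1728 * aeval c lamQ
  · -- `j = 1728`
    have hG : 2 * c ^ 3 - 3 * c ^ 2 - 3 * c + 2 = 0 := by
      rw [lam_aevalP, lam_aevalQ] at hB
      have h2 : (2 * c ^ 3 - 3 * c ^ 2 - 3 * c + 2) ^ 2 = 0 := by
        have h64 : (64 : κ) ≠ 0 := by norm_num
        apply (mul_eq_zero.1 (?_ : (64 : κ) * (2 * c ^ 3 - 3 * c ^ 2 - 3 * c + 2) ^ 2 = 0)).resolve_left h64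
        linear_combination hB
      exact pow_eq_zero_iff (two_ne_zero) |>.1 h2
    have hGC : 2 * (C c : κ[X]) ^ 3 - 3 * C c ^ 2 - 3 * C c + 2 = 0 := by
      have := congrArg (C : κ → κ[X]) hG
      simpa [map_ofNat] using this
    refine ⟨2, 64 * (2 * (X ^ 2 + X * C c + C c ^ 2) - 3 * (X + C c) - 3) ^ 2, ?_, ?_,
      fun h => absurd h hA, fun _ => rfl, fun _ h => absurd hB h⟩
    · rw [hB, mul_div_cancel_right₀ _ hc]
      have h2 : (2 * (X : κ[X]) ^ 3 - 3 * X ^ 2 - 3 * X + 2) =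
          (X - C c) * (2 * (X ^ 2 + X * C c + C c ^ 2) - 3 * (X + C c) - 3) := by
        linear_combination hGC
      have h3 : (256 * ((X : κ[X]) ^ 2 - X + 1) ^ 3 - C 1728 * (X ^ 2 * (X - 1) ^ 2)) =
          64 * (2 * (X : κ[X]) ^ 3 - 3 * X ^ 2 - 3 * X + 2) ^ 2 := by
        have : (C 1728 : κ[X]) = 1728 := map_ofNat C 1728
        rw [this]
        ring
      rw [h3, h2]
      ring
    · simp only [eval_mul, eval_pow, eval_sub, eval_add, eval_X, eval_C, eval_ofNat]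
      refine mul_ne_zero (by norm_num) (pow_ne_zero 2 ?_)
      intro hD
      have : (243 : κ) = 0 := by
        linear_combination (36 * (2 * c ^ 3 - 3 * c ^ 2 - 3 * c + 2)) * hG +
          ((6 * c ^ 2 - 6 * c - 3) * (2 * c - 1) ^ 2
            - 12 * (2 * c ^ 3 - 3 * c ^ 2 - 3 * c + 2) * (2 * c - 1) - 54) * hD
      norm_num at this
  · -- generic
    set j₀ : κ := aeval c lamP / aeval c lamQ with hj₀
    have hj : aeval c lamP = j₀ * aeval c lamQ := by
      rw [hj₀, div_mul_cancel₀ _ hc]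
    have hroot : (256 * ((X : κ[X]) ^ 2 - X + 1) ^ 3 - C j₀ * (X ^ 2 * (X - 1) ^ 2)).eval c = 0 := by
      rw [lam_aevalP, lam_aevalQ] at hj
      simp only [eval_mul, eval_pow, eval_sub, eval_add, eval_X, eval_C, eval_ofNat, eval_one]
      linear_combination hj
    obtain ⟨H, hH, hHc⟩ := lam_exists_eq_mul_of_root _ c hroot
    refine ⟨1, H, by rw [pow_one]; exact hH, ?_, fun h => absurd h hA, fun h => absurd h hB,
      fun _ _ => rfl⟩
    rw [hHc]
    intro h0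
    have h0' : 256 * (3 * (c ^ 2 - c + 1) ^ 2 * (2 * c - 1)) -
        j₀ * (2 * c * (c - 1) ^ 2 + c ^ 2 * (2 * (c - 1))) = 0 := by
      rw [← h0]
      simp only [derivative_sub, derivative_mul, derivative_pow, derivative_add, derivative_X,
        derivative_one, derivative_C, derivative_ofNat, eval_mul, eval_pow, eval_sub, eval_add,
        eval_X, eval_C, eval_ofNat, eval_one, eval_zero]
      push_cast
      ring
    rw [lam_aevalP, lam_aevalQ] at hj hB
    rw [lam_aevalP] at hA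
    rw [lam_aevalQ] at hc
    have h5 : 256 * (c ^ 2 - c + 1) ^ 2 * (c * (c - 1)) * ((2 * c - 1) * (c - 2) * (c + 1)) = 0 := by
      linear_combination (c ^ 2 * (c - 1) ^ 2) * h0' -
        (2 * c * (c - 1) ^ 2 + c ^ 2 * (2 * (c - 1))) * hj
    have h6 : c ^ 2 - c + 1 ≠ 0 := by
      intro h
      apply hA
      rw [h]
      ring
    have h7 : c * (c - 1) ≠ 0 := by
      intro h
      apply hc
      linear_combination (c * (c - 1)) * h
    have h8 : (2 * c - 1) * (c - 2) * (c + 1) ≠ 0 := by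
      intro h
      apply hB
      linear_combination (64 * ((2 * c - 1) * (c - 2) * (c + 1))) * h
    exact mul_ne_zero (mul_ne_zero (mul_ne_zero (by norm_num) (pow_ne_zero 2 h6)) h7) h8 h5

theorem lam_single_neg_one_mul_X (R : Type*) [CommRing R] :
    HahnSeries.single (-1 : ℤ) (1 : R) * HahnSeries.ofPowerSeries ℤ R PowerSeries.X = 1 := by
  rw [HahnSeries.ofPowerSeries_X, HahnSeries.single_mul_single]
  simp

theorem lam_formal (R : Type) [CommRing R] (h : IsUnit ((2 : ℕ) : R)) :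
    ∃ Z : PowerSeries R, IsUnit (PowerSeries.constantCoeff Z) ∧
      aeval (tOf Z) lamP = qExpand R 2 (jqModC R) * aeval (tOf Z) lamQ := by
  obtain ⟨U, hU0, hU⟩ := lam_exists_qExpand_jqModC R 2
  obtain ⟨Z, hZ0, hZ⟩ := exists_lambda (by simpa using h) U hU0
  refine ⟨Z, IsUnit.of_mul_eq_one _ (by rw [mul_comm]; exact hZ0), ?_⟩
  rw [lam_aevalP, lam_aevalQ, hU, tOf]
  have hY := lam_single_neg_one_mul_X R
  have hid := congrArg (HahnSeries.ofPowerSeries ℤ R) hZ
  simp only [map_mul, map_pow, map_sub, map_add, map_ofNat] at hid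
  set Yi := HahnSeries.single (-1 : ℤ) (1 : R)
  set Y := HahnSeries.ofPowerSeries ℤ R PowerSeries.X
  set z := HahnSeries.ofPowerSeries ℤ R Z
  set u := HahnSeries.ofPowerSeries ℤ R U
  have h1 : (Yi * z) ^ 2 - Yi * z + 1 = Yi ^ 2 * (z ^ 2 - Y * z + Y ^ 2) := by
    linear_combination (Yi * z - Yi * Y - 1) * hY
  have h2 : Yi * z - 1 = Yi * (z - Y) := by
    linear_combination hY
  rw [h1, h2]
  linear_combination Yi ^ 6 * hid

theorem lam_bezout : ∃ (a b : ℤ[X]) (k : ℕ), a * lamP + b * lamQ = C (((2 : ℕ) : ℤ) ^ k) := by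
  refine ⟨1 - 3 * (X * (X - 1)), 256 * (6 + 8 * (X * (X - 1)) + 3 * (X * (X - 1)) ^ 2), 8, ?_⟩
  have : (C (((2 : ℕ) : ℤ) ^ 8) : ℤ[X]) = 256 := by
    norm_num
  rw [this, lamP, lamQ]
  ring

theorem lam_natDegreeP : lamP.natDegree = 6 := by
  unfold lamP
  compute_degree!

theorem lam_natDegreeQ : lamQ.natDegree = 4 := by
  unfold lamQ
  compute_degree!

theorem lam_deg : lamQ.natDegree < lamP.natDegree := by
  rw [lam_natDegreeP, lam_natDegreeQ]
  norm_num

theorem lam_lc : ∃ k : ℕ, lamP.leadingCoeff = ((2 : ℕ) : ℤ) ^ k := by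
  refine ⟨8, ?_⟩
  have h1 : (X ^ 2 - X + 1 : ℤ[X]).Monic := by monicity!
  have h2 : (256 : ℤ[X]) = C 256 := (map_ofNat C 256).symm
  rw [lamP, leadingCoeff_mul, leadingCoeff_pow, h1.leadingCoeff, h2, leadingCoeff_C]
  norm_num

theorem lam_monic : lamQ.Monic := by
  have h1 : (X - 1 : ℤ[X]).Monic := by monicity!
  exact (monic_X_pow 2).mul (h1.pow 2)

theorem lam_root {κ : Type*} [Field κ] (c : κ) : aeval c lamQ = 0 ↔ c = 0 ∨ c = 1 := by
  rw [lam_aevalQ]
  simp [sub_eq_zero]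

theorem isBase_lam : IsBase 2 lamP lamQ :=
  ⟨lam_formal, lam_mult, lam_bezout, lam_deg, lam_lc, lam_monic⟩

/-! ### Hesse -/

theorem hes_aeval {A : Type*} [CommRing A] [Algebra ℤ A] (t : A) :
    aeval t hesP = 27 * t ^ 3 * (t ^ 3 + 8) ^ 3 ∧ aeval t hesQ = (t ^ 3 - 1) ^ 3 := by
  constructor
  · simp only [hesP, map_mul, map_pow, map_add, aeval_X, map_ofNat]
  · simp only [hesQ, map_pow, map_sub, aeval_X, map_one]

theorem hes_map (κ : Type*) [CommRing κ] :
    hesP.map (Int.castRingHom κ) = 27 * X ^ 3 * (X ^ 3 + 8) ^ 3 ∧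
      hesQ.map (Int.castRingHom κ) = (X ^ 3 - 1) ^ 3 := by
  constructor
  · simp only [hesP, Polynomial.map_mul, Polynomial.map_pow, Polynomial.map_add, Polynomial.map_X,
      Polynomial.map_ofNat]
  · simp only [hesQ, Polynomial.map_pow, Polynomial.map_sub, Polynomial.map_X, Polynomial.map_one]

theorem hes_formal (R : Type) [CommRing R] (h : IsUnit ((3 : ℕ) : R)) :
    ∃ Z : PowerSeries R, IsUnit (PowerSeries.constantCoeff Z) ∧
      aeval (tOf Z) hesP = qExpand R 3 (jqModC R) * aeval (tOf Z) hesQ := by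
  obtain ⟨Z, hZ0, hZ⟩ := exists_hesse (R := R) (by simpa using h) (jU R 3) (constantCoeff_jU R 3)
  refine ⟨Z, IsUnit.of_mul_eq_one 3 (by rw [mul_comm]; exact hZ0), ?_⟩
  rw [(hes_aeval _).1, (hes_aeval _).2, qExpand_jqModC, tOf]
  set Yi : LaurentSeries R := HahnSeries.single (-1 : ℤ) (1 : R) with hYi
  set Y : LaurentSeries R := HahnSeries.ofPowerSeries ℤ R PowerSeries.X with hY
  set z : LaurentSeries R := HahnSeries.ofPowerSeries ℤ R Z with hz
  set u : LaurentSeries R := HahnSeries.ofPowerSeries ℤ R (jU R 3) with hu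
  have e : Yi * Y = 1 := by
    rw [hYi, hY, HahnSeries.ofPowerSeries_X, HahnSeries.single_mul_single]
    simp
  have e3 : HahnSeries.single (-((3 : ℕ) : ℤ)) (1 : R) = Yi ^ 3 := by
    rw [hYi, HahnSeries.single_pow]
    simp
  have hZ' : 27 * z ^ 3 * (z ^ 3 + 8 * Y ^ 3) ^ 3 = u * (z ^ 3 - Y ^ 3) ^ 3 := by
    have := congrArg (HahnSeries.ofPowerSeries ℤ R) hZ
    simpa only [map_mul, map_pow, map_add, map_sub, map_ofNat] using this
  rw [e3]
  calc 27 * (Yi * z) ^ 3 * ((Yi * z) ^ 3 + 8) ^ 3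
      = 27 * (Yi * z) ^ 3 * ((Yi * z) ^ 3 + 8 * (Yi * Y) ^ 3) ^ 3 := by rw [e, one_pow, mul_one]
    _ = Yi ^ 12 * (27 * z ^ 3 * (z ^ 3 + 8 * Y ^ 3) ^ 3) := by ring
    _ = Yi ^ 12 * (u * (z ^ 3 - Y ^ 3) ^ 3) := by rw [hZ']
    _ = Yi ^ 3 * u * ((Yi * z) ^ 3 - (Yi * Y) ^ 3) ^ 3 := by ring
    _ = Yi ^ 3 * u * ((Yi * z) ^ 3 - 1) ^ 3 := by rw [e, one_pow]

theorem hes_mult (κ : Type) [Field κ] [CharZero κ] (c : κ) (hc : aeval c hesQ ≠ 0) :
    ∃ (e : ℕ) (H : κ[X]),
      hesP.map (Int.castRingHom κ) - C (aeval c hesP / aeval c hesQ) * hesQ.map (Int.castRingHom κ)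
        = (X - C c) ^ e * H ∧ H.eval c ≠ 0 ∧
      (aeval c hesP = 0 → e = 3) ∧ (aeval c hesP = 1728 * aeval c hesQ → e = 2) ∧
      (aeval c hesP ≠ 0 → aeval c hesP ≠ 1728 * aeval c hesQ → e = 1) := by
  rw [(hes_map κ).1, (hes_map κ).2]
  rw [(hes_aeval c).2] at hc
  rw [(hes_aeval c).1, (hes_aeval c).2]
  have hc1 : c ^ 3 - 1 ≠ 0 := fun h => hc (by rw [h]; ring)
  have h1728 : (0 : κ) ≠ 1728 * (c ^ 3 - 1) ^ 3 :=
    (mul_ne_zero (by norm_num) hc).symm
  by_cases h0 : 27 * c ^ 3 * (c ^ 3 + 8) ^ 3 = 0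
  · rw [h0, zero_div, C_0, zero_mul, sub_zero]
    by_cases hc0 : c = 0
    · subst hc0
      refine ⟨3, 27 * (X ^ 3 + 8) ^ 3, by rw [C_0]; ring, ?_, fun _ => rfl,
        fun h => absurd h h1728, fun h => absurd rfl h⟩
      simp only [eval_mul, eval_pow, eval_add, eval_X, eval_ofNat]
      norm_num
    · have hc8 : c ^ 3 + 8 = 0 := by
        rcases mul_eq_zero.1 h0 with h | h
        · rcases mul_eq_zero.1 h with h | h
          · norm_num at h
          · exact absurd (pow_eq_zero_iff (by norm_num) |>.1 h) hc0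
        · exact pow_eq_zero_iff (by norm_num) |>.1 h
      refine ⟨3, 27 * X ^ 3 * (X ^ 2 + C c * X + C c ^ 2) ^ 3, ?_, ?_, fun _ => rfl,
        fun h => absurd h h1728, fun h => absurd rfl h⟩
      · have h8 : (8 : κ[X]) = - C c ^ 3 := by
          rw [← C_pow, ← C_neg, show -c ^ 3 = 8 by linear_combination -hc8]
          rfl
        rw [h8]; ring
      · simp only [eval_mul, eval_pow, eval_add, eval_X, eval_ofNat, eval_C]
        have : (27 : κ) * c ^ 3 * (c ^ 2 + c * c + c ^ 2) ^ 3 = 729 * c ^ 9 := by ring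
        rw [this]
        exact mul_ne_zero (by norm_num) (pow_ne_zero _ hc0)
  by_cases h1 : 27 * c ^ 3 * (c ^ 3 + 8) ^ 3 = 1728 * (c ^ 3 - 1) ^ 3
  · rw [h1, mul_div_assoc, div_self hc, mul_one]
    have hG : c ^ 6 - 20 * c ^ 3 - 8 = 0 := by
      have : (27 : κ) * (c ^ 6 - 20 * c ^ 3 - 8) ^ 2 = 0 := by linear_combination h1
      rcases mul_eq_zero.1 this with h | h
      · norm_num at h
      · exact pow_eq_zero_iff (by norm_num) |>.1 h
    refine ⟨2, 27 * ((X ^ 2 + C c * X + C c ^ 2) * (X ^ 3 + C c ^ 3 - 20)) ^ 2, ?_, ?_,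
      fun h => absurd h.symm h1728, fun _ => rfl, fun _ h => absurd rfl h⟩
    · have h8 : (8 : κ[X]) = C c ^ 6 - 20 * C c ^ 3 := by
        have : (8 : κ) = c ^ 6 - 20 * c ^ 3 := by linear_combination -hG
        calc (8 : κ[X]) = C (8 : κ) := rfl
          _ = C c ^ 6 - 20 * C c ^ 3 := by
            rw [this, C_sub, C_mul, C_pow, C_pow]; rfl
      have e1 : (X ^ 6 - 20 * X ^ 3 - 8 : κ[X])
          = (X - C c) * ((X ^ 2 + C c * X + C c ^ 2) * (X ^ 3 + C c ^ 3 - 20)) := by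
        rw [h8]; ring
      have e2 : (27 * X ^ 3 * (X ^ 3 + 8) ^ 3 - C 1728 * (X ^ 3 - 1) ^ 3 : κ[X])
          = 27 * (X ^ 6 - 20 * X ^ 3 - 8) ^ 2 := by
        rw [show (C (1728 : κ) : κ[X]) = 1728 from rfl]; ring
      rw [e2, e1]; ring
    · simp only [eval_mul, eval_pow, eval_add, eval_sub, eval_X, eval_ofNat, eval_C]
      have hc0 : c ≠ 0 := by
        rintro rfl
        norm_num at hG
      have hc10 : c ^ 3 + c ^ 3 - 20 ≠ 0 := by
        intro h
        have h10 : c ^ 3 = 10 := by linear_combination h / 2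
        have : c ^ 6 - 20 * c ^ 3 - 8 = -108 := by
          rw [show c ^ 6 = (c ^ 3) ^ 2 by ring, h10]; norm_num
        rw [this] at hG
        norm_num at hG
      have hq : c ^ 2 + c * c + c ^ 2 ≠ 0 := by
        rw [show c ^ 2 + c * c + c ^ 2 = 3 * c ^ 2 by ring]
        exact mul_ne_zero (by norm_num) (pow_ne_zero _ hc0)
      exact mul_ne_zero (by norm_num) (pow_ne_zero _ (mul_ne_zero hq hc10))
  · set c₀ : κ := 27 * c ^ 3 * (c ^ 3 + 8) ^ 3 / (c ^ 3 - 1) ^ 3 with hc₀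
    set F : κ[X] := 27 * X ^ 3 * (X ^ 3 + 8) ^ 3 - C c₀ * (X ^ 3 - 1) ^ 3 with hF
    have hroot : F.IsRoot c := by
      rw [IsRoot.def, hF]
      simp only [eval_mul, eval_pow, eval_add, eval_sub, eval_X, eval_ofNat, eval_C, eval_one]
      rw [hc₀, div_mul_cancel₀ _ hc, sub_self]
    obtain ⟨H, hH⟩ := dvd_iff_isRoot.2 hroot
    refine ⟨1, H, by rw [pow_one]; exact hH, ?_, fun h => absurd h h0, fun h => absurd h h1,
      fun _ _ => rfl⟩
    have hd : (derivative F).eval c = H.eval c := by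
      rw [hH, derivative_mul]
      simp
    rw [← hd, hF]
    have hder : derivative (27 * X ^ 3 * (X ^ 3 + 8) ^ 3 - C c₀ * (X ^ 3 - 1) ^ 3 : κ[X])
        = 27 * (3 * X ^ 2) * (X ^ 3 + 8) ^ 3 + 27 * X ^ 3 * (3 * (X ^ 3 + 8) ^ 2 * (3 * X ^ 2))
          - C c₀ * (3 * (X ^ 3 - 1) ^ 2 * (3 * X ^ 2)) := by
      simp only [derivative_sub, derivative_mul, derivative_pow, derivative_add, derivative_X,
        derivative_ofNat, derivative_C, derivative_one]
      simp only [Nat.cast_ofNat, Nat.add_one_sub_one, mul_one, zero_mul, zero_add,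
        add_zero, sub_zero, map_ofNat]
    rw [hder]
    simp only [eval_mul, eval_pow, eval_add, eval_sub, eval_X, eval_ofNat, eval_C, eval_one]
    have hc0 : c ≠ 0 := by
      rintro rfl
      exact h0 (by ring)
    have hc8 : c ^ 3 + 8 ≠ 0 := fun h => h0 (by rw [h]; ring)
    have hG : c ^ 6 - 20 * c ^ 3 - 8 ≠ 0 := fun h => h1 (by
      have : 27 * c ^ 3 * (c ^ 3 + 8) ^ 3 - 1728 * (c ^ 3 - 1) ^ 3
          = 27 * (c ^ 6 - 20 * c ^ 3 - 8) ^ 2 := by ring
      rw [h] at this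
      linear_combination this)
    have key : (27 * (3 * c ^ 2) * (c ^ 3 + 8) ^ 3 + 27 * c ^ 3 * (3 * (c ^ 3 + 8) ^ 2 * (3 * c ^ 2))
          - c₀ * (3 * (c ^ 3 - 1) ^ 2 * (3 * c ^ 2))) * (c ^ 3 - 1)
        = 81 * c ^ 2 * (c ^ 3 + 8) ^ 2 * (c ^ 6 - 20 * c ^ 3 - 8) := by
      rw [hc₀]
      field_simp
      ring
    intro h
    rw [h, zero_mul] at key
    exact (mul_ne_zero (mul_ne_zero (mul_ne_zero (by norm_num) (pow_ne_zero _ hc0))
      (pow_ne_zero _ hc8)) hG) key.symm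

theorem hes_bezout : ∃ (a b : ℤ[X]) (k : ℕ), a * hesP + b * hesQ = C (((3 : ℕ) : ℤ) ^ k) := by
  refine ⟨27 - 36 * (X ^ 3 - 1) + 38 * (X ^ 3 - 1) ^ 2,
    -(729 * (1008 + 380 * (X ^ 3 - 1))
      + 27 * (27 - 36 * (X ^ 3 - 1) + 38 * (X ^ 3 - 1) ^ 2) * (28 + (X ^ 3 - 1))), 12, ?_⟩
  have : (C (((3 : ℕ) : ℤ) ^ 12) : ℤ[X]) = 531441 := by
    norm_num
  rw [this, hesP, hesQ]
  ring

theorem hes_natDegreeP : hesP.natDegree = 12 := by
  unfold hesP
  compute_degree!

theorem hes_natDegreeQ : hesQ.natDegree = 9 := by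
  unfold hesQ
  compute_degree!

theorem hes_deg : hesQ.natDegree < hesP.natDegree := by
  rw [hes_natDegreeP, hes_natDegreeQ]; norm_num

theorem hes_lc : ∃ k : ℕ, hesP.leadingCoeff = ((3 : ℕ) : ℤ) ^ k := by
  refine ⟨3, ?_⟩
  rw [hesP, leadingCoeff_mul, leadingCoeff_mul, leadingCoeff_pow, leadingCoeff_pow,
    leadingCoeff_X, show (X ^ 3 + 8 : ℤ[X]) = X ^ 3 + C 8 from rfl,
    leadingCoeff_X_pow_add_C (by norm_num), show (27 : ℤ[X]) = C 27 from rfl, leadingCoeff_C]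
  norm_num

theorem hes_monic : hesQ.Monic := by
  unfold hesQ
  exact (monic_X_pow_sub_C (1 : ℤ) (by norm_num : (3 : ℕ) ≠ 0)).pow 3

theorem hes_root {κ : Type*} [Field κ] (c : κ) : aeval c hesQ = 0 ↔ c ^ 3 = 1 := by
  rw [(hes_aeval c).2, pow_eq_zero_iff (by norm_num), sub_eq_zero]

theorem isBase_hes : IsBase 3 hesP hesQ :=
  ⟨hes_formal, hes_mult, hes_bezout, hes_deg, hes_lc, hes_monic⟩

end

end Fermat.Agent.Crux.GT
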