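import Fermat.Agent.Crux.GT.Defs
import Fermat.Agent.S28.IntTower
import Fermat.Agent.Crux.G.Main

/-!
# Crux / GT : basic facts on the tower `E ⊆ F ⊆ K((x))`

Notation: `t = c.tK M`, `e = M * s`.
-/

set_option autoImplicit false

open Polynomial ModularCurve
open scoped IntermediateField

namespace Fermat.Agent.Crux.GT

noncomputable section

open Fermat.Agent.S28 (jd evAt)
open Fermat.Agent.Crux.G

variable {K : Type} [Field K] {A : ValuationSubring K}

/-- A natural number prime to the residue characteristic is a unit of `A`. -/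
theorem isUnit_natCast {k : Type} [Field k] (r : A →+* k) {ℓ : ℕ} (hℓ : ℓ.Prime)
    (hrℓ : r (ℓ : A) = 0) (n : ℕ) (hn : ¬ ℓ ∣ n) : IsUnit (n : A) := by
  have hcop : IsCoprime (ℓ : ℤ) (n : ℤ) :=
    Nat.isCoprime_iff_coprime.2 ((Nat.Prime.coprime_iff_not_dvd hℓ).2 hn)
  obtain ⟨a, b, hab⟩ := hcop
  have h1 : (a : A) * (ℓ : A) + (b : A) * (n : A) = 1 := by
    have := congrArg (Int.cast : ℤ → A) hab
    push_cast at this
    exact this
  rcases IsLocalRing.isUnit_or_isUnit_of_add_one h1 with h | h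
  · exfalso
    have h2 : IsUnit (ℓ : A) := isUnit_of_mul_isUnit_right h
    have h3 := h2.map r
    rw [hrℓ] at h3
    exact not_isUnit_zero h3
  · exact isUnit_of_mul_isUnit_right h

/-- `ker r = (π)`. -/
theorem map_eq_zero_iff_dvd [IsDiscreteValuationRing A] {π : A} (hπ : Irreducible π)
    {k : Type} [Field k] (r : A →+* k) (hr : Function.Surjective r) (a : A) :
    r a = 0 ↔ π ∣ a := by
  have h1 : RingHom.ker r = IsLocalRing.maximalIdeal A :=
    IsLocalRing.eq_maximalIdeal (RingHom.ker_isMaximal_of_surjective r hr)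
  rw [← RingHom.mem_ker, h1, hπ.maximalIdeal_eq, Ideal.mem_span_singleton]

instance instTowerAKE (t : Om K) : IsScalarTower A K (EE K t) := IsScalarTower.of_algebraMap_eq' rfl

/-- every element of `E = K(t)` is a quotient of polynomials in `t` with coefficients in `A`. -/
theorem hgen_tE (t : Om K) (x : EE K t) :
    ∃ p q : A[X], q ≠ 0 ∧ x * aeval (tE K t) q = aeval (tE K t) p := by
  obtain ⟨r, s, hx⟩ := IntermediateField.mem_adjoin_simple_iff K (x : Om K) |>.1 x.2
  have hco : ∀ u : K[X], ((aeval (tE K t) u : EE K t) : Om K) = aeval t u := fun u =>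
    (Polynomial.aeval_algHom_apply (EE K t).val (tE K t) u).symm
  by_cases hs : aeval t s = 0
  · refine ⟨0, 1, one_ne_zero, ?_⟩
    have hx0 : x = 0 := by
      apply Subtype.ext
      rw [hx, hs, div_zero]
      rfl
    rw [hx0, zero_mul, map_zero]
  · obtain ⟨br, hbrm, hbr⟩ := IsLocalization.integerNormalization_spec (nonZeroDivisors A) r
    obtain ⟨bs, hbsm, hbs⟩ := IsLocalization.integerNormalization_spec (nonZeroDivisors A) s
    have hs0 : s ≠ 0 := by
      rintro rfl
      exact hs (map_zero _)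
    have hbr0 : (br : A) ≠ 0 := nonZeroDivisors.ne_zero hbrm
    have hbs0 : (bs : A) ≠ 0 := nonZeroDivisors.ne_zero hbsm
    refine ⟨C (bs : A) * IsLocalization.integerNormalization (nonZeroDivisors A) r,
      C (br : A) * IsLocalization.integerNormalization (nonZeroDivisors A) s, ?_, ?_⟩
    · refine mul_ne_zero (by simpa using hbr0) ?_
      intro h0
      rw [h0, Polynomial.map_zero] at hbs
      have : (bs : A) • s ≠ 0 := by
        rw [Algebra.smul_def]
        refine mul_ne_zero ?_ hs0
        simpa using hbs0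
      exact this hbs.symm
    · have hxs : x * aeval (tE K t) s = aeval (tE K t) r := by
        apply Subtype.ext
        rw [MulMemClass.coe_mul, hco, hco, hx, div_mul_cancel₀ _ hs]
      have hsm : ∀ (b : A) (u : K[X]), aeval (tE K t) (b • u) =
          algebraMap A (EE K t) b * aeval (tE K t) u := by
        intro b u
        rw [← algebraMap_smul K b u, Polynomial.smul_eq_C_mul, map_mul, aeval_C,
          ← IsScalarTower.algebraMap_apply]
      have h1 : aeval (tE K t) (IsLocalization.integerNormalization (nonZeroDivisors A) s) =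
          algebraMap A (EE K t) bs * aeval (tE K t) s := by
        rw [← Polynomial.aeval_map_algebraMap K (tE K t), hbs, hsm]
      have h2 : aeval (tE K t) (IsLocalization.integerNormalization (nonZeroDivisors A) r) =
          algebraMap A (EE K t) br * aeval (tE K t) r := by
        rw [← Polynomial.aeval_map_algebraMap K (tE K t), hbr, hsm]
      rw [map_mul, map_mul, h1, h2, ← hxs, aeval_C, aeval_C]
      ring

theorem coeffMap_surjective {R S : Type*} [CommRing R] [CommRing S] (f : R →+* S)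
    (hf : Function.Surjective f) : Function.Surjective (coeffMap f) := by
  classical
  intro y
  refine ⟨⟨fun n => if y.coeff n = 0 then 0 else Function.surjInv hf (y.coeff n),
    y.isPWO_support.mono ?_⟩, ?_⟩
  · intro n hn
    rw [Function.mem_support] at hn
    rw [HahnSeries.mem_support]
    intro h0
    exact hn (if_pos h0)
  · ext n
    rw [coeffMap_coeff]
    show f (if y.coeff n = 0 then 0 else Function.surjInv hf (y.coeff n)) = y.coeff n
    split_ifs with h0
    · rw [map_zero, h0]
    · exact Function.surjInv_eq hf _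

variable {s : ℕ} [NeZero s] {P Q : ℤ[X]} (c : Coord A s P Q) (M : ℕ) [NeZero M]

/-- ring homomorphisms commute with the evaluation of integral polynomials. -/
theorem map_aeval_int {R S : Type*} [CommRing R] [CommRing S] [Algebra ℤ R] [Algebra ℤ S]
    (g : R →+* S) (x : R) (p : ℤ[X]) : g (aeval x p) = aeval (g x) p := by
  rw [Polynomial.aeval_def, Polynomial.aeval_def, Polynomial.hom_eval₂]
  congr 1
  exact RingHom.ext_int _ _

theorem rel_tA : aeval (c.tA M) P = qExpand A (M * s) (jqModC A) * aeval (c.tA M) Q := by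
  have h := congrArg (qExpand A M) c.hrel
  rw [map_mul, map_aeval_int, map_aeval_int, qExpand_qExpand] at h
  exact h

theorem rel_tK : aeval (c.tK M) P = jd K (M * s) * aeval (c.tK M) Q := by
  have h := congrArg (coeffMap A.subtype) (rel_tA c M)
  rw [map_mul, map_aeval_int, map_aeval_int, Fermat.Agent.S28.Build.coeffMap_V,
    Fermat.Agent.S28.Build.coeffMap_J] at h
  rw [Fermat.Agent.S28.jd_eq]
  exact h

/-- the inclusion `E → K((x))` on `A[t]`. -/
theorem coe_aeval_tE (p : A[X]) :
    ((aeval (tE K (c.tK M)) p : EE K (c.tK M)) : Om K) = coeffMap A.subtype (evAt (c.tA M) p) := by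
  have h : ((EE K (c.tK M)).val : EE K (c.tK M) →+* Om K).comp
      ((aeval (tE K (c.tK M)) : A[X] →ₐ[A] EE K (c.tK M)) : A[X] →+* EE K (c.tK M)) =
      (coeffMap A.subtype).comp (evAt (c.tA M)) := by
    refine Polynomial.ringHom_ext (fun a => ?_) ?_
    · simp only [RingHom.comp_apply, RingHom.coe_coe, aeval_C, Fermat.Agent.S28.Build.evAt_C,
        Fermat.Agent.S28.Build.coeffMap_C]
      show algebraMap K (Om K) (A.subtype a) = _
      have h1 : algebraMap K (PowerSeries K) (A.subtype a) = PowerSeries.C (A.subtype a) := by simp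
      rw [HahnSeries.algebraMap_apply', h1, HahnSeries.ofPowerSeries_C]
    · simp only [RingHom.comp_apply, RingHom.coe_coe, aeval_X, Fermat.Agent.S28.Build.evAt_X]
      rfl
  exact congrArg (fun g => g p) h

/-- the polar coefficients of the powers of `Z(y)/y`. -/
theorem coeff_tOf_pow {R : Type*} [CommRing R] (Z : PowerSeries R) (i n : ℕ) (hi : i ≤ n) :
    ((tOf Z) ^ i).coeff (-(n : ℤ)) = if i = n then PowerSeries.constantCoeff Z ^ n else 0 := by
  rw [tOf, mul_pow, HahnSeries.single_pow, one_pow, ← map_pow, HahnSeries.coeff_single_mul, one_mul]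
  split_ifs with h
  · subst h
    have h0 : (-(i : ℤ) - i • (-1 : ℤ)) = ((0 : ℕ) : ℤ) := by simp
    rw [h0, HahnSeries.ofPowerSeries_apply_coeff, PowerSeries.coeff_zero_eq_constantCoeff_apply,
      map_pow]
  · refine ModularCurve.ofPowerSeries_coeff_of_neg _ ?_
    have : i < n := lt_of_le_of_ne hi h
    simp only [mul_neg, mul_one, nsmul_eq_mul]
    omega

/-- the leading polar coefficient of a polynomial in `Z(x^M)/x^M`. -/
theorem coeff_evAt_tOf {R : Type*} [CommRing R] (Z : PowerSeries R) (M : ℕ) [NeZero M]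
    (p : R[X]) (n : ℕ) (hn : p.natDegree ≤ n) :
    (evAt (qExpand R M (tOf Z)) p).coeff ((M : ℤ) * (-(n : ℤ))) =
      p.coeff n * PowerSeries.constantCoeff Z ^ n := by
  have hV : evAt (qExpand R M (tOf Z)) p = qExpand R M (evAt (tOf Z) p) :=
    (Fermat.Agent.S28.Build.V_evAt M (tOf Z) p).symm
  rw [hV, qExpand_coeff_mul, Fermat.Agent.S28.Build.evAt_apply,
    Polynomial.eval₂_eq_sum_range' _ (Nat.lt_succ_of_le hn), HahnSeries.coeff_sum,
    Finset.sum_eq_single n]
  · rw [Fermat.Agent.S28.Build.coeff_C_mul, coeff_tOf_pow Z n n le_rfl, if_pos rfl]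
  · intro i hi hin
    rw [Fermat.Agent.S28.Build.coeff_C_mul, coeff_tOf_pow Z i n (Nat.lt_succ_iff.1 (Finset.mem_range.1 hi)),
      if_neg hin, mul_zero]
  · intro h
    exact absurd (Finset.mem_range.2 (Nat.lt_succ_self n)) h

theorem evAt_tOf_injective {R : Type*} [CommRing R] (Z : PowerSeries R)
    (hZ : IsUnit (PowerSeries.constantCoeff Z)) (M : ℕ) [NeZero M] :
    Function.Injective (evAt (qExpand R M (tOf Z))) := by
  rw [injective_iff_map_eq_zero]
  intro p hp
  have h := coeff_evAt_tOf Z M p p.natDegree le_rfl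
  rw [hp, HahnSeries.coeff_zero] at h
  exact Polynomial.leadingCoeff_eq_zero.mp ((hZ.pow _).mul_left_eq_zero.1 h.symm)

theorem coeffMap_tOf {R S : Type*} [CommRing R] [CommRing S] (f : R →+* S) (Z : PowerSeries R) :
    coeffMap f (tOf Z) = tOf (Z.map f) := by
  rw [tOf, tOf, map_mul, coeffMap_single, map_one, Fermat.Agent.S28.Build.coeffMap_ofPowerSeries]

/-- Gauss compatibility: `p(t) ≡ 0` iff `π ∣ p`  (`t` has a pole of order `M` with unit leading
coefficient, so its reduction is transcendental over `k`). -/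
theorem red_evAt_tA [IsDiscreteValuationRing A] {π : A} (hπ : Irreducible π)
    {k : Type} [Field k] (r : A →+* k) (hr : Function.Surjective r) (p : A[X]) :
    coeffMap r (evAt (c.tA M) p) = 0 ↔ C π ∣ p := by
  have hZ : IsUnit (PowerSeries.constantCoeff (c.Z.map r)) := by
    have : PowerSeries.constantCoeff (c.Z.map r) = r (PowerSeries.constantCoeff c.Z) := by
      rw [← PowerSeries.coeff_zero_eq_constantCoeff_apply, PowerSeries.coeff_map,
        PowerSeries.coeff_zero_eq_constantCoeff_apply]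
    rw [this]
    exact c.hZ.map r
  rw [Fermat.Agent.S28.Build.coeffMap_evAt, Coord.tA, Fermat.Agent.S28.Build.coeffMap_V, coeffMap_tOf,
    map_eq_zero_iff _ (evAt_tOf_injective _ hZ M), Polynomial.C_dvd_iff_dvd_coeff,
    Polynomial.ext_iff]
  refine forall_congr' fun i => ?_
  rw [Polynomial.coeff_map, Polynomial.coeff_zero, map_eq_zero_iff_dvd hπ r hr]

theorem transcendental_tE : Transcendental A (tE K (c.tK M)) := by
  rw [transcendental_iff]
  intro p hp
  have h := coe_aeval_tE c M p
  rw [hp] at h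
  have h2 : coeffMap A.subtype (evAt (c.tA M) p) = 0 := h.symm
  rw [map_eq_zero_iff _ (Fermat.Agent.S28.Build.coeffMap_injective _ A.subtype_injective)] at h2
  exact (map_eq_zero_iff _ (evAt_tOf_injective c.Z c.hZ M)).1 h2

theorem BasicB_map_aeval_int {B C : Type*} [CommRing B] [CommRing C] [Algebra ℤ B] [Algebra ℤ C]
    (f : B →+* C) (x : B) (p : ℤ[X]) : f (aeval x p) = aeval (f x) p := by
  rw [aeval_def, aeval_def, hom_eval₂]
  congr 1
  exact RingHom.ext_int _ _

theorem BasicB_coe_aeval_int (t : Om K) (p : ℤ[X]) :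
    ((aeval (tE K t) p : EE K t) : Om K) = aeval t p :=
  BasicB_map_aeval_int (algebraMap (EE K t) (Om K)) (tE K t) p

theorem BasicB_aeval_map_int (t : Om K) (p : ℤ[X]) :
    aeval (tE K t) (p.map (algebraMap ℤ A)) = aeval (tE K t) p := by
  rw [aeval_def, aeval_def, eval₂_map]
  congr 1
  exact RingHom.ext_int _ _

theorem BasicB_aeval_ne_zero (hQ : Q.Monic) : aeval (tE K (c.tK M)) Q ≠ 0 := by
  intro h
  have h1 := (transcendental_iff.1 (transcendental_tE c M)) (Q.map (algebraMap ℤ A)) (by
    rw [BasicB_aeval_map_int, h])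
  exact (hQ.map (algebraMap ℤ A)).ne_zero h1

theorem BasicB_jd_eq (hQ : Q.Monic) :
    jd K (M * s) = ((aeval (tE K (c.tK M)) P / aeval (tE K (c.tK M)) Q : EE K (c.tK M)) : Om K) := by
  have h := rel_tK c M
  have hQ0 := BasicB_aeval_ne_zero c M hQ
  have hQ0' : aeval (c.tK M) Q ≠ 0 := by
    rw [← BasicB_coe_aeval_int]
    exact fun h => hQ0 (Subtype.ext h)
  rw [IntermediateField.coe_div, BasicB_coe_aeval_int, BasicB_coe_aeval_int, h,
    mul_div_assoc, div_self hQ0', mul_one]

theorem jd_mem_EE (hQ : Q.Monic) : jd K (M * s) ∈ EE K (c.tK M) := by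
  rw [BasicB_jd_eq c M hQ]
  exact Subtype.property _

theorem gen_mem_F1 {d : ℕ} (hd : d ∣ M) : jd K (M * s * d) ∈ F1 K (c.tK M) (M * s) M :=
  IntermediateField.subset_adjoin _ _ ⟨d, hd, rfl⟩

theorem BasicB_isIntegral_gen (hQ : Q.Monic) {d : ℕ} (hd : d ∣ M) :
    IsIntegral (EE K (c.tK M)) (jd K (M * s * d)) := by
  have hd0 : d ≠ 0 := ne_zero_of_dvd_ne_zero (NeZero.ne M) hd
  have : NeZero (M * s) := ⟨mul_ne_zero (NeZero.ne M) (NeZero.ne s)⟩
  have : NeZero (M * s * d) := ⟨mul_ne_zero (NeZero.ne _) hd0⟩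
  obtain ⟨p, hp, hpe⟩ :=
    (Fermat.Agent.S28.isIntegralElem_V_of_dvd K (M * s) (M * s * d) (dvd_mul_right _ _)).1
  rw [← Fermat.Agent.S28.jd_eq, ← Fermat.Agent.S28.jd_eq] at hpe
  let φ : K[X] →+* EE K (c.tK M) :=
    ((aeval (⟨jd K (M * s), jd_mem_EE c M hQ⟩ : EE K (c.tK M)) : K[X] →ₐ[K] EE K (c.tK M)) :
      K[X] →+* EE K (c.tK M))
  have hφ : (algebraMap (EE K (c.tK M)) (Om K)).comp φ = evAt (jd K (M * s)) := by
    refine Polynomial.ringHom_ext (fun a => ?_) ?_
    · simp only [φ, RingHom.comp_apply, RingHom.coe_coe, aeval_C, Fermat.Agent.S28.Build.evAt_C,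
        Fermat.Agent.S28.C_eq_algebraMap]
      rfl
    · simp only [φ, RingHom.comp_apply, RingHom.coe_coe, aeval_X, Fermat.Agent.S28.Build.evAt_X]
      rfl
  refine ⟨p.map φ, hp.map _, ?_⟩
  rw [Polynomial.eval₂_map, hφ]
  exact hpe

/-- `F/E` is finite: finitely many generators, each integral over `ℤ[j(x^e)]` (`S28/IntTower`), and
`j(x^e) ∈ E`. -/
theorem finiteDimensional_F1 (hQ : Q.Monic) :
    FiniteDimensional (EE K (c.tK M)) (F1 K (c.tK M) (M * s) M) := by
  have hfin : (gens K (M * s) M).Finite := by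
    refine ((Nat.divisors M).finite_toSet.image (fun d => jd K (M * s * d))).subset ?_
    rintro _ ⟨d, hd, rfl⟩
    exact ⟨d, Finset.mem_coe.2 (Nat.mem_divisors.2 ⟨hd, NeZero.ne M⟩), rfl⟩
  have : Finite (gens K (M * s) M) := hfin.to_subtype
  refine IntermediateField.finiteDimensional_adjoin ?_
  rintro _ ⟨d, hd, rfl⟩
  exact BasicB_isIntegral_gen c M hQ hd

theorem BasicB_exists_pow_smul_isIntegral {A L : Type*} [CommRing A] [Field L] [Algebra A[X] L]
    (p q : A[X]) (hq : algebraMap A[X] L q ≠ 0) (j : L)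
    (hj : j * algebraMap A[X] L q = algebraMap A[X] L p) (y : L)
    (hy : (eval₂RingHom ((algebraMap A[X] L).comp C) j).IsIntegralElem y) :
    ∃ k : ℕ, IsIntegral A[X] (q ^ k • y) := by
  have hu : IsUnit (algebraMap A[X] L q) := isUnit_iff_ne_zero.2 hq
  let _ : Algebra (Localization.Away q) L := (IsLocalization.Away.lift q hu).toAlgebra
  have : IsScalarTower A[X] (Localization.Away q) L :=
    IsScalarTower.of_algebraMap_eq fun r => (IsLocalization.Away.lift_eq q hu r).symm
  obtain ⟨G, hG, hGe⟩ := hy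
  have hjr : j ∈ (algebraMap (Localization.Away q) L).range := by
    refine ⟨IsLocalization.mk' _ p (⟨q, Submonoid.mem_powers q⟩ : Submonoid.powers q), ?_⟩
    have h1 : algebraMap (Localization.Away q) L
        (IsLocalization.mk' _ p (⟨q, Submonoid.mem_powers q⟩ : Submonoid.powers q))
        * algebraMap A[X] L q = algebraMap A[X] L p := by
      rw [IsScalarTower.algebraMap_apply A[X] (Localization.Away q) L q, ← map_mul,
        IsScalarTower.algebraMap_apply A[X] (Localization.Away q) L p]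
      congr 1
      exact IsLocalization.mk'_spec _ p (⟨q, Submonoid.mem_powers q⟩ : Submonoid.powers q)
    exact mul_right_cancel₀ hq (h1.trans hj.symm)
  have hlift : G.map (eval₂RingHom ((algebraMap A[X] L).comp C) j) ∈
      lifts (algebraMap (Localization.Away q) L) := by
    rw [lifts_iff_coeff_lifts]
    intro n
    rw [coeff_map, coe_eval₂RingHom, eval₂_eq_sum_range]
    change _ ∈ (algebraMap (Localization.Away q) L).range
    refine Subring.sum_mem _ fun i _ => Subring.mul_mem _ ?_ (Subring.pow_mem _ hjr i)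
    exact ⟨algebraMap A[X] _ (C ((G.coeff n).coeff i)),
      (IsScalarTower.algebraMap_apply A[X] (Localization.Away q) L _).symm⟩
  obtain ⟨G', hG', -, hG'm⟩ := lifts_and_degree_eq_and_monic hlift (hG.map _)
  have hint : IsIntegral (Localization.Away q) y := by
    refine ⟨G', hG'm, ?_⟩
    rw [← eval_map, hG', eval_map]
    exact hGe
  obtain ⟨⟨m, k, rfl⟩, hm⟩ :=
    IsIntegral.exists_multiple_integral_of_isLocalization (Submonoid.powers q) y hint
  exact ⟨k, hm⟩

/-- the generators lie in `O_F`: integral over `ℤ[j(x^e)]`, `j(x^e) = P(t)/Q(t)`, `π ∤ Q`. -/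
theorem isOLx_gen [IsDiscreteValuationRing A] {π : A} (hπ : Irreducible π) (hQ : Q.Monic)
    {d : ℕ} (hd : d ∣ M) :
    IsOLx π (tE K (c.tK M)) (⟨jd K (M * s * d), gen_mem_F1 c M hd⟩ : F1 K (c.tK M) (M * s) M) := by
  have hd0 : d ≠ 0 := ne_zero_of_dvd_ne_zero (NeZero.ne M) hd
  have : NeZero (M * s) := ⟨mul_ne_zero (NeZero.ne M) (NeZero.ne s)⟩
  have : NeZero (M * s * d) := ⟨mul_ne_zero (NeZero.ne _) hd0⟩
  let _ := algL (A := A) (F1 K (c.tK M) (M * s) M) (tE K (c.tK M))
  have hinj : Function.Injective (algebraMap (F1 K (c.tK M) (M * s) M) (Om K)) :=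
    (algebraMap (F1 K (c.tK M) (M * s) M) (Om K)).injective
  -- the structure map on integer polynomials
  have hmap : ∀ p : ℤ[X], algebraMap (F1 K (c.tK M) (M * s) M) (Om K)
      (algebraMap A[X] (F1 K (c.tK M) (M * s) M) (p.map (algebraMap ℤ A))) = aeval (c.tK M) p := by
    intro p
    change ((aeval (tE K (c.tK M)) (p.map (algebraMap ℤ A)) : EE K (c.tK M)) : Om K) = _
    rw [BasicB_aeval_map_int, BasicB_coe_aeval_int]
  obtain ⟨k, hk⟩ := BasicB_exists_pow_smul_isIntegral (L := F1 K (c.tK M) (M * s) M)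
    (P.map (algebraMap ℤ A)) (Q.map (algebraMap ℤ A))
    (by
      intro h
      have h2 := hmap Q
      rw [h, map_zero, ← BasicB_coe_aeval_int] at h2
      exact BasicB_aeval_ne_zero c M hQ (Subtype.ext h2.symm))
    (algebraMap (EE K (c.tK M)) (F1 K (c.tK M) (M * s) M) ⟨jd K (M * s), jd_mem_EE c M hQ⟩)
    (by
      apply hinj
      rw [map_mul, hmap, hmap, rel_tK c M]
      rfl)
    (⟨jd K (M * s * d), gen_mem_F1 c M hd⟩ : F1 K (c.tK M) (M * s) M)
    (by
      obtain ⟨G, hG, hGe⟩ :=
        (Fermat.Agent.S28.isIntegralElem_V_of_dvd A (M * s) (M * s * d) (dvd_mul_right _ _)).1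
      refine ⟨G, hG, hinj ?_⟩
      have h3 := congrArg (coeffMap A.subtype) hGe
      rw [hom_eval₂, map_zero, Fermat.Agent.S28.Build.coeffMap_V,
        Fermat.Agent.S28.Build.coeffMap_J, ← Fermat.Agent.S28.jd_eq] at h3
      rw [hom_eval₂, map_zero, ← h3]
      congr 1
      refine Polynomial.ringHom_ext (fun a => ?_) ?_
      · simp only [RingHom.comp_apply, coe_eval₂RingHom, eval₂_C, Fermat.Agent.S28.Build.evAt_C]
        rw [Fermat.Agent.S28.Build.coeffMap_C, Fermat.Agent.S28.C_eq_algebraMap]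
        change ((aeval (tE K (c.tK M)) (C a : A[X]) : EE K (c.tK M)) : Om K) = _
        rw [aeval_C]
        rfl
      · simp only [RingHom.comp_apply, coe_eval₂RingHom, eval₂_X, Fermat.Agent.S28.Build.evAt_X,
          Fermat.Agent.S28.Build.coeffMap_V, Fermat.Agent.S28.Build.coeffMap_J,
          ← Fermat.Agent.S28.jd_eq]
        rfl)
  refine ⟨(Q.map (algebraMap ℤ A)) ^ k, ?_, hk⟩
  intro hdvd
  have h1 := (Polynomial.prime_C_iff.mpr hπ.prime).dvd_of_dvd_pow hdvd
  rw [C_dvd_iff_dvd_coeff] at h1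
  have h2 := h1 (Q.map (algebraMap ℤ A)).natDegree
  rw [coeff_natDegree, (hQ.map (algebraMap ℤ A)).leadingCoeff] at h2
  exact hπ.not_isUnit (isUnit_of_dvd_one h2)

/-- `V_e` maps the function field `K(j(q^d) : d ∣ M)` into `F`. -/
theorem qExpand_mem_F1 {f : LaurentSeries K} (hf : f ∈ modularFunctionFieldFullC K M) :
    qExpand K (M * s) f ∈ F1 K (c.tK M) (M * s) M := by
  have : NeZero (M * s) := ⟨mul_ne_zero (NeZero.ne M) (NeZero.ne s)⟩
  have hle : modularFunctionFieldFullC K M ≤
      ((F1 K (c.tK M) (M * s) M).restrictScalars K).comap (Fermat.Agent.S28.Va (M * s)) := by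
    rw [Fermat.Agent.S28.full_le_iff]
    intro d hd0 hd
    change Fermat.Agent.S28.V K (M * s) (jd K d) ∈ F1 K (c.tK M) (M * s) M
    rw [Fermat.Agent.S28.V_jd (M * s) hd0]
    exact gen_mem_F1 c M hd
  exact hle hf

end

end Fermat.Agent.Crux.GT
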