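import Fermat.Agent.S28.BuildData
import Fermat.Agent.S28.DegreeBasic

/-!
# Crux / GT : the conjugates of `j(q^d)` over `K(j)` are the series `J(c x^m)`

`x = q^{1/e}`, `M ∣ e`.  Every ring homomorphism `eps` (into any field `Ω ⊇ K((x))`) defined on a
ring `F' ⊆ K((x))` containing `K` and the `j(x^{e d})`, `d ∣ M`, which is the inclusion on `K` and on
`j(x^e)`, sends `j(x^{e d})` to `J(c x^m)` for some `c` with `c^d = 1` and some `m > 0` with
`(e/d) ∣ m`.  Two such series with `(c,m) ≠ (c',m')` are different modulo every prime not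
dividing `M`.
-/

set_option autoImplicit false

open ModularCurve HahnSeries Polynomial Fermat.Agent.S28

namespace Fermat.Agent.Crux.GT

noncomputable section

section Formal

variable {A : Type*} [CommRing A]

theorem scale_C (c : Aˣ) (a : A) : scale c (HahnSeries.C a : LaurentSeries A) = HahnSeries.C a := by
  ext n
  rw [scale_coeff, HahnSeries.C_apply, HahnSeries.coeff_single]
  split_ifs with h
  · subst h; simp
  · simp

theorem scale_scale (c c' : Aˣ) (x : LaurentSeries A) :
    scale c (scale c' x) = scale (c * c') x := by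
  ext n
  rw [scale_coeff, scale_coeff, scale_coeff, mul_zpow, Units.val_mul, mul_assoc]

theorem scale_V (c : Aˣ) (p : ℕ) [NeZero p] (x : LaurentSeries A) :
    scale c (V A p x) = V A p (scale (c ^ p) x) := by
  ext n
  by_cases hn : (p : ℤ) ∣ n
  · obtain ⟨k, rfl⟩ := hn
    rw [scale_coeff, qExpand_coeff_mul, qExpand_coeff_mul, scale_coeff, zpow_mul, zpow_natCast]
  · rw [scale_coeff, qExpand_coeff_of_not_dvd p _ hn, qExpand_coeff_of_not_dvd p _ hn, mul_zero]

/-- a ring hom fixing the constants commutes with `evAt`. -/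
theorem comp_evAt {B : Type*} [CommRing B] (ψ : LaurentSeries A →+* B) (x : LaurentSeries A) :
    ψ.comp (evAt x) = Polynomial.eval₂RingHom (ψ.comp HahnSeries.C) (ψ x) := by
  refine Polynomial.ringHom_ext (fun a => ?_) ?_
  · simp [evAt]
  · simp [evAt]

theorem comp_evAt' (ψ : LaurentSeries A →+* LaurentSeries A)
    (hψ : ∀ a, ψ (HahnSeries.C a) = HahnSeries.C a) (x : LaurentSeries A) :
    ψ.comp (evAt x) = evAt (ψ x) := by
  refine Polynomial.ringHom_ext (fun a => ?_) ?_
  · have := hψ a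
    rw [HahnSeries.C_apply] at this
    simp [evAt, this]
  · simp [evAt]

/-- The substitution `Q ↦ c x^n`. -/
def subst (c : Aˣ) (n : ℕ) [NeZero n] : LaurentSeries A →+* LaurentSeries A :=
  (V A n).comp (scale c)

theorem subst_apply (c : Aˣ) (n : ℕ) [NeZero n] (x : LaurentSeries A) :
    subst c n x = V A n (scale c x) := rfl

theorem subst_C (c : Aˣ) (n : ℕ) [NeZero n] (a : A) :
    subst c n (HahnSeries.C a) = HahnSeries.C a := by
  rw [subst_apply, scale_C, qExpand_C]

theorem subst_V (c : Aˣ) (n p : ℕ) [NeZero n] [NeZero p] (x : LaurentSeries A) :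
    subst c n (V A p x) = subst (c ^ p) (n * p) x := by
  rw [subst_apply, subst_apply, scale_V, qExpand_qExpand]

theorem subst_scale (c c' : Aˣ) (n : ℕ) [NeZero n] (x : LaurentSeries A) :
    subst c n (scale c' x) = subst (c * c') n x := by
  rw [subst_apply, subst_apply, scale_scale]

end Formal

/-- The part of `S28.ModEqData` which is used here. -/
structure PhiData (A : Type*) [CommRing A] (p : ℕ) [NeZero p] where
  ζ : Aˣ
  Φ : Polynomial (Polynomial A)
  hζ : ζ ^ p = 1
  hΦ : Φ.map (evAt (V A p (J A))) =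
    (X - Polynomial.C (V A p (V A p (J A)))) *
      ∏ b ∈ Finset.range p, (X - Polynomial.C (scale (ζ ^ b) (J A)))

namespace PhiData

variable {A : Type*} [CommRing A] {p : ℕ} [NeZero p] (D : PhiData A p)

/-- `Φ(j(q^p), j(q)) = 0`. -/
theorem eval_eq_zero : (D.Φ.map (evAt (J A))).eval (V A p (J A)) = 0 := by
  apply qExpand_injective (R := A) p
  rw [map_zero, ← Polynomial.eval_map_apply, Polynomial.map_map, comp_evAt' _ (qExpand_C p), D.hΦ]
  simp

/-- `Φ(j(x^{np}), j(x^n)) = 0`. -/
theorem eval_V_eq_zero (n : ℕ) [NeZero n] :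
    (D.Φ.map (evAt (V A n (J A)))).eval (V A (n * p) (J A)) = 0 := by
  have h := congrArg (V A n) D.eval_eq_zero
  rw [map_zero, ← Polynomial.eval_map_apply, Polynomial.map_map, comp_evAt' _ (qExpand_C n),
    qExpand_qExpand] at h
  exact h

/-- `Φ(X, J(c^p x^{np})) = (X - J(c^{p^2} x^{n p^2})) ∏_b (X - J(c ζ^b x^n))`. -/
theorem map_subst (c : Aˣ) (n : ℕ) [NeZero n] :
    D.Φ.map (evAt (subst (c ^ p) (n * p) (J A))) =
      (X - Polynomial.C (subst ((c ^ p) ^ p) (n * p * p) (J A))) *
        ∏ b ∈ Finset.range p, (X - Polynomial.C (subst (c * D.ζ ^ b) n (J A))) := by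
  have h := congrArg (Polynomial.map (subst c n)) D.hΦ
  rw [Polynomial.map_map, comp_evAt' _ (subst_C c n), subst_V] at h
  rw [h, Polynomial.map_mul, Polynomial.map_prod]
  simp only [Polynomial.map_sub, Polynomial.map_X, Polynomial.map_C, subst_V, subst_scale]

end PhiData

/-- extraction of `p`-th roots of roots of unity. -/
theorem exists_root_of_isPrimitiveRoot {K : Type*} [Field K] {M : ℕ} [NeZero M] (z : K)
    (hz : IsPrimitiveRoot z M) {d p : ℕ} (hdp : d * p ∣ M) (c : Kˣ) (hc : c ^ d = 1) :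
    ∃ c1 : Kˣ, c1 ^ p = c := by
  obtain ⟨t, ht⟩ := hdp
  have hM : M ≠ 0 := NeZero.ne M
  have hd : d ≠ 0 := by
    rintro rfl
    exact hM (by rw [ht]; simp)
  have : NeZero d := ⟨hd⟩
  have hz' : IsPrimitiveRoot (z ^ (p * t)) d :=
    hz.pow (Nat.pos_of_ne_zero hM) (by rw [ht]; ring)
  have hc' : (c : K) ^ d = 1 := by
    rw [← Units.val_pow_eq_pow_val, hc, Units.val_one]
  obtain ⟨i, -, hi⟩ := hz'.eq_pow_of_pow_eq_one hc'
  refine ⟨Units.mk0 (z ^ (t * i)) (pow_ne_zero _ (hz.ne_zero hM)), ?_⟩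
  apply Units.ext
  rw [Units.val_pow_eq_pow_val, Units.val_mk0, ← hi, ← pow_mul, ← pow_mul]
  congr 1
  ring

/-- **The conjugates of `j(x^{ed})`.** -/
theorem exists_conj {K : Type*} [Field K] (M : ℕ) [NeZero M] (z : K) (hz : IsPrimitiveRoot z M)
    (D : ∀ p : ℕ, p.Prime → p ∣ M → ∃ (_ : NeZero p), Nonempty (PhiData K p))
    (e : ℕ) [NeZero e] (he : M ∣ e)
    {Ω : Type*} [Field Ω] (inc : LaurentSeries K →+* Ω)
    {F' : Type*} [CommRing F'] (φ : F' →+* LaurentSeries K) (hφ : Function.Injective φ)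
    (cst : K →+* F') (hcst : ∀ a, φ (cst a) = HahnSeries.C a)
    (eps : F' →+* Ω) (heps : ∀ a, eps (cst a) = inc (HahnSeries.C a))
    (hgen : ∀ (d : ℕ) (_ : NeZero d), d ∣ M → ∃ y : F', φ y = V K (e * d) (J K))
    (h1 : ∀ y : F', φ y = V K e (J K) → eps y = inc (V K e (J K))) :
    ∀ (d : ℕ) (_ : NeZero d), d ∣ M → ∀ y : F', φ y = V K (e * d) (J K) →
      ∃ (c : Kˣ) (m : ℕ) (_ : NeZero m), c ^ d = 1 ∧ (e / d) ∣ m ∧
        eps y = inc (V K m (scale c (J K))) := by
  intro d
  induction d using Nat.strong_induction_on with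
  | _ d ih =>
    intro hd0 hdM y hy
    by_cases hd1 : d = 1
    · subst hd1
      refine ⟨1, e, inferInstance, by simp, by simp, ?_⟩
      rw [scale_one]
      apply h1
      rw [hy]
      exact qExpand_congr (mul_one e) _
    · obtain ⟨p, hp, hpd⟩ := Nat.exists_prime_and_dvd hd1
      obtain ⟨d', rfl⟩ := hpd
      have hp0 : NeZero p := ⟨hp.ne_zero⟩
      have hd'0 : NeZero d' := ⟨fun h => NeZero.ne (p * d') (by rw [h, mul_zero])⟩
      have hd'M : d' ∣ M := (Dvd.intro_left p rfl).trans hdM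
      have hlt : d' < p * d' :=
        lt_mul_of_one_lt_left (Nat.pos_of_ne_zero (NeZero.ne d')) hp.one_lt
      obtain ⟨y', hy'⟩ := hgen d' hd'0 hd'M
      obtain ⟨c, m, hm, hc, hem, hey'⟩ := ih d' hlt hd'0 hd'M y' hy'
      obtain ⟨_, ⟨Dp⟩⟩ := D p hp ((Dvd.intro _ rfl).trans hdM)
      -- arithmetic
      obtain ⟨s, hs⟩ := hdM
      obtain ⟨t, ht⟩ := he
      have he1 : e / d' = p * (s * t) :=
        Nat.div_eq_of_eq_mul_right (Nat.pos_of_ne_zero (NeZero.ne d')) (by rw [ht, hs]; ring)
      have he2 : e / (p * d') = s * t :=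
        Nat.div_eq_of_eq_mul_right (Nat.pos_of_ne_zero (NeZero.ne (p * d'))) (by rw [ht, hs]; ring)
      rw [he1] at hem
      obtain ⟨n, rfl⟩ : p ∣ m := dvd_of_mul_right_dvd hem
      have hn0 : NeZero n := ⟨fun h => NeZero.ne (p * n) (by rw [h, mul_zero])⟩
      have hstn : s * t ∣ n := Nat.dvd_of_mul_dvd_mul_left hp.pos hem
      obtain ⟨c1, hc1⟩ := exists_root_of_isPrimitiveRoot z hz (d := d') (p := p)
        (by rw [hs, mul_comm d' p]; exact Dvd.intro _ rfl) c hc
      -- the modular equation, transported to `F'` and then to `Ω`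
      have hrel := Dp.eval_V_eq_zero (e * d')
      let evF : Polynomial K →+* F' := Polynomial.eval₂RingHom cst y'
      have hφev : φ.comp evF = evAt (V K (e * d') (J K)) := by
        refine Polynomial.ringHom_ext (fun a => ?_) ?_
        · simp [evF, evAt, hcst]
        · simp [evF, evAt, hy']
      have hF : (Dp.Φ.map evF).eval y = 0 := by
        apply hφ
        rw [map_zero, ← Polynomial.eval_map_apply, Polynomial.map_map, hφev, hy,
          qExpand_congr (show e * (p * d') = e * d' * p by ring), hrel]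
      have hΩ : ((Dp.Φ.map evF).map eps).eval (eps y) = 0 := by
        rw [Polynomial.eval_map_apply, hF, map_zero]
      have hepsev : eps.comp evF = inc.comp (evAt (subst (c1 ^ p) (n * p) (J K))) := by
        refine Polynomial.ringHom_ext (fun a => ?_) ?_
        · simp [evF, evAt, heps]
        · simp only [evF, evAt, RingHom.comp_apply, Polynomial.coe_eval₂RingHom,
            Polynomial.eval₂_X]
          rw [hey', hc1, subst_apply, qExpand_congr (mul_comm p n)]
      rw [Polynomial.map_map, hepsev, ← Polynomial.map_map, Dp.map_subst c1 n] at hΩ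
      simp only [Polynomial.map_mul, Polynomial.map_prod, Polynomial.map_sub, Polynomial.map_X,
        Polynomial.map_C, Polynomial.eval_mul, Polynomial.eval_prod, Polynomial.eval_sub,
        Polynomial.eval_X, Polynomial.eval_C] at hΩ
      rw [he2]
      rcases mul_eq_zero.1 hΩ with h | h
      · refine ⟨(c1 ^ p) ^ p, n * p * p, inferInstance, ?_, ?_, sub_eq_zero.1 h⟩
        · rw [hc1, ← pow_mul, show p * (p * d') = d' * (p * p) by ring, pow_mul, hc, one_pow]
        · exact Dvd.dvd.mul_right (Dvd.dvd.mul_right hstn p) p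
      · obtain ⟨b, -, hb0⟩ := Finset.prod_eq_zero_iff.1 h
        refine ⟨c1 * Dp.ζ ^ b, n, inferInstance, ?_, hstn, sub_eq_zero.1 hb0⟩
        rw [mul_pow, pow_mul, hc1, hc, one_mul, ← pow_mul,
          show b * (p * d') = p * (b * d') by ring, pow_mul, Dp.hζ, one_pow]

/-! ### Separation modulo a prime not dividing `M` -/

theorem eq_of_V_scale_J_eq {k : Type*} [Field k] {m m' : ℕ} [NeZero m] [NeZero m'] {u u' : kˣ}
    (h : V k m (scale u (J k)) = V k m' (scale u' (J k))) : m = m' ∧ u = u' := by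
  have h1 := congrArg HahnSeries.order h
  rw [order_V_scale_J, order_V_scale_J] at h1
  have hm : m = m' := by omega
  subst hm
  refine ⟨rfl, ?_⟩
  have h2 := qExpand_injective m h
  have h3 := congrArg (fun x => x.coeff (-1)) h2
  simp only [scale_coeff, coeff_jqModC_neg_one, mul_one] at h3
  have h4 := Units.ext h3
  simpa using h4

/-- reduction is injective on `M`-th roots of unity when `M` is invertible in the residue field. -/
theorem eq_of_map_eq_of_pow_eq_one {A k : Type*} [CommRing A] [IsDomain A] [Field k]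
    (r : A →+* k) {M : ℕ} (hM : (M : k) ≠ 0) {c c' : Aˣ} (hc : c ^ M = 1) (hc' : c' ^ M = 1)
    (h : r c = r c') : c = c' := by
  by_contra hne
  set u : Aˣ := c * c'⁻¹ with hu
  have huM : (u : A) ^ M = 1 := by
    rw [← Units.val_pow_eq_pow_val, hu, mul_pow, inv_pow, hc, hc']
    simp
  have hu1 : (u : A) ≠ 1 := by
    intro h1
    apply hne
    have h2 : u = 1 := Units.ext h1
    rw [hu, mul_inv_eq_one] at h2
    exact h2
  have hsum : ∑ i ∈ Finset.range M, (u : A) ^ i = 0 := by
    have h1 := geom_sum_mul (u : A) M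
    rw [huM, sub_self] at h1
    exact (mul_eq_zero.1 h1).resolve_right (sub_ne_zero.2 hu1)
  have hru : r (u : A) = 1 := by
    have h1 : (u : A) * c' = c := by
      rw [hu, ← Units.val_mul, inv_mul_cancel_right]
    have h2 := congrArg r h1
    rw [map_mul, h] at h2
    have h3 : r (c' : A) ≠ 0 := (c'.isUnit.map r).ne_zero
    exact mul_right_cancel₀ h3 (by rw [h2, one_mul])
  have h5 := congrArg r hsum
  rw [map_sum, map_zero] at h5
  simp only [map_pow, hru, one_pow, Finset.sum_const, Finset.card_range, nsmul_eq_mul,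
    mul_one] at h5
  exact hM h5

/-- **Separation.** -/
theorem eq_of_coeffMap_eq {A k : Type*} [CommRing A] [IsDomain A] [Field k]
    (r : A →+* k) {M : ℕ} (hM : (M : k) ≠ 0) {c c' : Aˣ} (hc : c ^ M = 1) (hc' : c' ^ M = 1)
    {m m' : ℕ} [NeZero m] [NeZero m']
    (h : coeffMap r (V A m (scale c (J A))) = coeffMap r (V A m' (scale c' (J A)))) :
    m = m' ∧ c = c' := by
  rw [Build.coeffMap_V, Build.coeffMap_V, Build.coeffMap_scale, Build.coeffMap_scale,
    Build.coeffMap_J] at h
  obtain ⟨h1, h2⟩ := eq_of_V_scale_J_eq h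
  refine ⟨h1, eq_of_map_eq_of_pow_eq_one r hM hc hc' ?_⟩
  exact congrArg Units.val h2

/-- roots of unity lie in every valuation subring. -/
theorem exists_unit_lift {K : Type*} [Field K] (A : ValuationSubring K) {M : ℕ} (hM : M ≠ 0)
    (c : Kˣ) (hc : c ^ M = 1) : ∃ cA : Aˣ, Units.map (A.subtype : A →* K) cA = c := by
  have key : ∀ c : Kˣ, c ^ M = 1 → (c : K) ∈ A := by
    intro c hc
    rcases A.mem_or_inv_mem (c : K) with h | h
    · exact h
    · have h1 : (c : K) = ((c : K)⁻¹) ^ (M - 1) := by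
        have h2 : (c : K) ^ M = 1 := by rw [← Units.val_pow_eq_pow_val, hc, Units.val_one]
        have h3 : (c : K) ^ (M - 1) * c = 1 := by
          rw [← pow_succ, Nat.sub_add_cancel (Nat.pos_of_ne_zero hM), h2]
        rw [inv_pow, eq_inv_of_mul_eq_one_left h3, inv_inv]
      rw [h1]
      exact A.pow_mem h _
  refine ⟨⟨⟨c, key c hc⟩, ⟨((c⁻¹ : Kˣ) : K), key c⁻¹ (by rw [inv_pow, hc, inv_one])⟩, ?_, ?_⟩, ?_⟩
  · apply Subtype.ext; simp
  · apply Subtype.ext; simp
  · apply Units.ext; rfl

theorem coeffMap_subtype_V_scale_J {K : Type*} [Field K] (A : ValuationSubring K) (cA : Aˣ)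
    (m : ℕ) [NeZero m] :
    coeffMap A.subtype (V A m (scale cA (J A)))
      = V K m (scale (Units.map (A.subtype : A →* K) cA) (J K)) := by
  rw [Build.coeffMap_V, Build.coeffMap_scale, Build.coeffMap_J]

/-! ### The modular equation over a subring of `ℂ` -/

open Build in
theorem exists_phiData_of_injective {A : Type*} [CommRing A] (ι : A →+* ℂ)
    (hι : Function.Injective ι) (p : ℕ) [NeZero p] (hp : p.Prime) (ζ : Aˣ)
    (hζ : IsPrimitiveRoot (Units.map (ι : A →* ℂ) ζ) p) : Nonempty (PhiData A p) := by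
  obtain ⟨-, h2, -⟩ := coeffs_mem p _ hp hζ
  have key : ∀ (G : Polynomial (LaurentSeries A)) (G' : Polynomial (LaurentSeries ℂ)),
      G.map (coeffMap ι) = G' → (∀ k, G'.coeff k ∈ PC p) →
      G ∈ Polynomial.lifts (evAt (V A p (J A))) := by
    intro G G' hG hG'
    rw [Polynomial.lifts_iff_coeff_lifts]
    intro n
    refine mem_range_evAt_of_coeffMap ι hι p _ ?_
    rw [← Polynomial.coeff_map, hG]
    exact hG' n
  obtain ⟨Φ, hΦ, -, -⟩ := Polynomial.lifts_and_natDegree_eq_and_monic
    (key _ _ (map_PhiL ι p ζ) h2) (PhiL_monic A p ζ)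
  refine ⟨⟨ζ, Φ, ?_, ?_⟩⟩
  · have h1 := hζ.pow_eq_one
    rw [← map_pow] at h1
    apply Units.ext
    apply hι
    have h3 := congrArg Units.val h1
    simpa using h3
  · rw [hΦ, PhiL_eq]

/-- `PhiData` for all primes dividing `M`, over a field `K ⊆ ℂ` containing the `M`-th roots
of unity. -/
theorem exists_phiData {K : Type*} [Field K] (ι : K →+* ℂ) {M : ℕ} [NeZero M] (z : K)
    (hz : IsPrimitiveRoot z M) :
    ∀ p : ℕ, p.Prime → p ∣ M → ∃ (_ : NeZero p), Nonempty (PhiData K p) := by
  intro p hp hpM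
  have hp0 : NeZero p := ⟨hp.ne_zero⟩
  refine ⟨hp0, ?_⟩
  obtain ⟨t, ht⟩ := hpM
  have hM : M ≠ 0 := NeZero.ne M
  have hz' : IsPrimitiveRoot (z ^ t) p :=
    hz.pow (Nat.pos_of_ne_zero hM) (by rw [ht, mul_comm])
  refine exists_phiData_of_injective ι ι.injective p hp
    (Units.mk0 (z ^ t) (pow_ne_zero _ (hz.ne_zero hM))) ?_
  rw [← IsPrimitiveRoot.coe_units_iff]
  exact hz'.map_of_injective ι.injective

/-! ### The form needed by `Crux.G.tracePerfectx_of_embeddings` -/

/-- For a family `eps a` of ring homs as in `exists_conj`, the images of `j(x^{ed})` have integral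
expansions `Y a`, and `eps a`, `eps b` agree on `j(x^{ed})` as soon as `Y a ≡ Y b` modulo the
maximal ideal. -/
theorem exists_integral_lifts {K : Type*} [Field K] (M : ℕ) [NeZero M] (z : K)
    (hz : IsPrimitiveRoot z M)
    (D : ∀ p : ℕ, p.Prime → p ∣ M → ∃ (_ : NeZero p), Nonempty (PhiData K p))
    (e : ℕ) [NeZero e] (he : M ∣ e)
    {Ω : Type*} [Field Ω] (inc : LaurentSeries K →+* Ω)
    {F' : Type*} [CommRing F'] (φ : F' →+* LaurentSeries K) (hφ : Function.Injective φ)
    (cst : K →+* F') (hcst : ∀ a, φ (cst a) = HahnSeries.C a)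
    (hgen : ∀ (d : ℕ) (_ : NeZero d), d ∣ M → ∃ y : F', φ y = V K (e * d) (J K))
    {I : Type*} (eps : I → F' →+* Ω) (heps : ∀ i a, eps i (cst a) = inc (HahnSeries.C a))
    (h1 : ∀ i (y : F'), φ y = V K e (J K) → eps i y = inc (V K e (J K)))
    (A : ValuationSubring K) {k : Type*} [Field k] (r : A →+* k) (hM : (M : k) ≠ 0)
    (d : ℕ) [NeZero d] (hd : d ∣ M) (y : F') (hy : φ y = V K (e * d) (J K)) :
    ∃ Y : I → LaurentSeries A, (∀ i, eps i y = inc (coeffMap A.subtype (Y i))) ∧
      ∀ i i', coeffMap r (Y i) = coeffMap r (Y i') → eps i y = eps i' y := by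
  choose c m hm hc _ hey using fun i =>
    exists_conj M z hz D e he inc φ hφ cst hcst (eps i) (heps i) hgen (h1 i) d inferInstance hd y hy
  have hcM : ∀ i, c i ^ M = 1 := by
    intro i
    obtain ⟨t, rfl⟩ := hd
    rw [pow_mul, hc, one_pow]
  choose cA hcA using fun i => exists_unit_lift A (NeZero.ne M) (c i) (hcM i)
  have hcAM : ∀ i, cA i ^ M = 1 := by
    intro i
    apply Units.ext
    apply Subtype.ext
    have h2 := congrArg Units.val (hcM i)
    rw [← hcA i] at h2
    simpa using h2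
  refine ⟨fun i => haveI := hm i; V A (m i) (scale (cA i) (J A)), fun i => ?_, fun i i' h => ?_⟩
  · have := hm i
    rw [coeffMap_subtype_V_scale_J, hcA, hey]
  · have := hm i
    have := hm i'
    obtain ⟨h2, h3⟩ := eq_of_coeffMap_eq r hM (hcAM i) (hcAM i') h
    rw [hey, hey, ← hcA i, ← hcA i', h3]
    exact congrArg inc (qExpand_congr h2 _)

end

end Fermat.Agent.Crux.GT
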