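import Fermat.Agent.Crux.GT.Base
import Fermat.Agent.S28.DegreeJd
import Fermat.Agent.Crux.G.Defs

/-!
# Crux / GT : the concrete tower `E = K(t) ⊆ F = E(j(x^{e d}) : d ∣ M) ⊆ L = F(w)` inside `K((x))`

`q = x^e`, `e = M s`, `y = x^M`, `t = Z(y)/y` with `P(t) = j(x^e) Q(t)`.
-/

set_option autoImplicit false

open Polynomial ModularCurve
open scoped IntermediateField

namespace Fermat.Agent.Crux.GT

noncomputable section

open Fermat.Agent.S28 (jd)

variable (K : Type) [Field K]

/-- `K((x))`. -/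
abbrev Om : Type := LaurentSeries K

/-- The generators `j(x^{e d})`, `d ∣ M`. -/
def gens (e M : ℕ) : Set (Om K) := {f | ∃ d, d ∣ M ∧ f = jd K (e * d)}

variable (t : Om K) (e M : ℕ)

/-- `E = K(t)`. -/
abbrev EE : IntermediateField K (Om K) := K⟮t⟯

/-- `F = E(j(x^{e d}) : d ∣ M)`. -/
abbrev F1 : IntermediateField (EE K t) (Om K) := IntermediateField.adjoin (EE K t) (gens K e M)

/-- `L = F(w)`. -/
abbrev L1 (w : Om K) : IntermediateField (F1 K t e M) (Om K) :=
  IntermediateField.adjoin (F1 K t e M) {w}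

/-- `t` as an element of `E`. -/
def tE : EE K t := ⟨t, IntermediateField.mem_adjoin_simple_self K t⟩

variable {K} (A : ValuationSubring K)

instance instAlgAE : Algebra A (EE K t) := ((algebraMap K (EE K t)).comp A.subtype).toAlgebra

instance instAlgAF : Algebra A (F1 K t e M) :=
  ((algebraMap (EE K t) (F1 K t e M)).comp (algebraMap A (EE K t))).toAlgebra

instance instAlgAL (w : Om K) : Algebra A (L1 K t e M w) :=
  ((algebraMap (EE K t) (L1 K t e M w)).comp (algebraMap A (EE K t))).toAlgebra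

instance instTowerAEF : IsScalarTower A (EE K t) (F1 K t e M) := IsScalarTower.of_algebraMap_eq' rfl

instance instTowerAEL (w : Om K) : IsScalarTower A (EE K t) (L1 K t e M w) :=
  IsScalarTower.of_algebraMap_eq' rfl

/-- The formal coordinate over `A`. -/
structure Coord (A : ValuationSubring K) (s : ℕ) [NeZero s] (P Q : ℤ[X]) where
  Z : PowerSeries A
  hZ : IsUnit (PowerSeries.constantCoeff Z)
  hrel : aeval (tOf Z) P = qExpand A s (jqModC A) * aeval (tOf Z) Q

variable {A} {s : ℕ} [NeZero s] {P Q : ℤ[X]}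

/-- `t = Z(x^M)/x^M ∈ A((x))`. -/
def Coord.tA (c : Coord A s P Q) (M : ℕ) [NeZero M] : LaurentSeries A := qExpand A M (tOf c.Z)

/-- `t ∈ K((x))`. -/
def Coord.tK (c : Coord A s P Q) (M : ℕ) [NeZero M] : Om K := coeffMap A.subtype (c.tA M)

end

end Fermat.Agent.Crux.GT
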