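import Mathlib

/-!
# Crux / GT : pure field theory

* `extend`: `Kj ⊆ F₀` finite, `E ⊆ F` finite, char `0`, `φ : F₀ → F`, `ψ : Kj → E` compatible, `F` generated by
  `E` and `φ(F₀)`.  Suppose `F₀` has `[F₀ : Kj]` distinct embeddings `σ_a` into a field `M` which all
  restrict to `ι ∘ ψ` on `Kj`, where `ι : E → M`.  Then `F` has `[F : E]` distinct embeddings into `M`
  extending `ι`, and each of them restricts to some `σ_a` on `F₀`.
  Proof: let `M̄` be an algebraic closure of `M`.  There are exactly `[F : E]` `E`-embeddings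
  `τ : F → M̄` (`E → M → M̄` via `ι`; separable, `AlgHom.card_of_splits` / `Field.finSepDegree`…).  `τ ∘ φ` is
  a `Kj`-embedding `F₀ → M̄`; there are at most `[F₀ : Kj]` of those (`card_algHom_le_finrank`), so the
  `σ_a` are all of them (pigeonhole): `τ ∘ φ = σ_a`.  So the subfield `τ⁻¹(M)` of `F` contains `E` and `φ(F₀)`:
  it is `⊤`; corestrict `τ` to `M`.
* `all_embeddings`: the same with a *criterion* instead of a family: if every extension of `ι` to
  an embedding `F → M̄` maps a generating set into `M`, then there are `[F : E]` embeddings into `M`.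
-/

set_option autoImplicit false

namespace Fermat.Agent.Crux.GT

theorem all_embeddings {E F M Mb : Type*} [Field E] [Field F] [Field M] [Field Mb] [CharZero E]
    [Algebra E F] [FiniteDimensional E F] [Algebra M Mb] [IsAlgClosed Mb]
    (ι : E →+* M) (S : Set F)
    (hgen : ∀ T : Subfield F, (∀ c, algebraMap E F c ∈ T) → S ⊆ T → T = ⊤)
    (hS : ∀ ε : F →+* Mb, (∀ c, ε (algebraMap E F c) = algebraMap M Mb (ι c)) →
      ∀ y ∈ S, ε y ∈ Set.range (algebraMap M Mb)) :
    ∃ τ : Fin (Module.finrank E F) → (F →+* M), Function.Injective τ ∧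
      (∀ i c, τ i (algebraMap E F c) = ι c) := by
  classical
  let _ : Algebra E Mb := ((algebraMap M Mb).comp ι).toAlgebra
  have halg : ∀ c : E, algebraMap E Mb c = algebraMap M Mb (ι c) := fun c => rfl
  have hcard : Fintype.card (F →ₐ[E] Mb) = Module.finrank E F := AlgHom.card E F Mb
  have hinj : Function.Injective (algebraMap M Mb) := (algebraMap M Mb).injective
  -- every embedding lands in `M`
  have hrange : ∀ (τ' : F →ₐ[E] Mb) (y : F), τ' y ∈ Set.range (algebraMap M Mb) := by
    intro τ' y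
    have hT := hgen ((algebraMap M Mb).fieldRange.comap τ'.toRingHom)
      (fun c => by
        rw [Subfield.mem_comap]
        exact ⟨ι c, by simp [halg]⟩)
      (fun y hy => by
        rw [SetLike.mem_coe, Subfield.mem_comap]
        exact hS τ'.toRingHom (fun c => by simp [halg]) y hy)
    have : y ∈ (algebraMap M Mb).fieldRange.comap τ'.toRingHom := by rw [hT]; trivial
    exact this
  choose g hg using hrange
  let mk : (F →ₐ[E] Mb) → (F →+* M) := fun τ' =>
    { toFun := g τ'
      map_one' := hinj (by rw [hg, map_one, map_one])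
      map_mul' := fun x y => hinj (by rw [hg, map_mul, map_mul, hg, hg])
      map_zero' := hinj (by rw [hg, map_zero, map_zero])
      map_add' := fun x y => hinj (by rw [hg, map_add, map_add, hg, hg]) }
  have hmk : ∀ τ' y, algebraMap M Mb (mk τ' y) = τ' y := fun τ' y => hg τ' y
  let e := Fintype.equivFinOfCardEq hcard
  refine ⟨fun i => mk (e.symm i), ?_, ?_⟩
  · intro i j hij
    apply e.symm.injective
    ext y
    rw [← hmk, ← hmk]
    exact congrArg (fun f : F →+* M => algebraMap M Mb (f y)) hij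
  · intro i c
    apply hinj
    rw [hmk, AlgHom.commutes, halg]

theorem extend {Kj F₀ E F M : Type*} [Field Kj] [Field F₀] [Field E] [Field F] [Field M]
    [CharZero Kj] [Algebra Kj F₀] [FiniteDimensional Kj F₀] [Algebra E F] [FiniteDimensional E F]
    (φ : F₀ →+* F) (ψ : Kj →+* E) (hφψ : ∀ c, φ (algebraMap Kj F₀ c) = algebraMap E F (ψ c))
    (hgen : ∀ T : Subfield F, (∀ c, algebraMap E F c ∈ T) → (∀ f, φ f ∈ T) → T = ⊤)
    {X : Type*} [Fintype X] (hX : Fintype.card X = Module.finrank Kj F₀)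
    (σ : X → (F₀ →+* M)) (hσ : Function.Injective σ) (ι : E →+* M)
    (hι : ∀ a c, σ a (algebraMap Kj F₀ c) = ι (ψ c)) :
    ∃ τ : Fin (Module.finrank E F) → (F →+* M), Function.Injective τ ∧
      (∀ i c, τ i (algebraMap E F c) = ι c) ∧ ∀ i, ∃ a, ∀ f, τ i (φ f) = σ a f := by
  classical
  have : CharZero E := charZero_of_injective_ringHom ψ.injective
  let Mb := AlgebraicClosure M
  have hinj : Function.Injective (algebraMap M Mb) := (algebraMap M Mb).injective
  let _ : Algebra Kj Mb := (((algebraMap M Mb).comp ι).comp ψ).toAlgebra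
  have halg : ∀ c : Kj, algebraMap Kj Mb c = algebraMap M Mb (ι (ψ c)) := fun c => rfl
  -- the `σ a` as algebra homs
  let σ' : X → (F₀ →ₐ[Kj] Mb) := fun a =>
    { ((algebraMap M Mb).comp (σ a)) with
      commutes' := fun c => by
        show algebraMap M Mb (σ a (algebraMap Kj F₀ c)) = _
        rw [hι, halg] }
  have hσ'inj : Function.Injective σ' := by
    intro a b hab
    apply hσ
    ext f
    apply hinj
    exact congrArg (fun g : F₀ →ₐ[Kj] Mb => g f) hab
  have hσ'surj : Function.Surjective σ' := by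
    have h1 : Fintype.card (F₀ →ₐ[Kj] Mb) ≤ Fintype.card X := by
      rw [hX, Fintype.card_eq_nat_card]
      exact card_algHom_le_finrank Kj F₀ Mb
    exact (Fintype.bijective_iff_injective_and_card σ').mpr
      ⟨hσ'inj, le_antisymm (Fintype.card_le_of_injective _ hσ'inj) h1⟩ |>.2
  -- key: any extension of `ι` restricts to some `σ a`
  have key : ∀ ε : F →+* Mb, (∀ c, ε (algebraMap E F c) = algebraMap M Mb (ι c)) →
      ∃ a, ∀ f, ε (φ f) = algebraMap M Mb (σ a f) := by
    intro ε hε
    let ε' : F₀ →ₐ[Kj] Mb :=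
      { (ε.comp φ) with
        commutes' := fun c => by
          show ε (φ (algebraMap Kj F₀ c)) = _
          rw [hφψ, hε, halg] }
    obtain ⟨a, ha⟩ := hσ'surj ε'
    exact ⟨a, fun f => (congrArg (fun g : F₀ →ₐ[Kj] Mb => g f) ha).symm⟩
  obtain ⟨τ, hτ, hτι⟩ := all_embeddings (Mb := Mb) ι (Set.range φ)
    (fun T h1 h2 => hgen T h1 fun f => h2 ⟨f, rfl⟩)
    (fun ε hε y hy => by
      obtain ⟨f, rfl⟩ := hy
      obtain ⟨a, ha⟩ := key ε hε
      exact ⟨σ a f, (ha f).symm⟩)
  refine ⟨τ, hτ, hτι, fun i => ?_⟩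
  obtain ⟨a, ha⟩ := key ((algebraMap M Mb).comp (τ i)) (fun c => by simp [hτι])
  exact ⟨a, fun f => hinj (ha f)⟩

/-- Kummer conjugation: `s ^ d ∈ F₀`, `s ∉ F₀`, `d` prime, `F₀` contains a primitive `d`-th root of
unity; `F/F₀` algebraic; `Mb` algebraically closed.  Then some embedding `ε : F → Mb` agrees with
`σ` on `F₀` and has `ε s = z σ s` with `z ≠ 1`, `z ^ d = 1`. -/
theorem exists_kummer_conj {F Mb : Type*} [Field F] [Field Mb] [IsAlgClosed Mb] [CharZero F]
    (F₀ : Subfield F) (halg : ∀ y : F, IsAlgebraic F₀ y) (σ : F →+* Mb) (d : ℕ) (hd : d.Prime)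
    (ζ : F) (hζ : IsPrimitiveRoot ζ d) (hζF : ζ ∈ F₀) (s : F) (hs : s ^ d ∈ F₀) (hs' : s ∉ F₀) :
    ∃ (ε : F →+* Mb) (z : Mb), (∀ y ∈ F₀, ε y = σ y) ∧ ε s = z * σ s ∧ z ≠ 1 ∧ z ^ d = 1 := by
  classical
  let _ : Algebra F₀ Mb := (σ.comp F₀.subtype).toAlgebra
  have halgMb : ∀ c : F₀, algebraMap F₀ Mb c = σ c := fun c => rfl
  have hs0 : s ≠ 0 := fun h => hs' (h ▸ F₀.zero_mem)
  have : NeZero d := ⟨hd.ne_zero⟩
  let a : F₀ := ⟨s ^ d, hs⟩
  have hirr : Irreducible (Polynomial.X ^ d - Polynomial.C a) := by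
    apply X_pow_sub_C_irreducible_of_prime hd
    intro b hb
    have hb' : (b : F) ^ d = s ^ d := congrArg Subtype.val hb
    have hb0 : (b : F) ≠ 0 := by
      intro h
      rw [h, zero_pow hd.ne_zero] at hb'
      exact pow_ne_zero d hs0 hb'.symm
    have h1 : (s / b) ^ d = 1 := by
      rw [div_pow, hb', div_self (pow_ne_zero d hs0)]
    obtain ⟨i, -, hi⟩ := hζ.eq_pow_of_pow_eq_one h1
    apply hs'
    have : s = ζ ^ i * b := by
      rw [hi]; field_simp
    rw [this]
    exact F₀.mul_mem (F₀.pow_mem hζF i) b.2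
  have hmin : minpoly F₀ s = Polynomial.X ^ d - Polynomial.C a := by
    symm
    apply minpoly.eq_of_irreducible_of_monic hirr
    · simp only [map_sub, map_pow, Polynomial.aeval_X, Polynomial.aeval_C, a]
      exact sub_self _
    · exact Polynomial.monic_X_pow_sub_C a hd.ne_zero
  obtain ⟨ε, hε⟩ := IntermediateField.exists_algHom_of_splits_of_aeval (F := F₀) (E := F) (K := Mb)
    (fun y => ⟨(halg y).isIntegral, IsAlgClosed.splits _⟩) (x := s) (y := σ ζ * σ s) (by
      rw [hmin]
      simp only [map_sub, map_pow, Polynomial.aeval_X, Polynomial.aeval_C, halgMb, a]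
      rw [mul_pow, ← map_pow, hζ.pow_eq_one, map_one, one_mul, sub_self])
  refine ⟨ε.toRingHom, σ ζ, ?_, hε, ?_, ?_⟩
  · intro y hy
    exact ε.commutes ⟨y, hy⟩
  · intro h
    exact hζ.ne_one hd.one_lt (σ.injective (h.trans (map_one σ).symm))
  · rw [← map_pow, hζ.pow_eq_one, map_one]

end Fermat.Agent.Crux.GT
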