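import Mathlib

/-!
# Crux / GT : Gauss valuation rings (abstract)

* `exists_gaussB`: `inc : O → Ω` (a field), `red : O → κ` surjective onto a field, `ker inc ⊆ ker red`.
  Then some valuation subring `B` of `Ω` contains `inc O` and `inc f ∈ 𝔪_B ↔ red f = 0`.
  (Verbatim `Fermat.Agent.S28.exists_gaussB`, `S28/Val.lean`:
  `Ideal.image_subset_nonunits_valuationSubring` applied to the subring `inc O` and the image of `ker red`.)
* `gauss_of_rel`: transport of the Gauss property along `P(t') = j' Q(t')`.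
  `A` a domain, `π` prime with `A/π` a field (`A` a DVR), `ρ : A → Ω`, `B` a valuation subring of `Ω`.
  If `p(j') ∈ B` for all `p ∈ A[X]` and `p(j') ∉ 𝔪_B` for `π ∤ p`, and `P(t') = j' Q(t')` with
  `a P + b Q = 1`, `deg Q < deg P`, leading coefficient of `P` a unit, then the same holds for `t'`.
  Proof.  `j'` is a unit of `B` (`p = X`), so `t'` is a root of `j'⁻¹ P(T) - Q(T)`, whose leading
  coefficient is a unit of `B`: `t' ∈ B` (integrally closed).  Let `p(t') ∈ 𝔪_B`, `π ∤ p`.  In the residue field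
  `κ_B ⊇ k₀ = A/π`: `τ = res t'` is algebraic over `k₀`; `η Q̄(τ) = P̄(τ)`, `η = res j'`; `Q̄(τ) ≠ 0` by Bezout;
  so `η` is algebraic over `k₀`: `n̄(η) = 0`, `n̄ ≠ 0`; lift `n̄` to `n ∈ A[X]`, `π ∤ n`, `n(j') ∈ 𝔪_B`.  Contradiction.
-/

set_option autoImplicit false
set_option linter.style.haveILetI false

open Polynomial

namespace Fermat.Agent.Crux.GT

theorem exists_gaussB {O Ω κ : Type*} [CommRing O] [Field Ω] [Field κ] (inc : O →+* Ω)
    (red : O →+* κ) (hred : Function.Surjective red) (hker : ∀ f, inc f = 0 → red f = 0) :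
    ∃ B : ValuationSubring Ω, (∀ f, inc f ∈ B) ∧ (∀ f, inc f ∈ B.nonunits ↔ red f = 0) := by
  let A : Subring Ω := inc.range
  let I : Ideal A := (RingHom.ker red).map inc.rangeRestrict
  have hI : I ≠ ⊤ := by
    intro h
    have h1 : (1 : A) ∈ I := by rw [h]; trivial
    rw [Ideal.mem_map_iff_of_surjective _ inc.rangeRestrict_surjective] at h1
    obtain ⟨f, hf, hf1⟩ := h1
    have h2 : inc f = 1 := congrArg Subtype.val hf1
    have h3 : red (f - 1) = 0 := hker _ (by rw [map_sub, h2, map_one, sub_self])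
    rw [RingHom.mem_ker] at hf
    rw [map_sub, hf, map_one, zero_sub, neg_eq_zero] at h3
    exact one_ne_zero h3
  obtain ⟨B, hAB, hIB⟩ := Ideal.image_subset_nonunits_valuationSubring I hI
  have hmem : ∀ f, inc f ∈ B := fun f => hAB ⟨f, rfl⟩
  have hnon : ∀ f, red f = 0 → inc f ∈ B.nonunits := by
    intro f hf
    refine hIB ⟨inc.rangeRestrict f, ?_, rfl⟩
    exact Ideal.mem_map_of_mem _ hf
  refine ⟨B, hmem, fun f => ⟨fun hf => ?_, hnon f⟩⟩
  by_contra hne
  obtain ⟨g, hg⟩ := hred (red f)⁻¹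
  have h0 : red (f * g - 1) = 0 := by
    rw [map_sub, map_mul, hg, mul_inv_cancel₀ hne, map_one, sub_self]
  have h1 := hnon _ h0
  rw [map_sub, map_mul, map_one] at h1
  rw [ValuationSubring.mem_nonunits_iff_exists_mem_maximalIdeal] at hf h1
  obtain ⟨hf', hfm⟩ := hf
  obtain ⟨h1', h1m⟩ := h1
  have h2 : (⟨inc f, hf'⟩ : B) * ⟨inc g, hmem g⟩ ∈ IsLocalRing.maximalIdeal B :=
    Ideal.mul_mem_right _ _ hfm
  have h3 : (1 : B) ∈ IsLocalRing.maximalIdeal B := by
    have := Ideal.sub_mem _ h2 h1m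
    convert this using 1
    apply Subtype.ext
    simp
  exact (Ideal.ne_top_iff_one _).mp (IsLocalRing.maximalIdeal.isMaximal B).ne_top h3

namespace GaussRel

/-- field level statement -/
theorem transcendental_of_rel {k κ : Type*} [Field k] [Field κ] [Algebra k κ] (τ η : κ)
    (P Q a b : k[X]) (hab : a * P + b * Q = 1) (hrel : aeval τ P = η * aeval τ Q)
    (hη : Transcendental k η) : Transcendental k τ := by
  intro hτ
  apply hη
  have hQ : aeval τ Q ≠ 0 := by
    intro hQ
    have h1 := congrArg (aeval τ) hab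
    rw [map_add, map_mul, map_mul, hrel, hQ] at h1
    simp at h1
  have hη' : η = aeval τ P / aeval τ Q := by
    rw [hrel, mul_div_cancel_right₀ _ hQ]
  rw [← mem_algebraicClosure_iff] at hτ ⊢
  have hmem : ∀ p : k[X], aeval τ p ∈ algebraicClosure k κ := by
    intro p
    have := IntermediateField.aeval_coe (algebraicClosure k κ) (⟨τ, hτ⟩ : algebraicClosure k κ) p
    rw [this]
    exact SetLike.coe_mem _
  rw [hη']
  exact div_mem (hmem P) (hmem Q)

end GaussRel

open GaussRel in
theorem gauss_of_rel {A Ω : Type*} [CommRing A] [IsDomain A] [IsDiscreteValuationRing A] [Field Ω]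
    {π : A} (hπ : Irreducible π) (ρ : A →+* Ω) (B : ValuationSubring Ω) (j' t' : Ω) (P Q a b : A[X])
    (hrel : eval₂ ρ t' P = j' * eval₂ ρ t' Q) (hab : a * P + b * Q = 1)
    (hdeg : Q.natDegree < P.natDegree) (hlc : IsUnit P.leadingCoeff)
    (hj : ∀ p : A[X], eval₂ ρ j' p ∈ B)
    (hj' : ∀ p : A[X], eval₂ ρ j' p ∈ B.nonunits ↔ C π ∣ p) :
    (∀ p : A[X], eval₂ ρ t' p ∈ B) ∧ (∀ p : A[X], eval₂ ρ t' p ∈ B.nonunits ↔ C π ∣ p) := by
  -- `ρ` lands in `B`
  have hρB : ∀ x : A, ρ x ∈ B := fun x => by simpa using hj (C x)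
  let ρB : A →+* B := ρ.codRestrict B.toSubring hρB
  have hρBcoe : ∀ x, ((ρB x : B) : Ω) = ρ x := fun _ => rfl
  have hcomp : B.subtype.comp ρB = ρ := by ext x; rfl
  have hmax : IsLocalRing.maximalIdeal A = Ideal.span {π} :=
    (IsDiscreteValuationRing.irreducible_iff_uniformizer π).1 hπ
  have hρπ : ∀ x : A, ρ x ∈ B.nonunits ↔ π ∣ x := fun x => by
    have := hj' (C x)
    rw [eval₂_C, C_dvd_iff_dvd_coeff] at this
    rw [this]
    constructor
    · intro h; simpa using h 0
    · intro h i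
      rw [coeff_C]
      split_ifs
      · exact h
      · exact dvd_zero _
  haveI : IsLocalHom ρB := by
    constructor
    intro x hx
    by_contra hx'
    have h1 : x ∈ IsLocalRing.maximalIdeal A := (IsLocalRing.mem_maximalIdeal x).2 hx'
    rw [hmax, Ideal.mem_span_singleton] at h1
    have h2 := (hρπ x).2 h1
    rw [← hρBcoe, ValuationSubring.coe_mem_nonunits_iff, IsLocalRing.mem_maximalIdeal] at h2
    exact h2 hx
  letI : Algebra (IsLocalRing.ResidueField A) (IsLocalRing.ResidueField B) :=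
    (IsLocalRing.ResidueField.map ρB).toAlgebra
  -- reduction of polynomials
  have hCπ : ∀ p : A[X], C π ∣ p ↔ p.map (IsLocalRing.residue A) = 0 := by
    intro p
    rw [C_dvd_iff_dvd_coeff, Polynomial.ext_iff]
    refine forall_congr' fun i => ?_
    rw [coeff_map, coeff_zero, IsLocalRing.residue_eq_zero_iff, hmax, Ideal.mem_span_singleton]
  -- key dictionary
  have key : ∀ (x : B) (p : A[X]), eval₂ ρ (x : Ω) p ∈ B.nonunits ↔
      aeval (IsLocalRing.residue B x) (p.map (IsLocalRing.residue A)) = 0 := by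
    intro x p
    have h1 : eval₂ ρ (x : Ω) p = ((eval₂ ρB x p : B) : Ω) := by
      have := hom_eval₂ p ρB B.subtype x
      rw [hcomp] at this
      exact this.symm
    rw [h1, ValuationSubring.coe_mem_nonunits_iff, ← IsLocalRing.residue_eq_zero_iff,
      hom_eval₂, aeval_def, eval₂_map]
    rfl
  have keymem : ∀ (x : B) (p : A[X]), eval₂ ρ (x : Ω) p ∈ B := by
    intro x p
    have := hom_eval₂ p ρB B.subtype x
    rw [hcomp] at this
    rw [show (x : Ω) = B.subtype x from rfl, ← this]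
    exact SetLike.coe_mem _
  have hres : ∀ (x : B) (p : A[X]), IsLocalRing.residue B (eval₂ ρB x p) =
      aeval (IsLocalRing.residue B x) (p.map (IsLocalRing.residue A)) := by
    intro x p
    rw [hom_eval₂, aeval_def, eval₂_map]
    rfl
  have hπ1 : ¬ π ∣ 1 := fun h => hπ.not_isUnit (isUnit_of_dvd_one h)
  -- `j'` is a unit of `B`
  have hjB : j' ∈ B := by simpa using hj X
  have hjunit : IsUnit (⟨j', hjB⟩ : B) := by
    rw [← IsLocalRing.notMem_maximalIdeal, ← ValuationSubring.coe_mem_nonunits_iff]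
    intro h
    have h1 : eval₂ ρ j' X ∈ B.nonunits := by simpa using h
    rw [hj', C_dvd_iff_dvd_coeff] at h1
    exact hπ1 (by simpa using h1 1)
  obtain ⟨u, hu⟩ := hjunit
  have hu' : ((u : B) : Ω) = j' := by rw [hu]
  have hj0 : j' ≠ 0 := by
    rw [← hu']
    intro h
    exact u.ne_zero (Subtype.ext h)
  have huinv : (((u⁻¹ : Bˣ) : B) : Ω) = j'⁻¹ := by
    have h1 : (((u⁻¹ : Bˣ) : B) : Ω) * ((u : B) : Ω) = 1 := by
      exact congrArg (Subtype.val) (u.inv_mul)
    rw [hu'] at h1
    exact eq_inv_of_mul_eq_one_left h1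
  -- `t' ∈ B`
  have htB : t' ∈ B := by
    have hlcB : IsUnit (ρB P.leadingCoeff) := hlc.map ρB
    have hlc0 : ρB P.leadingCoeff ≠ 0 := hlcB.ne_zero
    set F : B[X] := C ((u⁻¹ : Bˣ) : B) * P.map ρB - Q.map ρB with hF
    have halg : (algebraMap B Ω).comp ρB = ρ := by ext x; rfl
    have hFt : aeval t' F = 0 := by
      rw [hF, map_sub, map_mul, aeval_C, aeval_def, aeval_def, eval₂_map, eval₂_map, halg, hrel]
      have : algebraMap B Ω ((u⁻¹ : Bˣ) : B) = j'⁻¹ := huinv
      rw [this, inv_mul_cancel_left₀ hj0, sub_self]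
    have hd1 : (C ((u⁻¹ : Bˣ) : B) * P.map ρB).degree = P.degree := by
      rw [degree_C_mul (u⁻¹).ne_zero, degree_map_eq_of_leadingCoeff_ne_zero _ hlc0]
    have hd2 : (Q.map ρB).degree < (C ((u⁻¹ : Bˣ) : B) * P.map ρB).degree := by
      rw [hd1]
      exact lt_of_le_of_lt degree_map_le (degree_lt_degree hdeg)
    have hlcF : IsUnit F.leadingCoeff := by
      rw [hF, leadingCoeff_sub_of_degree_lt hd2, leadingCoeff_mul, leadingCoeff_C,
        leadingCoeff_map_of_leadingCoeff_ne_zero _ hlc0]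
      exact (u⁻¹).isUnit.mul hlcB
    have hint : IsIntegral B t' := by
      simpa [smul_smul] using
        (isIntegral_leadingCoeff_smul _ _ hFt).smul ((hlcF.unit⁻¹ : Bˣ) : B)
    obtain ⟨y, hy⟩ := IsIntegrallyClosed.isIntegral_iff.1 hint
    rw [← hy]
    exact y.2
  refine ⟨keymem ⟨t', htB⟩, fun p => ?_⟩
  rw [key ⟨t', htB⟩ p, hCπ]
  have hη : Transcendental (IsLocalRing.ResidueField A) (IsLocalRing.residue B (u : B)) := by
    rw [transcendental_iff]
    intro q hq
    obtain ⟨p, rfl⟩ := Polynomial.map_surjective _ IsLocalRing.residue_surjective q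
    rw [← key, hu', hj', hCπ] at hq
    exact hq
  have hτ := transcendental_of_rel (IsLocalRing.residue B ⟨t', htB⟩) (IsLocalRing.residue B (u : B))
    (P.map (IsLocalRing.residue A)) (Q.map (IsLocalRing.residue A))
    (a.map (IsLocalRing.residue A)) (b.map (IsLocalRing.residue A))
    (by rw [← Polynomial.map_mul, ← Polynomial.map_mul, ← Polynomial.map_add, hab,
      Polynomial.map_one])
    (by
      rw [← hres, ← hres, ← map_mul]
      congr 1
      apply Subtype.ext
      have h1 : ∀ p : A[X], ((eval₂ ρB (⟨t', htB⟩ : B) p : B) : Ω) = eval₂ ρ t' p := by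
        intro p
        have := hom_eval₂ p ρB B.subtype ⟨t', htB⟩
        rw [hcomp] at this
        exact this
      show ((eval₂ ρB (⟨t', htB⟩ : B) P : B) : Ω) =
        ((u : B) : Ω) * ((eval₂ ρB (⟨t', htB⟩ : B) Q : B) : Ω)
      rw [h1, h1, hu', hrel])
    hη
  rw [transcendental_iff] at hτ
  exact ⟨hτ _, fun h => by rw [h, map_zero]⟩

/-- A root of unity `z ≠ 1` of prime order `d`, `d` a unit of `B`, is not `≡ 1`. -/
theorem sub_one_not_mem_nonunits {Ω : Type*} [Field Ω] (B : ValuationSubring Ω) (d : ℕ)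
    (hd : d.Prime) (hdB : (d : Ω) ∉ B.nonunits) (z : Ω) (hz : z ^ d = 1) (hz1 : z ≠ 1) :
    z - 1 ∉ B.nonunits := by
  have _ := hd
  intro h
  rw [ValuationSubring.mem_nonunits_iff_exists_mem_maximalIdeal] at h
  obtain ⟨h1, hm⟩ := h
  have hzB : z ∈ B := by
    have := B.add_mem _ _ h1 B.one_mem
    simpa using this
  set zB : B := ⟨z, hzB⟩ with hzBdef
  have hres : IsLocalRing.residue B zB = 1 := by
    have h0 : IsLocalRing.residue B (⟨z - 1, h1⟩ : B) = 0 :=
      (IsLocalRing.residue_eq_zero_iff _).mpr hm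
    have h2 : (⟨z - 1, h1⟩ : B) = zB - 1 := rfl
    rw [h2, map_sub, map_one, sub_eq_zero] at h0
    exact h0
  have hsum : ∑ i ∈ Finset.range d, zB ^ i = 0 := by
    have h3 : (∑ i ∈ Finset.range d, zB ^ i) * (zB - 1) = 0 := by
      rw [geom_sum_mul]
      apply Subtype.ext
      simp [hzBdef, hz]
    rcases mul_eq_zero.mp h3 with h4 | h4
    · exact h4
    · exfalso
      apply hz1
      have h5 : z - 1 = 0 := congrArg Subtype.val h4
      exact sub_eq_zero.mp h5
  have h5 := congrArg (IsLocalRing.residue B) hsum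
  rw [map_sum, map_zero] at h5
  simp only [map_pow, hres, one_pow, Finset.sum_const, Finset.card_range, nsmul_eq_mul,
    mul_one] at h5
  apply hdB
  rw [ValuationSubring.mem_nonunits_iff_exists_mem_maximalIdeal]
  refine ⟨natCast_mem B d, ?_⟩
  rw [← IsLocalRing.residue_eq_zero_iff]
  have h6 : (⟨(d : Ω), natCast_mem B d⟩ : B) = (d : B) := Subtype.ext (by simp)
  rw [h6, map_natCast]
  exact h5

end Fermat.Agent.Crux.GT
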