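import Fermat.Agent.Crux.G.Main

/-!
# Crux / GT : chart level lemmas for `Uniq.lean`
-/

set_option autoImplicit false
set_option linter.unusedSectionVars false

open Polynomial

namespace Fermat.Agent.Crux.GT

open Fermat.Agent.Crux.G

/-- A valuation subring is integrally closed (form for ring homs). -/
theorem mem_of_isIntegralElem {Ω : Type*} [Field Ω] (B : ValuationSubring Ω) {R : Type*}
    [CommRing R] (f : R →+* Ω) (hf : ∀ r, f r ∈ B) {x : Ω} (hx : f.IsIntegralElem x) : x ∈ B := by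
  obtain ⟨P, hP, hPx⟩ := hx
  let f' : R →+* B := f.codRestrict B.toSubring hf
  have h1 : IsIntegral B x := by
    refine ⟨P.map f', hP.map _, ?_⟩
    rw [eval₂_map]
    exact hPx
  obtain ⟨y, rfl⟩ := IsIntegrallyClosed.isIntegral_iff.1 h1
  exact y.2

theorem mul_mem_nonunits {Ω : Type*} [Field Ω] (B : ValuationSubring Ω) {a b : Ω}
    (ha : a ∈ B.nonunits) (hb : b ∈ B) : a * b ∈ B.nonunits := by
  rw [ValuationSubring.mem_nonunits_iff] at ha ⊢
  rw [← ValuationSubring.valuation_le_one_iff] at hb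
  rw [map_mul]
  exact mul_lt_one_of_lt_of_le ha hb

theorem not_mem_nonunits_of_inv_mem {Ω : Type*} [Field Ω] (B : ValuationSubring Ω) {a : Ω}
    (ha0 : a ≠ 0) (ha : a⁻¹ ∈ B) : a ∉ B.nonunits := by
  intro h
  have h1 := mul_mem_nonunits B h ha
  rw [mul_inv_cancel₀ ha0, ValuationSubring.mem_nonunits_iff, map_one] at h1
  exact lt_irrefl _ h1

variable {A : Type*} [CommRing A] [IsDomain A] [IsDiscreteValuationRing A] {π : A}
variable {E : Type*} [Field E] [Algebra A[X] E] [IsFractionRing A[X] E] [CharZero E]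
variable {L : Type*} [Field L] [Algebra A[X] L] [Algebra E L] [IsScalarTower A[X] E L]
  [FiniteDimensional E L]

theorem mem_of_isOL {Ω : Type*} [Field Ω] (B : ValuationSubring Ω)
    (σ : L →+* Ω) (hB : ∀ p : A[X], σ (algebraMap A[X] L p) ∈ B)
    (hB' : ∀ p : A[X], σ (algebraMap A[X] L p) ∈ B.nonunits ↔ C π ∣ p)
    {y : L} (hy : IsOL π y) : σ y ∈ B := by
  obtain ⟨s, hs, hsy⟩ := hy
  have h1 : σ (s • y) ∈ B := by
    apply mem_of_isIntegralElem B (σ.comp (algebraMap A[X] L)) hB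
    obtain ⟨P, hP, hPx⟩ := hsy
    refine ⟨P, hP, ?_⟩
    rw [← hom_eval₂, hPx, map_zero]
  rw [Algebra.smul_def, map_mul] at h1
  have h2 : σ (algebraMap A[X] L s) ∉ B.nonunits := by rwa [hB']
  have h3 : (σ (algebraMap A[X] L s))⁻¹ ∈ B := by
    rw [ValuationSubring.mem_nonunits_iff, not_lt] at h2
    rw [← ValuationSubring.valuation_le_one_iff, map_inv₀]
    exact inv_le_one_of_one_le₀ h2
  have h4 : σ (algebraMap A[X] L s) ≠ 0 := by
    intro h0
    apply h2
    rw [h0, ValuationSubring.mem_nonunits_iff, map_zero]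
    exact zero_lt_one
  have h5 : σ y = (σ (algebraMap A[X] L s))⁻¹ * (σ (algebraMap A[X] L s) * σ y) := by
    rw [← mul_assoc, inv_mul_cancel₀ h4, one_mul]
  rw [h5]
  exact mul_mem h3 h1

theorem mem_nonunits_of_isPiOL {Ω : Type*} [Field Ω]
    (B : ValuationSubring Ω)
    (σ : L →+* Ω) (hB : ∀ p : A[X], σ (algebraMap A[X] L p) ∈ B)
    (hB' : ∀ p : A[X], σ (algebraMap A[X] L p) ∈ B.nonunits ↔ C π ∣ p)
    {y : L} (hy : IsPiOL π y) : σ y ∈ B.nonunits := by
  obtain ⟨z, hz, rfl⟩ := hy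
  rw [Algebra.smul_def, map_mul]
  exact mul_mem_nonunits B ((hB' _).2 dvd_rfl) (mem_of_isOL B σ hB hB' hz)

/-- a matrix which is nilpotent modulo a prime element has trace divisible by it. -/
theorem dvd_trace_of_dvd_pow {R : Type*} [CommRing R] {p : R} (hp : Prime p) {ι : Type*}
    [Fintype ι] [DecidableEq ι] (Z : Matrix ι ι R) (N : ℕ) (h : ∀ j k, p ∣ (Z ^ N) j k) :
    p ∣ Z.trace := by
  set I : Ideal R := Ideal.span {p} with hI
  have hIp : I.IsPrime := (Ideal.span_singleton_prime hp.ne_zero).2 hp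
  set φ : R →+* R ⧸ I := Ideal.Quotient.mk I with hφ
  have hpow : (φ.mapMatrix Z) ^ N = 0 := by
    rw [← map_pow]
    ext j k
    simp only [RingHom.mapMatrix_apply, Matrix.map_apply, Matrix.zero_apply]
    exact Ideal.Quotient.eq_zero_iff_mem.2 (Ideal.mem_span_singleton.2 (h j k))
  have hnil : IsNilpotent (φ.mapMatrix Z).trace :=
    Matrix.isNilpotent_trace_of_isNilpotent ⟨N, hpow⟩
  have h0 : (φ.mapMatrix Z).trace = 0 := hnil.eq_zero
  have h1 : φ Z.trace = 0 := by
    rw [← h0]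
    simp [Matrix.trace, RingHom.mapMatrix_apply, map_sum]
  exact Ideal.mem_span_singleton.1 (Ideal.Quotient.eq_zero_iff_mem.1 h1)

/-- nilpotent modulo `π` ⇒ trace in `π O_G`. -/
theorem isPiOG_trace_of_pow_gt (hπ : Irreducible π) (w : L) (hw : IsOL π w) (N : ℕ)
    (hwN : IsPiOL π (w ^ N)) : IsPiOG π (Algebra.trace E L w) := by
  classical
  have hπ' : Prime π := hπ.prime
  have hCπ : Prime (C π : A[X]) := prime_C_iff.2 hπ'
  obtain ⟨n, b, s, hbint, hs1, hsM, hbind⟩ := exists_pkg (E := E) (L := L) hπ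
  have hs : ¬ C π ∣ s := by
    intro h
    have h1 : C π ∣ 1 := by
      have := dvd_sub h hs1
      simpa using this
    exact hCπ.not_isUnit (isUnit_of_dvd_one h1)
  obtain ⟨s', hs', hw'⟩ := hw
  have ht : ¬ C π ∣ s * s' := hCπ.not_dvd_mul hs hs'
  have hex : ∀ j, ∃ c : Fin n → A[X], ∑ k, c k • b k = ((s * s') • w) * b j := by
    intro j
    have h1 := hsM _ (hw'.mul (hbint j))
    obtain ⟨c, hc⟩ := (Submodule.mem_span_range_iff_exists_fun _).1 h1
    exact ⟨c, by rw [hc, mul_smul, smul_mul_assoc, smul_mul_assoc, smul_mul_assoc]⟩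
  choose Z hZ using hex
  have hwt : IsOL π ((s * s') • w) := by
    rw [mul_smul]
    exact (IsOL.of_isIntegral hπ' hw').smul s
  have hZ' : ∀ j, IsPiOL π (((s * s') • w) * b j - ∑ k, (Matrix.of Z) j k • b k) := by
    intro j
    have : ((s * s') • w) * b j - ∑ k, (Matrix.of Z) j k • b k = 0 := by
      rw [← hZ j]; simp
    rw [this]
    exact isPiOL_zero hπ'
  have hdvd : ∀ j k, C π ∣ (Matrix.of Z ^ N) j k := by
    intro j
    apply hbind
    have h1 := isPiOL_pow_mul_sub hπ' b _ hwt (Matrix.of Z) hZ' N j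
    have h2 : IsPiOL π (((s * s') • w) ^ N * b j) := by
      rw [_root_.smul_pow]
      exact (hwN.smul _).mul_right hπ' (IsOL.of_isIntegral hπ' (hbint j))
    have h3 := h2.sub hπ' h1
    rwa [sub_sub_cancel] at h3
  have h4 := dvd_trace_of_dvd_pow hCπ (Matrix.of Z) N hdvd
  have h5 := isPiOG_trace_sub hπ b hbind _ (Matrix.of Z) hZ'
  have h6 : IsPiOG π (algebraMap A[X] E (Matrix.of Z).trace) := (isPiOG_algebraMap_iff hπ' _).2 h4
  have h7 := h5.add hπ' h6
  rw [sub_add_cancel, LinearMap.map_smul_of_tower] at h7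
  exact IsPiOG.of_smul hπ' ht h7

/-- (H1) ⇒ `O_L / π O_L` is reduced. -/
theorem isPiOL_of_pow_gt (hπ : Irreducible π) (H1 : TracePerfect π E L) (y : L) (hy : IsOL π y)
    (N : ℕ) (hyN : IsPiOL π (y ^ N)) : IsPiOL π y := by
  have hπ' : Prime π := hπ.prime
  apply H1 y hy
  intro z hz
  apply isPiOG_trace_of_pow_gt hπ _ (hy.mul hπ' hz) N
  rw [mul_pow]
  exact hyN.mul_right hπ' (hz.pow hπ' N)

theorem IsOL_aeval (hπ : Prime π) {u : L} (hu : IsOL π u) (Q : A[X][X]) :
    IsOL π (aeval u Q) := by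
  rw [aeval_eq_sum_range]
  exact IsOL.sum hπ _ _ fun i _ => (hu.pow hπ i).smul _

/-- an element of `O_L` is a root of a polynomial over `A[X]` with a coefficient prime to `π`. -/
theorem exists_aeval_eq_zero (hπ : Prime π) {u : L} (hu : IsOL π u) :
    ∃ (Q : A[X][X]) (n : ℕ), aeval u Q = 0 ∧ ¬ C π ∣ Q.coeff n := by
  have hCπ : Prime (C π : A[X]) := prime_C_iff.2 hπ
  obtain ⟨s, hs, P, hP, hPu⟩ := hu
  refine ⟨P.comp (C s * X), P.natDegree, ?_, ?_⟩
  · rw [aeval_comp, map_mul, aeval_C, aeval_X, ← Algebra.smul_def]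
    exact hPu
  · rw [comp_C_mul_X_coeff, hP.coeff_natDegree, one_mul]
    exact fun h => hs (hCπ.dvd_of_dvd_pow h)

/-- `u^(j+k) ≡ u^(j+k+1) v` where `k` is the least index of a coefficient prime to `π`. -/
theorem exists_isPiOL_pow_sub (hπ : Prime π) [FaithfulSMul A[X] L] {u : L} (hu : IsOL π u) (k : ℕ) :
    ∀ (j : ℕ) (Q : A[X][X]), IsPiOL π (u ^ j * aeval u Q) → (∀ i < k, C π ∣ Q.coeff i) →
      ¬ C π ∣ Q.coeff k → ∃ v : L, IsOL π v ∧ IsPiOL π (u ^ (j + k) - u ^ (j + k + 1) * v) := by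
  induction k with
  | zero =>
    intro j Q hQ _ h0
    have hr0 : algebraMap A[X] L (Q.coeff 0) ≠ 0 := by
      intro h
      apply h0
      have := (FaithfulSMul.algebraMap_injective A[X] L) (h.trans (map_zero _).symm)
      rw [this]
      exact dvd_zero _
    have hsplit : aeval u Q = aeval u Q.divX * u + algebraMap A[X] L (Q.coeff 0) := by
      conv_lhs => rw [← divX_mul_X_add Q]
      rw [map_add, map_mul, aeval_X, aeval_C]
    refine ⟨-(algebraMap A[X] L (Q.coeff 0))⁻¹ * aeval u Q.divX, ?_, ?_⟩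
    · apply IsOL.of_smul hπ h0
      have : Q.coeff 0 • (-(algebraMap A[X] L (Q.coeff 0))⁻¹ * aeval u Q.divX)
          = -aeval u Q.divX := by
        rw [Algebra.smul_def]
        field_simp
      rw [this]
      exact (IsOL_aeval hπ hu _).neg
    · apply IsPiOL.of_smul hπ h0
      have : Q.coeff 0 • (u ^ (j + 0) - u ^ (j + 0 + 1) *
          (-(algebraMap A[X] L (Q.coeff 0))⁻¹ * aeval u Q.divX)) = u ^ j * aeval u Q := by
        rw [Algebra.smul_def, hsplit]
        field_simp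
        ring
      rw [this]
      exact hQ
  | succ k ih =>
    intro j Q hQ hlt hk
    have hsplit : aeval u Q = aeval u Q.divX * u + algebraMap A[X] L (Q.coeff 0) := by
      conv_lhs => rw [← divX_mul_X_add Q]
      rw [map_add, map_mul, aeval_X, aeval_C]
    obtain ⟨c, hc⟩ := hlt 0 (Nat.succ_pos k)
    have h1 : IsPiOL π (u ^ (j + 1) * aeval u Q.divX) := by
      have e1 : u ^ (j + 1) * aeval u Q.divX
          = u ^ j * aeval u Q - (C π : A[X]) • (c • u ^ j) := by
        rw [hsplit, hc, smul_smul, Algebra.smul_def]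
        ring
      rw [e1]
      exact hQ.sub hπ ((hu.pow hπ j).smul c).C_smul
    obtain ⟨v, hv, hv'⟩ := ih (j + 1) Q.divX h1
      (fun i hi => by rw [coeff_divX]; exact hlt (i + 1) (Nat.succ_lt_succ hi))
      (by rw [coeff_divX]; exact hk)
    refine ⟨v, hv, ?_⟩
    have e2 : j + (k + 1) = j + 1 + k := by ring
    rw [e2]
    exact hv'

section
variable (E)
include E

/-- `y ≡ 1 mod π O_L` ⇒ `y⁻¹ ∈ O_L`. -/
theorem isOL_inv_of_isPiOL_sub_one (hπ : Prime π) {y : L} (hy : IsPiOL π (y - 1)) :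
    IsOL π y⁻¹ := by
  have hF : FaithfulSMul A[X] L := s1_faithfulSMul E
  have hT : Module.IsTorsionFree A[X] L := inferInstance
  by_cases hy0 : y = 0
  · rw [hy0, inv_zero]; exact isOL_zero hπ
  obtain ⟨m, hm⟩ := exists_pow_smul_isOL E hπ y⁻¹
  induction m with
  | zero => simpa using hm
  | succ m ih =>
    apply ih
    set t := (C π : A[X]) ^ (m + 1) • y⁻¹ with ht
    have h1 : t = (C π : A[X]) • ((C π : A[X]) ^ m • (1 : L)) - t * (y - 1) := by
      have : t * y = (C π : A[X]) ^ (m + 1) • (1 : L) := by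
        rw [ht, smul_mul_assoc, inv_mul_cancel₀ hy0]
      rw [mul_sub, this, mul_one, smul_smul, ← pow_succ']
      ring
    have h2 : IsPiOL π t := by
      rw [h1]
      exact (((isOL_one hπ).smul _).C_smul).sub hπ (hy.mul_left hπ hm)
    obtain ⟨z, hz, hz'⟩ := h2
    rw [ht, pow_succ', mul_smul] at hz'
    have hC : (C π : A[X]) ≠ 0 := by simpa using hπ.ne_zero
    have := smul_right_injective L hC hz'
    rwa [this]

end

/-- (H1) + connectedness ⇒ `O_L / π O_L` is a field. -/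
theorem isOL_inv_of_connected (hπ : Irreducible π) (H1 : TracePerfect π E L)
    (hconn : ∀ e : L, IsOL π e → IsPiOL π (e ^ 2 - e) → IsPiOL π e ∨ IsPiOL π (e - 1))
    (u : L) (hu : IsOL π u) (hu' : ¬ IsPiOL π u) : IsOL π u⁻¹ := by
  classical
  have hπ' : Prime π := hπ.prime
  have hF : FaithfulSMul A[X] L := s1_faithfulSMul E
  obtain ⟨Q, n, hQ, hn⟩ := exists_aeval_eq_zero hπ' hu
  have hex : ∃ n, ¬ C π ∣ Q.coeff n := ⟨n, hn⟩
  obtain ⟨v, hv, hv'⟩ := exists_isPiOL_pow_sub hπ' hu (Nat.find hex) 0 Q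
    (by rw [hQ, mul_zero]; exact isPiOL_zero hπ')
    (fun i hi => by simpa using Nat.find_min hex hi) (Nat.find_spec hex)
  set k := Nat.find hex with hk
  rw [zero_add] at hv'
  -- `a = u^k`, `t = u v`, `a ≡ a t`
  have hat : ∀ m : ℕ, IsPiOL π (u ^ k - u ^ k * (u * v) ^ m) := by
    intro m
    induction m with
    | zero => simpa using isPiOL_zero hπ'
    | succ m ih =>
      have : u ^ k - u ^ k * (u * v) ^ (m + 1)
          = (u ^ k - u ^ k * (u * v) ^ m) + (u * v) ^ m * (u ^ k - u ^ (k + 1) * v) := by ring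
      rw [this]
      exact ih.add hπ' (hv'.mul_left hπ' ((hu.mul hπ' hv).pow hπ' m))
  have he : IsOL π ((u * v) ^ k) := (hu.mul hπ' hv).pow hπ' k
  have hee : IsPiOL π (((u * v) ^ k) ^ 2 - (u * v) ^ k) := by
    have : ((u * v) ^ k) ^ 2 - (u * v) ^ k = -(v ^ k * (u ^ k - u ^ k * (u * v) ^ k)) := by
      rw [mul_pow]; ring
    rw [this]
    exact ((hat k).mul_left hπ' (hv.pow hπ' k)).neg
  -- there is `w ∈ O_L` with `u w ≡ 1`
  have key : ∃ w : L, IsOL π w ∧ IsPiOL π (u * w - 1) := by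
    rcases hconn _ he hee with h | h
    · exfalso
      apply hu'
      apply isPiOL_of_pow_gt hπ H1 u hu k
      have : u ^ k = (u ^ k - u ^ k * (u * v) ^ k) + u ^ k * (u * v) ^ k := by ring
      rw [this]
      exact (hat k).add hπ' (h.mul_left hπ' (hu.pow hπ' k))
    · rcases Nat.eq_zero_or_pos k with hk0 | hk0
      · refine ⟨v, hv, ?_⟩
        rw [hk0] at hv'
        have : u * v - 1 = -(u ^ 0 - u ^ (0 + 1) * v) := by ring
        rw [this]
        exact hv'.neg
      · refine ⟨u ^ (k - 1) * v ^ k, (hu.pow hπ' _).mul hπ' (hv.pow hπ' _), ?_⟩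
        have : u * (u ^ (k - 1) * v ^ k) = (u * v) ^ k := by
          rw [← mul_assoc, ← pow_succ', Nat.sub_add_cancel hk0, mul_pow]
        rw [this]
        exact h
  obtain ⟨w, hw, hw'⟩ := key
  have h1 := isOL_inv_of_isPiOL_sub_one E hπ' hw'
  by_cases hw0 : w = 0
  · exfalso
    rw [hw0, mul_zero, zero_sub] at hw'
    have h2 : IsPiOL π (algebraMap A[X] L 1) := by
      rw [map_one]
      simpa using hw'.neg
    have h3 := (isPiOL_algebraMap_iff E hπ' 1).1 h2
    exact (prime_C_iff.2 hπ').not_isUnit (isUnit_of_dvd_one h3)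
  have : u⁻¹ = w * (u * w)⁻¹ := by
    rw [mul_inv, mul_comm u⁻¹, ← mul_assoc, mul_inv_cancel₀ hw0, one_mul]
  rw [this]
  exact hw.mul hπ' h1

theorem isOL_of_mem (hπ : Irreducible π) (H1 : TracePerfect π E L)
    (hconn : ∀ e : L, IsOL π e → IsPiOL π (e ^ 2 - e) → IsPiOL π e ∨ IsPiOL π (e - 1))
    {Ω : Type*} [Field Ω] (B : ValuationSubring Ω)
    (σ : L →+* Ω) (hB : ∀ p : A[X], σ (algebraMap A[X] L p) ∈ B)
    (hB' : ∀ p : A[X], σ (algebraMap A[X] L p) ∈ B.nonunits ↔ C π ∣ p)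
    {y : L} (hy : σ y ∈ B) : IsOL π y := by
  have hπ' : Prime π := hπ.prime
  have hF : FaithfulSMul A[X] L := s1_faithfulSMul E
  have hT : Module.IsTorsionFree A[X] L := inferInstance
  obtain ⟨m, hm⟩ := exists_pow_smul_isOL E hπ' y
  induction m with
  | zero => simpa using hm
  | succ m ih =>
    apply ih
    by_contra hcon
    set u := (C π : A[X]) ^ (m + 1) • y with hu
    have hu' : ¬ IsPiOL π u := by
      rintro ⟨z, hz, hz'⟩
      rw [hu, pow_succ', mul_smul] at hz'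
      have hC : (C π : A[X]) ≠ 0 := by simpa using hπ'.ne_zero
      have := smul_right_injective L hC hz'
      exact hcon (this ▸ hz)
    have h1 := isOL_inv_of_connected hπ H1 hconn u hm hu'
    have h2 := mem_of_isOL B σ hB hB' h1
    have hu0 : u ≠ 0 := by
      intro h0
      exact hu' (h0 ▸ isPiOL_zero hπ')
    rw [map_inv₀] at h2
    apply not_mem_nonunits_of_inv_mem B ((map_ne_zero σ).2 hu0) h2
    rw [hu, pow_succ', mul_smul, Algebra.smul_def, map_mul]
    apply mul_mem_nonunits B ((hB' _).2 dvd_rfl)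
    rw [Algebra.smul_def, map_mul]
    exact mul_mem (hB _) hy

theorem isPiOL_of_mem_nonunits (hπ : Irreducible π) (H1 : TracePerfect π E L)
    (hconn : ∀ e : L, IsOL π e → IsPiOL π (e ^ 2 - e) → IsPiOL π e ∨ IsPiOL π (e - 1))
    {Ω : Type*} [Field Ω] (B : ValuationSubring Ω)
    (σ : L →+* Ω) (hB : ∀ p : A[X], σ (algebraMap A[X] L p) ∈ B)
    (hB' : ∀ p : A[X], σ (algebraMap A[X] L p) ∈ B.nonunits ↔ C π ∣ p)
    {y : L} (hy : σ y ∈ B.nonunits) : IsPiOL π y := by
  have hπ' : Prime π := hπ.prime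
  have hyB : σ y ∈ B := by
    rw [ValuationSubring.mem_nonunits_iff] at hy
    rw [← ValuationSubring.valuation_le_one_iff]
    exact hy.le
  have h0 := isOL_of_mem hπ H1 hconn B σ hB hB' hyB
  by_contra hcon
  have h1 := isOL_inv_of_connected hπ H1 hconn y h0 hcon
  have h2 := mem_of_isOL B σ hB hB' h1
  have hy0 : y ≠ 0 := by
    intro h
    exact hcon (h ▸ isPiOL_zero hπ')
  rw [map_inv₀] at h2
  exact not_mem_nonunits_of_inv_mem B ((map_ne_zero σ).2 hy0) h2 hy

end Fermat.Agent.Crux.GT
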