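import Fermat.Agent.Crux.G.Main
import Fermat.Agent.Crux.GT.UniqAux

/-!
# Crux / GT : uniqueness of the Gauss valuation from Theorem G

Chart `X ↦ x`; `F/E` finite.  `σ : F → Ω`, `B` a valuation subring of `Ω` inducing the Gauss valuation
on `E` (`hB`, `hB'`).

* `mem_of_isOLx`, `mem_nonunits_of_isPiOLx` (easy): `σ(O_F) ⊆ B`, `σ(π O_F) ⊆ 𝔪_B`.
* `isUnit_of_connected`: (H1) + "only trivial idempotents mod `π`" ⇒ every `u ∈ O_F ∖ π O_F` has
  `u⁻¹ ∈ O_F`.
  Proof.  `χ` = char. polynomial of `u` over `E`, coefficients in `O_G`; mod `π`: `χ ≡ T^k h(T)`,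
  `h(0) ∈ O_G^×`; so `u^k (h(0) + u g(u)) ∈ π O_F`, i.e. `u^k ≡ u^{k+1} v`, `v = - g(u)/h(0) ∈ O_F`.  With
  `a = u^k`, `b = v^k`: `a ≡ a² b`, `e = a b` is idempotent mod `π`.  `e ≡ 1`: `u (u^{k-1} v^k) = 1 + π z`, and
  `1 + π z` is a unit of `O_F` (its norm is `≡ 1`, a unit of `O_G`; inverse = adjugate/norm, or: the
  inverse is integral since the reversed char. polynomial has unit leading coefficient).
  `e ≡ 0`: `u^k ≡ a e ≡ 0`, so `u` is nilpotent mod `π`, so `Tr(u z) ∈ π O_G` for all `z ∈ O_F`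
  (`Crux/S1/NilTrace`, `G/S1Alg.dvd_eval_trace_of_pow`), so `u ∈ π O_F` by (H1).  Contradiction.
* `isOLx_of_mem`, `isPiOLx_of_mem_nonunits`: for `y ≠ 0` take `k ∈ ℤ` minimal with `π^k y ∈ O_F` (exists:
  `y` algebraic; bounded below since `σ(π^k y) ∈ B`); then `u = π^k y ∈ O_F ∖ π O_F` is a unit of `O_F`,
  so `σ u ∈ B^×`; `σ y ∈ B` forces `k ≤ 0`; `σ y ∈ 𝔪_B` forces `k < 0`.
-/

set_option autoImplicit false
set_option linter.style.haveILetI false
set_option linter.unusedVariables false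
set_option linter.unusedSectionVars false

open Polynomial

namespace Fermat.Agent.Crux.GT

open Fermat.Agent.Crux.G

variable {A E F : Type*} [CommRing A] [IsDomain A] [IsDiscreteValuationRing A]
    [Field E] [Field F] [CharZero E] [Algebra A E] [Algebra E F] [FiniteDimensional E F]

theorem mem_of_isOLx {π : A} (hπ : Irreducible π) {x : E}
    {Ω : Type*} [Field Ω] (B : ValuationSubring Ω) (σ : F →+* Ω)
    (hB : ∀ p : A[X], σ (algebraMap E F (aeval x p)) ∈ B)
    (hB' : ∀ p : A[X], σ (algebraMap E F (aeval x p)) ∈ B.nonunits ↔ C π ∣ p)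
    {y : F} (hy : IsOLx π x y) : σ y ∈ B := by
  letI := algL (A := A) F x
  exact mem_of_isOL B σ hB hB' hy

theorem mem_nonunits_of_isPiOLx {π : A} (hπ : Irreducible π) {x : E}
    {Ω : Type*} [Field Ω] (B : ValuationSubring Ω) (σ : F →+* Ω)
    (hB : ∀ p : A[X], σ (algebraMap E F (aeval x p)) ∈ B)
    (hB' : ∀ p : A[X], σ (algebraMap E F (aeval x p)) ∈ B.nonunits ↔ C π ∣ p)
    {y : F} (hy : IsPiOLx π x y) : σ y ∈ B.nonunits := by
  letI := algL (A := A) F x
  exact mem_nonunits_of_isPiOL B σ hB hB' hy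

theorem isUnit_of_connected {π : A} (hπ : Irreducible π) {x : E} (hx : Transcendental A x)
    (hgen : ∀ c : E, ∃ p q : A[X], q ≠ 0 ∧ c * aeval x q = aeval x p)
    (H1 : TracePerfectx F π x)
    (hconn : ∀ e : F, IsOLx π x e → IsPiOLx π x (e ^ 2 - e) → IsPiOLx π x e ∨ IsPiOLx π x (e - 1))
    (u : F) (hu : IsOLx π x u) (hu' : ¬ IsPiOLx π x u) : IsOLx π x u⁻¹ := by
  letI := algE (A := A) x
  letI := algL (A := A) F x
  haveI := isScalarTower_alg (A := A) (L := F) x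
  haveI := isFractionRing_algE hx hgen
  exact isOL_inv_of_connected hπ H1 hconn u hu hu'

theorem isOLx_of_mem {π : A} (hπ : Irreducible π) {x : E} (hx : Transcendental A x)
    (hgen : ∀ c : E, ∃ p q : A[X], q ≠ 0 ∧ c * aeval x q = aeval x p)
    (H1 : TracePerfectx F π x)
    (hconn : ∀ e : F, IsOLx π x e → IsPiOLx π x (e ^ 2 - e) → IsPiOLx π x e ∨ IsPiOLx π x (e - 1))
    {Ω : Type*} [Field Ω] (B : ValuationSubring Ω) (σ : F →+* Ω)
    (hB : ∀ p : A[X], σ (algebraMap E F (aeval x p)) ∈ B)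
    (hB' : ∀ p : A[X], σ (algebraMap E F (aeval x p)) ∈ B.nonunits ↔ C π ∣ p)
    {y : F} (hy : σ y ∈ B) : IsOLx π x y := by
  letI := algE (A := A) x
  letI := algL (A := A) F x
  haveI := isScalarTower_alg (A := A) (L := F) x
  haveI := isFractionRing_algE hx hgen
  exact isOL_of_mem hπ H1 hconn B σ hB hB' hy

theorem isPiOLx_of_mem_nonunits {π : A} (hπ : Irreducible π) {x : E} (hx : Transcendental A x)
    (hgen : ∀ c : E, ∃ p q : A[X], q ≠ 0 ∧ c * aeval x q = aeval x p)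
    (H1 : TracePerfectx F π x)
    (hconn : ∀ e : F, IsOLx π x e → IsPiOLx π x (e ^ 2 - e) → IsPiOLx π x e ∨ IsPiOLx π x (e - 1))
    {Ω : Type*} [Field Ω] (B : ValuationSubring Ω) (σ : F →+* Ω)
    (hB : ∀ p : A[X], σ (algebraMap E F (aeval x p)) ∈ B)
    (hB' : ∀ p : A[X], σ (algebraMap E F (aeval x p)) ∈ B.nonunits ↔ C π ∣ p)
    {y : F} (hy : σ y ∈ B.nonunits) : IsPiOLx π x y := by
  letI := algE (A := A) x
  letI := algL (A := A) F x
  haveI := isScalarTower_alg (A := A) (L := F) x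
  haveI := isFractionRing_algE hx hgen
  exact isPiOL_of_mem_nonunits hπ H1 hconn B σ hB hB' hy

end Fermat.Agent.Crux.GT
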