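import Fermat.Agent.Crux.GT.Rho
import Fermat.Agent.Crux.GT.Extend
import Fermat.Agent.Crux.GT.GaussB
import Fermat.Agent.Crux.GT.Uniq

/-!
# Crux / GT : descent from `F = K(t, j(x^{e d}))` to `F₀ = K(j(q^d))`  (conjugation trick)

`u = V_e w₀ ∈ F`, `u^d ∈ F₀' := V_e(F₀) ⊆ F`, `u - 1 ∈ π O_F`.  Suppose `u ∉ F₀'`.  `Mb` := algebraic closure of `K((x))`,
`σ : F ↪ K((x)) → Mb`.  `Extend.exists_kummer_conj` (`F/F₀'` algebraic: `F = F₀'(t)`, `P(t) = j Q(t)`): `ε : F → Mb`, `ε = σ` on `F₀'`,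
`ε u = z σ u`, `z ≠ 1`, `z^d = 1`.  `GaussB.exists_gaussB` for `inc = (K((x)) → Mb) ∘ coeffMap A.subtype`, `red = coeffMap r`: `B ⊆ Mb`.
Gauss property of `σ` on `E`: `Basic.coe_aeval_tE`, `Basic.red_evAt_tA`.  Gauss property of `ε` on `E`: `GaussB.gauss_of_rel` with
`j' = σ(j(x^e)) = ε(j(x^e))`, `t' = ε t` (`p(j') = inc (evAt (V_e J) p)`, whose reduction vanishes iff `π ∣ p`: `S28.evAt_V_J_injective` over
`k`; Bezout / leading coefficient from `hb.bezout`, `hb.lc`, `hs`).  `Uniq.mem_nonunits_of_isPiOLx` for `σ` and `ε`: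
`σ u - 1, z σ u - 1 ∈ 𝔪_B`, so `z - 1 ∈ 𝔪_B`: contradiction with `GaussB.sub_one_not_mem_nonunits`.
Finally `V_e w₀ ∈ V_e(F₀)` ⇒ `w₀ ∈ F₀` (`qExpand_injective`).
-/

set_option autoImplicit false
set_option linter.unusedSectionVars false

open Polynomial ModularCurve AlgebraicCurve
open scoped IntermediateField

namespace Fermat.Agent.Crux.GT

noncomputable section

open Fermat.Agent.S28 (jd evAt)
open Fermat.Agent.Crux.G
open Fermat.Agent.ES (Qb FF)
open Fermat.Agent.S24 (iotaC)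

namespace Desc

/-- pure valuation theory: the final contradiction. -/
theorem core {Mb : Type*} [Field Mb] (B : ValuationSubring Mb) (d : ℕ) (hd : d.Prime)
    (hdB : (d : Mb) ∉ B.nonunits) (a z : Mb) (hz : z ^ d = 1) (hz1 : z ≠ 1)
    (h1 : a - 1 ∈ B.nonunits) (h2 : z * a - 1 ∈ B.nonunits) : False := by
  apply sub_one_not_mem_nonunits B d hd hdB z hz hz1
  rw [ValuationSubring.mem_nonunits_iff] at h1 h2 ⊢
  have hvz : B.valuation z = 1 := by
    have := congrArg B.valuation hz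
    rw [map_pow, map_one] at this
    exact (pow_eq_one_iff.mp this).resolve_right hd.ne_zero
  have h3 : z - 1 = (z * a - 1) - z * (a - 1) := by ring
  rw [h3]
  apply Valuation.map_sub_lt _ h2
  rw [map_mul, hvz, one_mul]
  exact h1

/-- transfer of algebraicity to a comap subfield. -/
theorem isAlgebraic_comap {F Ω : Type*} [Field F] [Field Ω] (φ : F →+* Ω) (G : Subfield Ω)
    (hG : ∀ g ∈ G, ∃ f, φ f = g) (y : F) (hy : IsAlgebraic G (φ y)) :
    IsAlgebraic (G.comap φ) y := by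
  let ψ : G.comap φ →+* G := (φ.comp (G.comap φ).subtype).codRestrict G (fun x => x.2)
  refine IsAlgebraic.of_ringHom_of_comp_eq ψ φ hy ?_ φ.injective ?_
  · rintro ⟨g, hg⟩
    obtain ⟨f, rfl⟩ := hG g hg
    exact ⟨⟨f, hg⟩, rfl⟩
  · ext x
    rfl

variable (K : Type) [Field K]

/-- the image `V_e(F₀)` as a subfield of `K((x))`. -/
def G0 (e M : ℕ) [NeZero e] : Subfield (Om K) :=
  (modularFunctionFieldFullC K M).toSubfield.map (qExpand K e)

variable {K}

theorem mem_G0 {e M : ℕ} [NeZero e] {y : Om K} :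
    y ∈ G0 K e M ↔ ∃ f ∈ modularFunctionFieldFullC K M, qExpand K e f = y := by
  rw [G0, Subfield.mem_map]
  rfl

theorem const_mem_G0 (e M : ℕ) [NeZero e] (a : K) : algebraMap K (Om K) a ∈ G0 K e M :=
  mem_G0.2 ⟨algebraMap K (Om K) a, IntermediateField.algebraMap_mem _ a,
    (qExpandAlgHomC K e).commutes a⟩

theorem jd_mem_G0 (e M : ℕ) [NeZero e] [NeZero M] {d : ℕ} (hd : d ∣ M) :
    jd K (e * d) ∈ G0 K e M := by
  have hd0 : d ≠ 0 := fun h => NeZero.ne M (by rw [h] at hd; exact Nat.eq_zero_of_zero_dvd hd)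
  exact mem_G0.2 ⟨jd K d, Fermat.Agent.S28.jd_mem_full hd0 hd, Fermat.Agent.S28.V_jd e hd0⟩

variable [CharZero K] {A : ValuationSubring K}
variable {s : ℕ} [NeZero s] {P Q : ℤ[X]}

/-- `t` is algebraic over `V_e(F₀)`. -/
theorem isAlgebraic_t (hb : IsBase s P Q) (c : Coord A s P Q) (M : ℕ) [NeZero M] :
    IsAlgebraic (G0 K (M * s) M) (c.tK M) := by
  have hj : jd K (M * s) ∈ G0 K (M * s) M := by
    have := jd_mem_G0 (K := K) (M * s) M (one_dvd M)
    rwa [mul_one] at this
  have : CharZero (Om K) := charZero_of_injective_algebraMap (algebraMap K (Om K)).injective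
  have : CharZero (G0 K (M * s) M) :=
    ((G0 K (M * s) M).subtype.charZero_iff (G0 K (M * s) M).subtype.injective).mpr inferInstance
  have hinj : Function.Injective (algebraMap ℤ (G0 K (M * s) M)) :=
    (algebraMap ℤ (G0 K (M * s) M)).injective_int
  have hev : ∀ R : ℤ[X], aeval (c.tK M) (R.map (algebraMap ℤ (G0 K (M * s) M))) = aeval (c.tK M) R := by
    intro R
    rw [aeval_def, eval₂_map, aeval_def]
    congr 1
    exact RingHom.ext_int _ _
  refine ⟨P.map (algebraMap ℤ _) - C ⟨_, hj⟩ * Q.map (algebraMap ℤ _), ?_, ?_⟩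
  · intro h
    rw [sub_eq_zero] at h
    have h1 := congrArg natDegree h
    rw [natDegree_map_eq_of_injective hinj] at h1
    have h2 := natDegree_C_mul_le (⟨_, hj⟩ : G0 K (M * s) M) (Q.map (algebraMap ℤ _))
    rw [natDegree_map_eq_of_injective hinj] at h2
    have := hb.deg
    omega
  · rw [map_sub, map_mul, hev, hev, aeval_C, rel_tK, sub_eq_zero]
    rfl

/-- every element of `F` is algebraic over `V_e(F₀)`. -/
theorem isAlgebraic_G0 (hb : IsBase s P Q) (c : Coord A s P Q) (M : ℕ) [NeZero M] (y : Om K)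
    (hy : y ∈ F1 K (c.tK M) (M * s) M) : IsAlgebraic (G0 K (M * s) M) y := by
  have hG : ∀ g ∈ G0 K (M * s) M, g ∈ algebraicClosure (G0 K (M * s) M) (Om K) := fun g hg =>
    IntermediateField.algebraMap_mem _ (⟨g, hg⟩ : G0 K (M * s) M)
  have hE : ∀ x ∈ EE K (c.tK M), x ∈ algebraicClosure (G0 K (M * s) M) (Om K) := by
    intro x hx
    induction hx using IntermediateField.adjoin_induction with
    | mem x hx =>
      rw [Set.mem_singleton_iff] at hx
      rw [hx, mem_algebraicClosure_iff]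
      exact isAlgebraic_t hb c M
    | algebraMap a => exact hG _ (const_mem_G0 _ _ a)
    | add x y _ _ hx hy => exact add_mem hx hy
    | inv x _ hx => exact inv_mem hx
    | mul x y _ _ hx hy => exact mul_mem hx hy
  rw [← mem_algebraicClosure_iff]
  induction hy using IntermediateField.adjoin_induction with
  | mem x hx =>
    obtain ⟨d, hd, rfl⟩ := hx
    exact hG _ (jd_mem_G0 _ _ hd)
  | algebraMap a => exact hE _ a.2
  | add x y _ _ hx hy => exact add_mem hx hy
  | inv x _ hx => exact inv_mem hx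
  | mul x y _ _ hx hy => exact mul_mem hx hy

theorem map_aeval_int {R S : Type*} [CommRing R] [CommRing S] [Algebra ℤ R] [Algebra ℤ S]
    (f : R →+* S) (x : R) (p : ℤ[X]) :
    f (aeval x p) = aeval (f x) p := by
  rw [aeval_def, hom_eval₂, aeval_def]
  congr 1
  exact RingHom.ext_int _ _

theorem eval₂_map_int {R S : Type*} [CommRing R] [CommRing S] [Algebra ℤ S] (ρ : R →+* S) (x : S) (p : ℤ[X]) :
    eval₂ ρ x (p.map (Int.castRingHom R)) = aeval x p := by
  rw [eval₂_map, aeval_def]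
  congr 1
  exact RingHom.ext_int _ _

theorem map_eq_zero_iff_C_dvd [IsDiscreteValuationRing A] {π : A} (hπ : Irreducible π)
    {k : Type} [Field k] (r : A →+* k) (hr : Function.Surjective r) (p : A[X]) :
    p.map r = 0 ↔ C π ∣ p := by
  rw [C_dvd_iff_dvd_coeff, Polynomial.ext_iff]
  refine forall_congr' fun i => ?_
  rw [coeff_map, coeff_zero, map_eq_zero_iff_dvd hπ r hr]

end Desc

variable {K : Type} [Field K] [CharZero K] {A : ValuationSubring K} [IsDiscreteValuationRing A]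
variable {s : ℕ} [NeZero s] {P Q : ℤ[X]}

/-! ### descent `F → K(j(q^d))` -/

theorem descent (hb : IsBase s P Q) (c : Coord A s P Q) (M : ℕ) [NeZero M]
    {π : A} (hπ : Irreducible π) {k : Type} [Field k] (r : A →+* k) (hr : Function.Surjective r)
    (hs : IsUnit (s : A)) (d : ℕ) (hd : d.Prime) (hdA : IsUnit (d : A))
    (ζ : K) (hζ : IsPrimitiveRoot ζ d) (w₀ : LaurentSeries K)
    (hw₀ : w₀ ^ d ∈ modularFunctionFieldFullC K M)
    (hwF : qExpand K (M * s) w₀ ∈ F1 K (c.tK M) (M * s) M)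
    (h1 : IsPiOLx π (tE K (c.tK M)) ((⟨_, hwF⟩ : F1 K (c.tK M) (M * s) M) - 1)) :
    w₀ ∈ modularFunctionFieldFullC K M := by
  classical
  have hfd := finiteDimensional_F1 c M hb.monic
  by_contra hw
  have hcz : CharZero (Om K) := charZero_of_injective_algebraMap (algebraMap K (Om K)).injective
  let φ : F1 K (c.tK M) (M * s) M →+* Om K := algebraMap _ _
  have hczF : CharZero (F1 K (c.tK M) (M * s) M) := (φ.charZero_iff φ.injective).mpr hcz
  have hczE : CharZero (EE K (c.tK M)) :=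
    charZero_of_injective_algebraMap (algebraMap K (EE K (c.tK M))).injective
  let F₀ : Subfield (F1 K (c.tK M) (M * s) M) := (Desc.G0 K (M * s) M).comap φ
  have hGF : ∀ g ∈ Desc.G0 K (M * s) M, ∃ f, φ f = g := by
    intro g hg
    obtain ⟨f, hf, rfl⟩ := Desc.mem_G0.1 hg
    exact ⟨⟨_, qExpand_mem_F1 c M hf⟩, rfl⟩
  have halg : ∀ y, IsAlgebraic F₀ y := fun y =>
    Desc.isAlgebraic_comap φ _ hGF y (Desc.isAlgebraic_G0 hb c M _ y.2)
  let σ : F1 K (c.tK M) (M * s) M →+* AlgebraicClosure (Om K) := (algebraMap (Om K) _).comp φ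
  let cst : K →+* F1 K (c.tK M) (M * s) M :=
    (algebraMap (EE K (c.tK M)) _).comp (algebraMap K (EE K (c.tK M)))
  have hcst : ∀ a, φ (cst a) = algebraMap K (Om K) a := fun a => rfl
  have hcst0 : ∀ a, cst a ∈ F₀ := fun a => Desc.const_mem_G0 _ _ a
  have hu : (⟨_, hwF⟩ : F1 K (c.tK M) (M * s) M) ^ d ∈ F₀ :=
    Desc.mem_G0.2 ⟨w₀ ^ d, hw₀, map_pow _ _ _⟩
  have hu' : (⟨_, hwF⟩ : F1 K (c.tK M) (M * s) M) ∉ F₀ := by
    intro h
    obtain ⟨f, hf, hfe⟩ := Desc.mem_G0.1 h
    have : f = w₀ := qExpand_injective (M * s) hfe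
    exact hw (this ▸ hf)
  obtain ⟨ε, z, hε, hεu, hz1, hzd⟩ := exists_kummer_conj F₀ halg σ d hd (cst ζ)
    (hζ.map_of_injective cst.injective) (hcst0 ζ) ⟨_, hwF⟩ hu hu'
  let inc : LaurentSeries A →+* AlgebraicClosure (Om K) :=
    (algebraMap (Om K) _).comp (coeffMap A.subtype)
  obtain ⟨B, hBmem, hBnon⟩ := exists_gaussB inc (coeffMap r) (coeffMap_surjective r hr) (by
    intro f hf
    have h0 : coeffMap A.subtype f = 0 :=
      (algebraMap (Om K) (AlgebraicClosure (Om K))).injective (by rw [map_zero]; exact hf)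
    have : f = 0 :=
      Fermat.Agent.S28.Build.coeffMap_injective A.subtype Subtype.val_injective (by rw [h0, map_zero])
    rw [this, map_zero])
  -- Gauss property of `σ`
  have hσ : ∀ p : A[X], σ (algebraMap _ _ (aeval (tE K (c.tK M)) p)) = inc (evAt (c.tA M) p) := by
    intro p
    show algebraMap (Om K) _ (((aeval (tE K (c.tK M)) p : EE K (c.tK M)) : Om K)) = _
    rw [coe_aeval_tE]
    rfl
  have hσB : ∀ p : A[X], σ (algebraMap _ _ (aeval (tE K (c.tK M)) p)) ∈ B := fun p => by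
    rw [hσ]; exact hBmem _
  have hσB' : ∀ p : A[X], σ (algebraMap _ _ (aeval (tE K (c.tK M)) p)) ∈ B.nonunits ↔ C π ∣ p :=
    fun p => by rw [hσ, hBnon, red_evAt_tA c M hπ r hr]
  -- Gauss property of `ε`
  let ρ : A →+* AlgebraicClosure (Om K) := σ.comp (cst.comp A.subtype)
  let jF : F1 K (c.tK M) (M * s) M := ⟨jd K (M * s * 1), gen_mem_F1 c M (one_dvd M)⟩
  let tF : F1 K (c.tK M) (M * s) M := algebraMap _ _ (tE K (c.tK M))
  have hφj : φ jF = jd K (M * s) := by
    show jd K (M * s * 1) = _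
    rw [mul_one]
  have hjF₀ : jF ∈ F₀ := Desc.jd_mem_G0 _ _ (one_dvd M)
  have hrelF : aeval tF P = jF * aeval tF Q := by
    apply φ.injective
    rw [map_mul, Desc.map_aeval_int, Desc.map_aeval_int, hφj]
    exact rel_tK c M
  have hincC : inc.comp HahnSeries.C = ρ := by
    ext a
    show algebraMap (Om K) _ (coeffMap A.subtype (HahnSeries.C a)) = algebraMap (Om K) _ (algebraMap K (Om K) a)
    rw [Fermat.Agent.S28.Build.coeffMap_C, HahnSeries.C_apply, algebraMap_laurentSeries_eq_single]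
    rfl
  have hincj : inc (qExpand A (M * s) (jqModC A)) = σ jF := by
    show algebraMap (Om K) _ (coeffMap A.subtype (qExpand A (M * s) (jqModC A))) = algebraMap (Om K) _ (φ jF)
    rw [hφj, Fermat.Agent.S28.jd_eq, Fermat.Agent.S28.Build.coeffMap_V,
      Fermat.Agent.S28.Build.coeffMap_J]
  have hjev : ∀ p : A[X], eval₂ ρ (σ jF) p = inc (evAt (qExpand A (M * s) (jqModC A)) p) := by
    intro p
    rw [Fermat.Agent.S28.Build.evAt_apply, hom_eval₂, hincC, hincj]
  have hj : ∀ p : A[X], eval₂ ρ (σ jF) p ∈ B := fun p => by rw [hjev]; exact hBmem _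
  have hj' : ∀ p : A[X], eval₂ ρ (σ jF) p ∈ B.nonunits ↔ C π ∣ p := by
    intro p
    rw [hjev, hBnon, Fermat.Agent.S28.Build.coeffMap_evAt, Fermat.Agent.S28.Build.coeffMap_V,
      Fermat.Agent.S28.Build.coeffMap_J, ← Desc.map_eq_zero_iff_C_dvd hπ r hr,
      map_eq_zero_iff _ (Fermat.Agent.S28.Build.evAt_V_J_injective (M * s))]
  -- the polynomials over `A`
  have hczA : CharZero A := (A.subtype.charZero_iff Subtype.val_injective).mpr inferInstance
  have hιinj : Function.Injective (Int.castRingHom A) := (Int.castRingHom A).injective_int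
  obtain ⟨a0, b0, k0, hab0⟩ := hb.bezout
  obtain ⟨k1, hlc0⟩ := hb.lc
  obtain ⟨su, hsu⟩ := hs
  have hab : (C ((su⁻¹ ^ k0 : Aˣ) : A) * a0.map (Int.castRingHom A)) * P.map (Int.castRingHom A)
      + (C ((su⁻¹ ^ k0 : Aˣ) : A) * b0.map (Int.castRingHom A)) * Q.map (Int.castRingHom A) = 1 := by
    have h := congrArg (Polynomial.map (Int.castRingHom A)) hab0
    rw [Polynomial.map_add, Polynomial.map_mul, Polynomial.map_mul, Polynomial.map_C] at h
    have h2 : (Int.castRingHom A) ((s : ℤ) ^ k0) = ((su ^ k0 : Aˣ) : A) := by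
      rw [map_pow, Units.val_pow_eq_pow_val, hsu]
      simp
    rw [h2] at h
    calc _ = C ((su⁻¹ ^ k0 : Aˣ) : A) * (a0.map (Int.castRingHom A) * P.map (Int.castRingHom A)
          + b0.map (Int.castRingHom A) * Q.map (Int.castRingHom A)) := by ring
      _ = 1 := by
        rw [h, ← C_mul, ← Units.val_mul, ← mul_pow, inv_mul_cancel, one_pow, Units.val_one, C_1]
  have hdeg : (Q.map (Int.castRingHom A)).natDegree < (P.map (Int.castRingHom A)).natDegree := by
    rw [natDegree_map_eq_of_injective hιinj, natDegree_map_eq_of_injective hιinj]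
    exact hb.deg
  have hlc : IsUnit (P.map (Int.castRingHom A)).leadingCoeff := by
    rw [leadingCoeff_map_of_injective hιinj, hlc0, map_pow]
    apply IsUnit.pow
    have h4 : (Int.castRingHom A) (s : ℤ) = (su : A) := by rw [hsu]; simp
    rw [h4]
    exact su.isUnit
  have hrel : eval₂ ρ (ε tF) (P.map (Int.castRingHom A))
      = σ jF * eval₂ ρ (ε tF) (Q.map (Int.castRingHom A)) := by
    rw [Desc.eval₂_map_int, Desc.eval₂_map_int, ← hε jF hjF₀, ← Desc.map_aeval_int ε tF P,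
      ← Desc.map_aeval_int ε tF Q, ← map_mul, hrelF]
  obtain ⟨hεt, hεt'⟩ := gauss_of_rel hπ ρ B (σ jF) (ε tF) _ _ _ _ hrel hab hdeg hlc hj hj'
  have hεev : ∀ p : A[X], ε (algebraMap _ _ (aeval (tE K (c.tK M)) p)) = eval₂ ρ (ε tF) p := by
    intro p
    have h3 : (ε.comp (algebraMap (EE K (c.tK M)) (F1 K (c.tK M) (M * s) M))).comp
        (algebraMap A (EE K (c.tK M))) = ρ := by
      ext a
      exact hε _ (hcst0 a)
    rw [aeval_def, ← h3]
    exact hom_eval₂ p (algebraMap A (EE K (c.tK M)))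
      (ε.comp (algebraMap (EE K (c.tK M)) (F1 K (c.tK M) (M * s) M))) (tE K (c.tK M))
  have hεB : ∀ p : A[X], ε (algebraMap _ _ (aeval (tE K (c.tK M)) p)) ∈ B := fun p => by
    rw [hεev]; exact hεt p
  have hεB' : ∀ p : A[X], ε (algebraMap _ _ (aeval (tE K (c.tK M)) p)) ∈ B.nonunits ↔ C π ∣ p :=
    fun p => by rw [hεev]; exact hεt' p
  -- conclusion
  have h2 := mem_nonunits_of_isPiOLx hπ B σ hσB hσB' h1
  have h3 := mem_nonunits_of_isPiOLx hπ B ε hεB hεB' h1
  rw [map_sub, map_one] at h2 h3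
  rw [hεu] at h3
  refine Desc.core B d hd ?_ _ z hzd hz1 h2 h3
  rw [← map_natCast inc d, hBnon]
  intro h
  obtain ⟨du, hdu⟩ := hdA
  have h5 : (d : LaurentSeries A) * HahnSeries.C ((du⁻¹ : Aˣ) : A) = 1 := by
    rw [← map_natCast (HahnSeries.C : A →+* LaurentSeries A), ← map_mul, ← hdu, Units.mul_inv,
      map_one]
  have h6 := congrArg (coeffMap r) h5
  rw [map_mul, h, zero_mul, map_one] at h6
  exact zero_ne_one h6

end

end Fermat.Agent.Crux.GT
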