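import Fermat.Agent.Crux.GT.Main
import Fermat.Agent.Crux.Descent

/-!
# Crux / GT : export in the shape of `Crux.CoreKAt`

`T = {z_M, z_d, z_3}` (primitive roots of unity of `ℚ̄`).  `CoreKAt` has an abstract DVR `A` with
`[IsFractionRing A K]`; `GT.coreK` wants `A : ValuationSubring K`.  Bridge: `A' :=` the valuation subring of `K` with
carrier `Set.range (algebraMap A K)` (`A` is a valuation ring), `e : A ≃+* A'`, `A'` is a DVR
(`RingEquiv.isDiscreteValuationRing` or similar), `y_i' = coeffMap e y_i`, `r' = r ∘ e.symm`,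
`coeffMap A'.subtype (coeffMap e y) = coeffMap (algebraMap A K) y`.
Roots of unity: `c ∈ T` is `algebraMap K ℚ̄ z`; `IsPrimitiveRoot.of_map_of_injective`.
-/

set_option autoImplicit false

open Polynomial ModularCurve AlgebraicCurve

namespace Fermat.Agent.Crux.GT

open Fermat.Agent.ES (Qb FF)

/-- primitive roots of unity of every positive order in `ℚ̄`. -/
theorem Export_exists_primitiveRoot (n : ℕ) (hn : 0 < n) : ∃ z : Qb, IsPrimitiveRoot z n := by
  have : NeZero n := ⟨hn.ne'⟩
  have : NeZero (n : Qb) := ⟨by exact_mod_cast hn.ne'⟩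
  exact HasEnoughRootsOfUnity.exists_primitiveRoot Qb n

/-- a primitive root of unity of `ℚ̄` lying in `K` is a primitive root of unity of `K`. -/
theorem Export_descend_primitiveRoot {K : Type} [Field K] [Algebra K Qb] {z : Qb} {n : ℕ}
    (hz : IsPrimitiveRoot z n) (h : z ∈ Set.range (algebraMap K Qb)) :
    ∃ z' : K, IsPrimitiveRoot z' n := by
  obtain ⟨z', rfl⟩ := h
  exact ⟨z', IsPrimitiveRoot.of_map_of_injective hz (algebraMap K Qb).injective⟩

/-- The image of a valuation ring in its fraction field, as a valuation subring. -/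
noncomputable def ExportVS (A K : Type) [CommRing A] [IsDomain A] [ValuationRing A] [Field K]
    [Algebra A K] [IsFractionRing A K] : ValuationSubring K :=
  (ValuationRing.valuation A K).valuationSubring

theorem Export_mem_VS {A K : Type} [CommRing A] [IsDomain A] [ValuationRing A] [Field K]
    [Algebra A K] [IsFractionRing A K] (x : K) :
    x ∈ ExportVS A K ↔ ∃ a : A, algebraMap A K a = x :=
  ValuationRing.mem_integer_iff A K x

/-- `A ≃+* A'`. -/
noncomputable def ExportEquiv (A K : Type) [CommRing A] [IsDomain A] [ValuationRing A] [Field K]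
    [Algebra A K] [IsFractionRing A K] : A ≃+* ExportVS A K :=
  RingEquiv.ofBijective
    ((algebraMap A K).codRestrict (ExportVS A K).toSubring
      (fun a => (Export_mem_VS (algebraMap A K a)).mpr ⟨a, rfl⟩))
    ⟨fun a b h => IsFractionRing.injective A K (congrArg Subtype.val h),
     fun x => by
      obtain ⟨a, ha⟩ := (Export_mem_VS (x : K)).mp x.2
      exact ⟨a, Subtype.ext ha⟩⟩

theorem Export_subtype_comp (A K : Type) [CommRing A] [IsDomain A] [ValuationRing A] [Field K]
    [Algebra A K] [IsFractionRing A K] :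
    (ExportVS A K).subtype.comp (ExportEquiv A K : A →+* ExportVS A K) = algebraMap A K :=
  RingHom.ext fun _ => rfl

theorem coreKAt (M ℓ d : ℕ) [NeZero M] (hℓ : ℓ.Prime) (hM : ¬ ℓ ∣ M) (hd : d.Prime)
    (hdℓ : d ≠ ℓ) : ∃ T : Finset Qb, Fermat.Agent.Crux.CoreKAt M ℓ d T := by
  classical
  obtain ⟨zM, hzM⟩ := Export_exists_primitiveRoot M (Nat.pos_of_ne_zero (NeZero.ne M))
  obtain ⟨zd, hzd⟩ := Export_exists_primitiveRoot d hd.pos
  obtain ⟨z3, hz3⟩ := Export_exists_primitiveRoot 3 (by norm_num)
  refine ⟨{zM, zd, z3}, ?_⟩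
  intro A K k _ _ _ _ _ _ _ _ _ r hr hrℓ hT y₁ y₂ h₁ h₂ hred hne hlc W' hW' hdiv
  have hdvr : IsDiscreteValuationRing (ExportVS A K) :=
    IsDiscreteValuationRing.RingEquivClass.isDiscreteValuationRing (ExportEquiv A K)
  have hsub : ∀ y : LaurentSeries A,
      coeffMap (ExportVS A K).subtype (coeffMap (ExportEquiv A K : A →+* ExportVS A K) y)
        = coeffMap (algebraMap A K) y := by
    intro y
    rw [coeffMap_coeffMap, Export_subtype_comp]
  have hres : ∀ y : LaurentSeries A,
      coeffMap (r.comp ((ExportEquiv A K).symm : ExportVS A K →+* A))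
        (coeffMap (ExportEquiv A K : A →+* ExportVS A K) y) = coeffMap r y := by
    intro y
    rw [coeffMap_coeffMap]
    congr 1
    ext a
    simp
  have key := coreK M ℓ hℓ hM K (ExportVS A K) k
    (r.comp ((ExportEquiv A K).symm : ExportVS A K →+* A))
    (hr.comp (ExportEquiv A K).symm.surjective)
    (by simpa using hrℓ) d hd hdℓ
    (Export_descend_primitiveRoot hzM (hT zM (by simp)))
    (Export_descend_primitiveRoot hzd (hT zd (by simp)))
    (Export_descend_primitiveRoot hz3 (hT z3 (by simp)))
    (coeffMap (ExportEquiv A K : A →+* ExportVS A K) y₁)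
    (coeffMap (ExportEquiv A K : A →+* ExportVS A K) y₂)
    (by rw [hsub]; exact h₁) (by rw [hsub]; exact h₂)
    (by rw [hres, hres]; exact hred) (by rw [hres]; exact hne)
    (by rw [hsub, hsub]; exact hlc) W' (by rw [hsub, hsub]; exact hW') hdiv
  rw [hsub, hsub] at key
  exact key

end Fermat.Agent.Crux.GT
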