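import Mathlib

/-!
# Crux / GT : the formal Hauptmodul `t` (Hensel's lemma in `R⟦y⟧`)

`R` a commutative ring, `U ∈ R⟦y⟧` with constant coefficient `1`.

* `exists_lambda` (`2` invertible): `Z ∈ R⟦y⟧`, `16 Z(0) = 1`,
  `256 (Z² - yZ + y²)³ = U Z² (Z - y)²`.
  With `t = Z / y` this says `256 (t² - t + 1)³ / (t² (t - 1)²) = U / y²`.
* `exists_hesse` (`3` invertible): `Z ∈ R⟦y⟧`, `3 Z(0) = 1`,
  `27 Z³ (Z³ + 8 y³)³ = U (Z³ - y³)³`.
  With `t = Z / y` this says `27 t³ (t³ + 8)³ / (t³ - 1)³ = U / y³`.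

Proof: `R⟦y⟧` is `(y)`-adically complete (`isAdicComplete_X`), hence Henselian
(`IsAdicComplete.henselianRing`); the polynomial (made monic by dividing by `256`, resp. `27`) has,
modulo `y`, the simple root `1/16` (`f' = 1/2048 · 256⁻¹…` a unit), resp. `1/3`.

Extra: `hensel_of_isAdicComplete`, `exists_root` : the same statements without `Monic` (Newton's
method, the proof of `IsAdicComplete.henselianRing` never uses monicity).
-/

set_option autoImplicit false

open PowerSeries

namespace Fermat.Agent.Crux.GT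

theorem Formal.smodEq_iff {R : Type*} [CommRing R] (n : ℕ) (x y : PowerSeries R) :
    x ≡ y [SMOD ((Ideal.span {(X : PowerSeries R)}) ^ n • ⊤ :
      Submodule (PowerSeries R) (PowerSeries R))] ↔ ∀ m < n, coeff m x = coeff m y := by
  rw [SModEq.sub_mem, smul_eq_mul, Ideal.mul_top, Ideal.span_singleton_pow,
    Ideal.mem_span_singleton, X_pow_dvd_iff]
  simp [sub_eq_zero]

/-- `R⟦X⟧` is `(X)`-adically complete. -/
theorem isAdicComplete_X (R : Type*) [CommRing R] :
    IsAdicComplete (Ideal.span {(X : PowerSeries R)}) (PowerSeries R) := by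
  refine { haus' := ?_, prec' := ?_ }
  · intro x hx
    ext m
    have := (Formal.smodEq_iff (m + 1) x 0).1 (hx (m + 1)) m (Nat.lt_succ_self m)
    simpa using this
  · intro f hf
    refine ⟨PowerSeries.mk fun m => coeff m (f (m + 1)), fun n => ?_⟩
    rw [Formal.smodEq_iff]
    intro m hm
    rw [coeff_mk]
    exact ((Formal.smodEq_iff (m + 1) _ _).1 (hf (Nat.succ_le_of_lt hm)) m
      (Nat.lt_succ_self m)).symm

open Polynomial in
open scoped Ring in
/-- Hensel's lemma in an adically complete ring, WITHOUT the monicity hypothesis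
(Newton's method; this is the proof of `IsAdicComplete.henselianRing`). -/
theorem hensel_of_isAdicComplete (R : Type*) [CommRing R] (I : Ideal R) [IsAdicComplete I R]
    (f : R[X]) (a₀ : R) (h₁ : f.eval a₀ ∈ I)
    (h₂ : IsUnit (Ideal.Quotient.mk I (f.derivative.eval a₀))) :
    ∃ a : R, f.IsRoot a ∧ a - a₀ ∈ I := by
  classical
  let f' := derivative f
  let c : ℕ → R := fun n => Nat.recOn n a₀ fun _ b => b - f.eval b * (f'.eval b)⁻¹ʳ
  have hc : ∀ n, c (n + 1) = c n - f.eval (c n) * (f'.eval (c n))⁻¹ʳ := by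
    intro n
    simp only [c]
  have hc_mod : ∀ n, c n ≡ a₀ [SMOD I] := by
    intro n
    induction n with
    | zero => rfl
    | succ n ih => ?_
    rw [hc, sub_eq_add_neg, ← add_zero a₀]
    refine ih.add ?_
    rw [SModEq.zero, Ideal.neg_mem_iff]
    refine I.mul_mem_right _ ?_
    rw [← SModEq.zero] at h₁ ⊢
    exact (ih.eval f).trans h₁
  have hf'c : ∀ n, IsUnit (f'.eval (c n)) := by
    intro n
    have := isLocalHom_of_le_jacobson_bot I (IsAdicComplete.le_jacobson_bot I)
    apply IsUnit.of_map (Ideal.Quotient.mk I)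
    convert! h₂ using 1
    exact SModEq.def.mp ((hc_mod n).eval _)
  have hfcI : ∀ n, f.eval (c n) ∈ I ^ (n + 1) := by
    intro n
    induction n with
    | zero => simpa only [Nat.rec_zero, zero_add, pow_one] using! h₁
    | succ n ih => ?_
    rw [← taylor_eval_sub (c n), hc, sub_eq_add_neg, sub_eq_add_neg,
      add_neg_cancel_comm]
    rw [eval_eq_sum, sum_over_range' _ _ _ (lt_add_of_pos_right _ zero_lt_two), ←
      Finset.sum_range_add_sum_Ico _ (Nat.le_add_left _ _)]
    swap
    · intro i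
      rw [zero_mul]
    refine Ideal.add_mem _ ?_ ?_
    · rw [← one_add_one_eq_two, Finset.sum_range_succ, Finset.range_one, Finset.sum_singleton,
        taylor_coeff_zero, taylor_coeff_one, pow_zero, pow_one, mul_one, mul_neg,
        mul_left_comm, Ring.mul_inverse_cancel _ (hf'c n), mul_one, add_neg_cancel]
      exact Ideal.zero_mem _
    · refine Submodule.sum_mem _ ?_
      simp only [Finset.mem_Ico]
      rintro i ⟨h2i, _⟩
      have aux : n + 2 ≤ i * (n + 1) := by trans 2 * (n + 1) <;> nlinarith only [h2i]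
      refine Ideal.mul_mem_left _ _ (Ideal.pow_le_pow_right aux ?_)
      rw [pow_mul']
      exact Ideal.pow_mem_pow ((Ideal.neg_mem_iff _).2 <| Ideal.mul_mem_right _ _ ih) _
  have aux : ∀ m n, m ≤ n → c m ≡ c n [SMOD (I ^ m • ⊤ : Ideal R)] := by
    intro m n hmn
    rw [← Ideal.one_eq_top, Ideal.smul_eq_mul, mul_one]
    obtain ⟨k, rfl⟩ := Nat.exists_eq_add_of_le hmn
    clear hmn
    induction k with
    | zero => rw [add_zero]
    | succ k ih => ?_
    rw [← add_assoc, hc, ← add_zero (c m), sub_eq_add_neg]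
    refine ih.add ?_
    symm
    rw [SModEq.zero, Ideal.neg_mem_iff]
    refine Ideal.mul_mem_right _ _ (Ideal.pow_le_pow_right ?_ (hfcI _))
    rw [add_assoc]
    exact le_self_add
  obtain ⟨a, ha⟩ := IsPrecomplete.prec' c (aux _ _)
  refine ⟨a, ?_, ?_⟩
  · show f.IsRoot a
    suffices ∀ n, f.eval a ≡ 0 [SMOD (I ^ n • ⊤ : Ideal R)] by exact IsHausdorff.haus' _ this
    intro n
    specialize ha n
    rw [← Ideal.one_eq_top, Ideal.smul_eq_mul, mul_one] at ha ⊢
    refine (ha.symm.eval f).trans ?_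
    rw [SModEq.zero]
    exact Ideal.pow_le_pow_right le_self_add (hfcI _)
  · show a - a₀ ∈ I
    specialize ha (0 + 1)
    rw [hc, pow_one, ← Ideal.one_eq_top, Ideal.smul_eq_mul, mul_one, sub_eq_add_neg] at ha
    rw [← SModEq.sub_mem, ← add_zero a₀]
    refine ha.symm.trans (SModEq.rfl.add ?_)
    rw [SModEq.zero, Ideal.neg_mem_iff]
    exact Ideal.mul_mem_right _ _ h₁

/-- Hensel's lemma in `R⟦X⟧` (no monicity needed): a simple root of the reduction mod `X`
lifts. -/
theorem exists_root {R : Type*} [CommRing R] (f : Polynomial (PowerSeries R)) (a₀ : R)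
    (h₀ : (f.map (constantCoeff (R := R))).eval a₀ = 0)
    (h₁ : IsUnit ((f.map (constantCoeff (R := R))).derivative.eval a₀)) :
    ∃ Z : PowerSeries R, f.eval Z = 0 ∧ constantCoeff Z = a₀ := by
  have := isAdicComplete_X R
  have hmem : ∀ Q : PowerSeries R, Q ∈ Ideal.span {(X : PowerSeries R)} ↔ constantCoeff Q = 0 := by
    intro Q
    rw [Ideal.mem_span_singleton, X_dvd_iff]
  have hev : ∀ g : Polynomial (PowerSeries R),
      constantCoeff (g.eval (C a₀)) = (g.map (constantCoeff (R := R))).eval a₀ := by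
    intro g
    rw [← Polynomial.eval_map_apply, constantCoeff_C]
  obtain ⟨Z, hZ, hZ0⟩ := hensel_of_isAdicComplete (PowerSeries R) (Ideal.span {X}) f (C a₀)
    (by rw [hmem, hev, h₀])
    (by
      apply IsUnit.map
      rw [isUnit_iff_constantCoeff, hev, ← Polynomial.derivative_map]
      exact h₁)
  refine ⟨Z, hZ, ?_⟩
  rw [hmem, map_sub, constantCoeff_C, sub_eq_zero] at hZ0
  exact hZ0

/-- Hensel's lemma in `R⟦X⟧` for monic polynomials: a simple root of the reduction mod `X`
lifts. -/
theorem exists_root_of_monic {R : Type*} [CommRing R] (f : Polynomial (PowerSeries R))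
    (hf : f.Monic) (a₀ : R)
    (h₀ : (f.map (constantCoeff (R := R))).eval a₀ = 0)
    (h₁ : IsUnit ((f.map (constantCoeff (R := R))).derivative.eval a₀)) :
    ∃ Z : PowerSeries R, f.eval Z = 0 ∧ constantCoeff Z = a₀ :=
  have _ := hf
  exists_root f a₀ h₀ h₁

theorem exists_lambda {R : Type*} [CommRing R] (h2 : IsUnit (2 : R)) (U : PowerSeries R)
    (hU : constantCoeff U = 1) :
    ∃ Z : PowerSeries R, 16 * constantCoeff Z = 1 ∧
      256 * (Z ^ 2 - X * Z + X ^ 2) ^ 3 = U * Z ^ 2 * (Z - X) ^ 2 := by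
  obtain ⟨i, hi⟩ := h2.exists_right_inv
  have hiu : IsUnit i := IsUnit.of_mul_eq_one _ (by rw [mul_comm]; exact hi)
  let f : Polynomial (PowerSeries R) :=
    256 * (Polynomial.X ^ 2 - Polynomial.C X * Polynomial.X + Polynomial.C X ^ 2) ^ 3 -
      Polynomial.C U * Polynomial.X ^ 2 * (Polynomial.X - Polynomial.C X) ^ 2
  have hmap : f.map (constantCoeff (R := R)) = 256 * Polynomial.X ^ 6 - Polynomial.X ^ 4 := by
    simp only [f, Polynomial.map_sub, Polynomial.map_mul, Polynomial.map_pow, Polynomial.map_add,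
      Polynomial.map_X, Polynomial.map_C, constantCoeff_X, hU, Polynomial.map_ofNat, map_zero,
      map_one]
    ring
  obtain ⟨Z, hZ, hZ0⟩ := exists_root f (i ^ 4)
    (by
      rw [hmap]
      simp only [Polynomial.eval_sub, Polynomial.eval_mul, Polynomial.eval_pow, Polynomial.eval_X,
        Polynomial.eval_ofNat]
      have : (256 : R) * (i ^ 4) ^ 6 - (i ^ 4) ^ 4 = i ^ 16 * ((2 * i) ^ 8 - 1) := by ring
      rw [this, hi]; ring)
    (by
      rw [hmap]
      have : (Polynomial.derivative (256 * Polynomial.X ^ 6 - Polynomial.X ^ 4 :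
          Polynomial R)).eval (i ^ 4) = i ^ 11 * ((2 * i) ^ 9 * 3 - (2 * i) * 2) := by
        simp only [Polynomial.derivative_sub, Polynomial.derivative_mul,
          Polynomial.derivative_X_pow, Polynomial.derivative_ofNat, Polynomial.eval_sub,
          Polynomial.eval_mul, Polynomial.eval_pow, Polynomial.eval_X, Polynomial.eval_ofNat,
          Polynomial.eval_add, Polynomial.eval_C, Polynomial.eval_zero]
        push_cast
        ring
      rw [this, hi]
      have : i ^ 11 * ((1 : R) ^ 9 * 3 - 1 * 2) = i ^ 11 := by ring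
      rw [this]
      exact hiu.pow 11)
  refine ⟨Z, ?_, ?_⟩
  · rw [hZ0]
    have : (16 : R) * i ^ 4 = (2 * i) ^ 4 := by ring
    rw [this, hi, one_pow]
  · simp only [f, Polynomial.eval_sub, Polynomial.eval_mul, Polynomial.eval_pow,
      Polynomial.eval_X, Polynomial.eval_ofNat, Polynomial.eval_add, Polynomial.eval_C] at hZ
    exact sub_eq_zero.1 hZ

theorem exists_hesse {R : Type*} [CommRing R] (h3 : IsUnit (3 : R)) (U : PowerSeries R)
    (hU : constantCoeff U = 1) :
    ∃ Z : PowerSeries R, 3 * constantCoeff Z = 1 ∧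
      27 * Z ^ 3 * (Z ^ 3 + 8 * X ^ 3) ^ 3 = U * (Z ^ 3 - X ^ 3) ^ 3 := by
  obtain ⟨i, hi⟩ := h3.exists_right_inv
  have hiu : IsUnit i := IsUnit.of_mul_eq_one _ (by rw [mul_comm]; exact hi)
  let f : Polynomial (PowerSeries R) :=
    27 * Polynomial.X ^ 3 * (Polynomial.X ^ 3 + 8 * Polynomial.C X ^ 3) ^ 3 -
      Polynomial.C U * (Polynomial.X ^ 3 - Polynomial.C X ^ 3) ^ 3
  have hmap : f.map (constantCoeff (R := R)) = 27 * Polynomial.X ^ 12 - Polynomial.X ^ 9 := by
    simp only [f, Polynomial.map_sub, Polynomial.map_mul, Polynomial.map_pow, Polynomial.map_add,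
      Polynomial.map_X, Polynomial.map_C, constantCoeff_X, hU, Polynomial.map_ofNat, map_zero,
      map_one]
    ring
  obtain ⟨Z, hZ, hZ0⟩ := exists_root f i
    (by
      rw [hmap]
      simp only [Polynomial.eval_sub, Polynomial.eval_mul, Polynomial.eval_pow, Polynomial.eval_X,
        Polynomial.eval_ofNat]
      have : (27 : R) * i ^ 12 - i ^ 9 = i ^ 9 * ((3 * i) ^ 3 - 1) := by ring
      rw [this, hi]; ring)
    (by
      rw [hmap]
      have : (Polynomial.derivative (27 * Polynomial.X ^ 12 - Polynomial.X ^ 9 :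
          Polynomial R)).eval i = i ^ 7 * ((3 * i) ^ 4 * 4 - (3 * i) * 3) := by
        simp only [Polynomial.derivative_sub, Polynomial.derivative_mul,
          Polynomial.derivative_X_pow, Polynomial.derivative_ofNat, Polynomial.eval_sub,
          Polynomial.eval_mul, Polynomial.eval_pow, Polynomial.eval_X, Polynomial.eval_ofNat,
          Polynomial.eval_add, Polynomial.eval_C, Polynomial.eval_zero]
        push_cast
        ring
      rw [this, hi]
      have : i ^ 7 * ((1 : R) ^ 4 * 4 - 1 * 3) = i ^ 7 := by ring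
      rw [this]
      exact hiu.pow 7)
  refine ⟨Z, ?_, ?_⟩
  · rw [hZ0, hi]
  · simp only [f, Polynomial.eval_sub, Polynomial.eval_mul, Polynomial.eval_pow,
      Polynomial.eval_X, Polynomial.eval_ofNat, Polynomial.eval_add, Polynomial.eval_C] at hZ
    exact sub_eq_zero.1 hZ

end Fermat.Agent.Crux.GT
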