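import Fermat.Agent.Crux.GT.Basic
import Fermat.Agent.Crux.GM.AlgClosed

/-!
# Crux / GT : (H0)  `A` is integrally closed in every subfield of `K((x))`

`const_of_isIntegral`: `z ∈ K((x))` integral over `A`.  If `ord z < 0` the leading term of `p(z)` is that of
`z^n`: impossible.  So `z = a + z'`, `a ∈ K`, `ord z' > 0`; `z'` is algebraic over `K`; if `z' ≠ 0` divide a
polynomial relation by a power of `X` so that its constant term is `≠ 0`: contradiction with `ord z' > 0`.  So `z = a`
is integral over `A`, and `A` is integrally closed in `K` (valuation ring).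
`H0_F1`, `H0_L1`: unfold the algebra structures of `Defs.lean` (`algebraMap A F = (E → F) ∘ (K → E) ∘ A.subtype`).
-/

set_option autoImplicit false

open Polynomial ModularCurve
open scoped IntermediateField

namespace Fermat.Agent.Crux.GT

noncomputable section

variable {K : Type} [Field K] [CharZero K] {A : ValuationSubring K} [IsDiscreteValuationRing A]

/-! ### (H0) -/

/-- `K` is algebraically closed in `K((x))` and `A` is integrally closed in `K`. -/
theorem const_of_isIntegral (z : Om K) (p : A[X]) (hp : p.Monic)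
    (hz : eval₂ ((algebraMap K (Om K)).comp A.subtype) z p = 0) :
    ∃ a : A, z = algebraMap K (Om K) a := by
  rw [GM.AlgClosed.algebraMap_eq_C] at hz ⊢
  exact GM.eq_C_of_isIntegralElem (A := A) (K := K) z ⟨p, hp, hz⟩

theorem H0_F1 (t : Om K) (e M : ℕ) (z : F1 K t e M) (hz : IsIntegral A z) :
    z ∈ Set.range (algebraMap A (F1 K t e M)) := by
  obtain ⟨p, hp, hpz⟩ := hz
  have h1 := congrArg (algebraMap (F1 K t e M) (Om K)) hpz
  rw [map_zero, Polynomial.hom_eval₂] at h1
  obtain ⟨a, ha⟩ := const_of_isIntegral (z : Om K) p hp h1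
  exact ⟨a, Subtype.ext ha.symm⟩

theorem H0_L1 (t : Om K) (e M : ℕ) (w : Om K) (z : L1 K t e M w) (hz : IsIntegral A z) :
    z ∈ Set.range (algebraMap A (L1 K t e M w)) := by
  obtain ⟨p, hp, hpz⟩ := hz
  have h1 := congrArg (algebraMap (L1 K t e M w) (Om K)) hpz
  rw [map_zero, Polynomial.hom_eval₂] at h1
  obtain ⟨a, ha⟩ := const_of_isIntegral (z : Om K) p hp h1
  exact ⟨a, Subtype.ext ha.symm⟩

end

end Fermat.Agent.Crux.GT
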