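import Fermat.Agent.Crux.GT.Rho
import Fermat.Agent.Crux.GT.Extend
import Fermat.Agent.Crux.GT.Conj
import Fermat.Agent.Crux.G.UnitDiscEmb

/-!
# Crux / GT : (H1) for `F` from the cusp family

Apply `G.tracePerfectx_of_embeddings` with `O = A((x))`, `Ω = K((x))`, `κ = k((x))`, `inc = coeffMap A.subtype`,
`red = coeffMap r`, `θ = evAt (c.tA M)` (`Basic.red_evAt_tA`, `Basic.coe_aeval_tE`), `ι = E ↪ K((x))`.
The family `τ : Fin [F:E] → F →+* K((x))` comes from `Extend.all_embeddings` (`Mb` = algebraic closure of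
`K((x))`, `S` = the generators `j(x^{e d})`), whose hypothesis `hS` is `Conj.lean` (every conjugate of
`j(x^{e d})` over `K(j(x^e))` is `J(c x^m)`, `c^M = 1`).  `hsep`: two different embeddings differ on a generator `y`
(`Basic.isOLx_gen`), all `τ_c y = J(c x^m)` have coefficients in `A`, and different `(c,m)` have different
reductions (`Conj.lean`, separation lemma).
`ModEqData K p` for `p ∣ M`: `S28.exists_modEqData_of_injective ρ` with `ζ = z^(M/p)`.
-/

set_option autoImplicit false

open Polynomial ModularCurve AlgebraicCurve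
open scoped IntermediateField

namespace Fermat.Agent.Crux.GT

noncomputable section

open Fermat.Agent.S28 (jd evAt V J)
open Fermat.Agent.Crux.G
open Fermat.Agent.ES (Qb FF)
open Fermat.Agent.S24 (iotaC)

/-- `F` is generated over `E` by the `j(x^{e d})`, in the form used by `all_embeddings`. -/
theorem F1_subfield_eq_top {K : Type} [Field K] (t : Om K) (e M : ℕ) (T : Subfield (F1 K t e M))
    (h1 : ∀ c, algebraMap (EE K t) (F1 K t e M) c ∈ T)
    (h2 : {y : F1 K t e M | (y : Om K) ∈ gens K e M} ⊆ T) : T = ⊤ := by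
  let T' : IntermediateField (EE K t) (Om K) :=
    (T.map (F1 K t e M).val.toRingHom).toIntermediateField (fun x => by
      rw [Subfield.mem_map]
      exact ⟨algebraMap (EE K t) (F1 K t e M) x, h1 x, rfl⟩)
  have hle : F1 K t e M ≤ T' := by
    rw [IntermediateField.adjoin_le_iff]
    intro y hy
    have hyF : y ∈ F1 K t e M := IntermediateField.subset_adjoin _ _ hy
    exact ⟨⟨y, hyF⟩, h2 hy, rfl⟩
  rw [eq_top_iff]
  intro y _
  obtain ⟨y', hy', hyy'⟩ := hle y.2
  have : y' = y := Subtype.ext hyy'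
  exact this ▸ hy'

variable {K : Type} [Field K] [CharZero K] {A : ValuationSubring K} [IsDiscreteValuationRing A]
variable {s : ℕ} [NeZero s] {P Q : ℤ[X]}

/-! ### (H1) -/

theorem tracePerfectx_F1 (hb : IsBase s P Q) (c : Coord A s P Q) (M : ℕ) [NeZero M]
    {π : A} (hπ : Irreducible π) {k : Type} [Field k] (r : A →+* k) (hr : Function.Surjective r)
    (ρ : K →+* ℂ) (hM : IsUnit (M : A)) (z : K) (hz : IsPrimitiveRoot z M) :
    TracePerfectx (F1 K (c.tK M) (M * s) M) π (tE K (c.tK M)) := by
  classical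
  have hfd : FiniteDimensional (EE K (c.tK M)) (F1 K (c.tK M) (M * s) M) :=
    finiteDimensional_F1 c M hb.monic
  have hD := exists_phiData ρ z hz
  have hMk : (M : k) ≠ 0 := by
    have := hM.map r
    rw [map_natCast] at this
    exact this.ne_zero
  -- notation
  set t : Om K := c.tK M with ht
  set e : ℕ := M * s with he
  let ι : EE K t →+* Om K := algebraMap (EE K t) (Om K)
  let φ : F1 K t e M →+* Om K := algebraMap (F1 K t e M) (Om K)
  have hφ : Function.Injective φ := φ.injective
  let cst : K →+* F1 K t e M := (algebraMap (EE K t) (F1 K t e M)).comp (algebraMap K (EE K t))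
  have hcst : ∀ a, φ (cst a) = HahnSeries.C a := by
    intro a
    rw [Fermat.Agent.S28.C_eq_algebraMap]
    rfl
  have hgenF : ∀ (d : ℕ) (_ : NeZero d), d ∣ M → ∃ y : F1 K t e M, φ y = V K (e * d) (J K) := by
    intro d _ hd
    exact ⟨⟨jd K (e * d), gen_mem_F1 c M hd⟩, Fermat.Agent.S28.jd_eq (e * d)⟩
  have hjE : jd K e ∈ EE K t := jd_mem_EE c M hb.monic
  -- embeddings extending `ι` fix `j(x^e)`
  have hfix : ∀ {Ω : Type} [Field Ω] (inc : Om K →+* Ω) (eps : F1 K t e M →+* Ω),
      (∀ a, eps (algebraMap (EE K t) (F1 K t e M) a) = inc (ι a)) →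
      (∀ a, eps (cst a) = inc (HahnSeries.C a)) ∧
      ∀ y : F1 K t e M, φ y = V K e (J K) → eps y = inc (V K e (J K)) := by
    intro Ω _ inc eps heps
    refine ⟨fun a => ?_, fun y hy => ?_⟩
    · rw [← hcst]
      exact heps _
    · have h1 : y = algebraMap (EE K t) (F1 K t e M) ⟨jd K e, hjE⟩ := by
        apply hφ
        rw [hy, ← Fermat.Agent.S28.jd_eq]
        rfl
      rw [h1, heps, ← Fermat.Agent.S28.jd_eq]
      rfl
  obtain ⟨τ, hτinj, hτι⟩ := all_embeddings (Mb := AlgebraicClosure (Om K)) ι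
    {y : F1 K t e M | (y : Om K) ∈ gens K e M} (F1_subfield_eq_top t e M) (by
      intro ε hε y hy
      obtain ⟨d, hd, hyd⟩ := hy
      have hd0 : NeZero d := ⟨fun h => NeZero.ne M (by rw [h] at hd; exact zero_dvd_iff.1 hd)⟩
      obtain ⟨h1, h2⟩ := hfix (algebraMap (Om K) (AlgebraicClosure (Om K))) ε hε
      obtain ⟨c', m, _, -, -, h3⟩ := exists_conj M z hz hD e (Dvd.intro _ rfl)
        (algebraMap (Om K) (AlgebraicClosure (Om K))) φ hφ cst hcst ε h1 hgenF h2 d hd0 hd y
        (by rw [← Fermat.Agent.S28.jd_eq]; exact hyd)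
      exact ⟨_, h3.symm⟩)
  refine tracePerfectx_of_embeddings hπ (transcendental_tE c M) (hgen_tE t)
    (coeffMap A.subtype) ?_ (coeffMap r) (evAt (c.tA M)) (red_evAt_tA c M hπ r hr) ι
    (coe_aeval_tE c M) (Fintype.card_fin _) τ hτι ?_
  · exact Fermat.Agent.S28.Build.coeffMap_injective _ Subtype.val_injective
  · intro a b hab
    -- the two embeddings differ on a generator
    have hex : ∃ y : F1 K t e M, (y : Om K) ∈ gens K e M ∧ τ a y ≠ τ b y := by
      by_contra hcon
      push Not at hcon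
      apply hab
      apply hτinj
      have htop := F1_subfield_eq_top t e M ((τ a).eqLocusField (τ b))
        (fun x => by
          show τ a _ = τ b _
          rw [hτι, hτι])
        (fun y hy => hcon y hy)
      refine RingHom.ext fun y => ?_
      have : y ∈ (τ a).eqLocusField (τ b) := by rw [htop]; trivial
      exact this
    obtain ⟨y, ⟨d, hd, hyd⟩, hne⟩ := hex
    have hd0 : NeZero d := ⟨fun h => NeZero.ne M (by rw [h] at hd; exact zero_dvd_iff.1 hd)⟩
    obtain ⟨Y, hY1, hY2⟩ := exists_integral_lifts M z hz hD e (Dvd.intro _ rfl)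
      (RingHom.id (Om K)) φ hφ cst hcst hgenF τ
      (fun i => (hfix (RingHom.id (Om K)) (τ i) (hτι i)).1)
      (fun i => (hfix (RingHom.id (Om K)) (τ i) (hτι i)).2) A r hMk d hd y
      (by rw [← Fermat.Agent.S28.jd_eq]; exact hyd)
    refine ⟨y, Y, ?_, hY1, fun h => hne (hY2 a b h)⟩
    have : y = ⟨jd K (e * d), gen_mem_F1 c M hd⟩ := Subtype.ext hyd
    rw [this]
    exact isOLx_gen c M hπ hb.monic hd

end

end Fermat.Agent.Crux.GT
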