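import Fermat.Agent.Crux.GT.Rho

/-!
# Crux / GT : (H2) in both charts from point families

`Pts.unramx_of_points` for `x = t` and for `x = t⁻¹` (`G.transcendental_inv`, `G.hgen_inv`, `PointFam.inv`).
A `c₁ ∈ ℂ` algebraic over `A` is `iotaC x`, `x ∈ ℚ̄` (`ℚ̄` algebraically closed).  Chart `t`: `c₁ ∉ ρ(B0)` ⇒ `Q(x) ≠ 0` by `hQ0`.
Chart `t⁻¹`: `c₁ ≠ 0` (`0 ∈ Binf`), `Q(x⁻¹) ≠ 0` by `hQinf`; use the family at `x⁻¹` and `PointFam.inv`.
-/

set_option autoImplicit false
set_option linter.unusedSectionVars false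

open Polynomial ModularCurve AlgebraicCurve
open scoped IntermediateField

namespace Fermat.Agent.Crux.GT

noncomputable section

open Fermat.Agent.S28 (jd evAt)
open Fermat.Agent.Crux.G
open Fermat.Agent.ES (Qb FF)
open Fermat.Agent.S24 (iotaC)

variable {K : Type} [Field K] [CharZero K] {A : ValuationSubring K} [IsDiscreteValuationRing A]
variable {s : ℕ} [NeZero s] {P Q : ℤ[X]}

theorem rhoA_injective [Algebra K Qb] : Function.Injective (rhoA A) :=
  (iotaC.comp (algebraMap K Qb)).injective.comp Subtype.val_injective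

theorem rhoA_apply [Algebra K Qb] (a : A) : rhoA A a = iotaC (algebraMap K Qb a) := rfl

/-- a complex number algebraic over `A` comes from `ℚ̄`. -/
theorem exists_iotaC_eq [Algebra K Qb] (c₁ : ℂ) (h : ∃ g : A[X], g ≠ 0 ∧ eval₂ (rhoA A) c₁ g = 0) :
    ∃ x : Qb, iotaC x = c₁ := by
  obtain ⟨g, hg0, hg⟩ := h
  set j : A →+* Qb := (algebraMap K Qb).comp A.subtype with hj
  have hji : Function.Injective j := (algebraMap K Qb).injective.comp Subtype.val_injective
  have hg' : g.map j ≠ 0 := (Polynomial.map_ne_zero_iff hji).mpr hg0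
  have hroot : c₁ ∈ ((g.map j).map iotaC).roots := by
    rw [mem_roots ((Polynomial.map_ne_zero_iff iotaC.injective).mpr hg'), IsRoot.def, eval_map,
      eval₂_map]
    exact hg
  rw [(IsAlgClosed.splits (g.map j)).roots_map iotaC] at hroot
  obtain ⟨x, -, hx⟩ := Multiset.mem_map.mp hroot
  exact ⟨x, hx⟩

theorem unramx_both [Algebra K Qb] {t : Om K} (ht : Transcendental A (tE K t))
    {L : Type*} [Field L] [Algebra (EE K t) L] [FiniteDimensional (EE K t) L]
    {π : A} (hπ : Irreducible π) (B0 Binf : Finset A)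
    (hQ0 : ∀ x : Qb, aeval x Q = 0 → ∃ β ∈ B0, algebraMap K Qb β = x)
    (hQinf : (0 : A) ∈ Binf ∧ ∀ x : Qb, aeval x Q = 0 → x ≠ 0 → ∃ β ∈ Binf, algebraMap K Qb β = x⁻¹)
    (hfam : ∀ c₁ : Qb, aeval c₁ Q ≠ 0 → PointFam L (rhoA A) (tE K t) (iotaC c₁) (fun _ => True)) :
    Unramx L π (tE K t) B0 ∧ Unramx L π (tE K t)⁻¹ Binf := by
  constructor
  · refine unramx_of_points hπ ht (hgen_tE t) (rhoA A) rhoA_injective B0 ?_
    intro c₁ halg hB
    obtain ⟨x, rfl⟩ := exists_iotaC_eq c₁ halg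
    refine hfam x fun h0 => ?_
    obtain ⟨β, hβ, rfl⟩ := hQ0 x h0
    exact hB β hβ rfl
  · refine unramx_of_points hπ (transcendental_inv ht) (hgen_inv ht (hgen_tE t)) (rhoA A)
      rhoA_injective Binf ?_
    intro c₁ halg hB
    obtain ⟨x, rfl⟩ := exists_iotaC_eq c₁ halg
    have hx0 : x ≠ 0 := by
      rintro rfl
      refine hB 0 hQinf.1 ?_
      rw [map_zero, map_zero]
    have h1 : aeval x⁻¹ Q ≠ 0 := by
      intro h0
      obtain ⟨β, hβ, hβx⟩ := hQinf.2 x⁻¹ h0 (inv_ne_zero hx0)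
      rw [inv_inv] at hβx
      exact hB β hβ (by rw [rhoA_apply, hβx])
    have h2 := (hfam x⁻¹ h1).inv (by simpa using hx0)
    rwa [map_inv₀, inv_inv] at h2

end

end Fermat.Agent.Crux.GT
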