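import Fermat.Agent.S28.Defs

/-!
# Crux / GT : linear disjointness of `K((x))` and `K'` over `K`

`i : K → K'` fields, `c = coeffMap i : K((x)) → K'((x))`.
* `linearIndependent_coeffMap`: a `K`-linearly independent family of `K((x))` stays
  `K'`-linearly independent.  (Relation `∑ a_n c(f_n) = 0`; write the finitely many `a_n` in a
  `K`-basis `β_k` of their span; compare coefficients.)
* `independent_over_adjoin`: if `u ∈ K((x))` is transcendental over `K` and `b_1 … b_n ∈ K((x))` satisfy no
  relation `∑ p_n(u) b_n = 0` with `p_n ∈ K[X]` not all zero, then the same holds for `c(u)`, `c(b_n)`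
  over `K'`.  (Apply the first statement to the family `u^m b_n`.)
-/

set_option autoImplicit false

open Polynomial ModularCurve

namespace Fermat.Agent.Crux.GT

theorem linearIndependent_coeffMap {K K' : Type*} [Field K] [Field K'] (i : K →+* K')
    {ι : Type*} (f : ι → LaurentSeries K) (hf : LinearIndependent K f) :
    LinearIndependent K' (fun n => coeffMap i (f n)) := by
  let _ := i.toAlgebra
  rw [linearIndependent_iff'] at hf ⊢
  intro s a ha n hn
  rw [← Module.forall_dual_apply_eq_zero_iff K]
  intro ℓ
  refine hf s (fun n => ℓ (a n)) ?_ n hn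
  ext m
  have h1 := congrArg (fun z => ℓ (z.coeff m)) ha
  simp only [HahnSeries.coeff_sum, HahnSeries.coeff_smul, coeffMap_coeff, HahnSeries.coeff_zero,
    map_zero, map_sum] at h1
  rw [HahnSeries.coeff_sum, HahnSeries.coeff_zero, ← h1]
  refine Finset.sum_congr rfl fun n _ => ?_
  rw [HahnSeries.coeff_smul, smul_eq_mul, smul_eq_mul]
  have h2 : a n * i ((f n).coeff m) = (f n).coeff m • a n := by
    rw [Algebra.smul_def, mul_comm]; rfl
  rw [h2, map_smul, smul_eq_mul, mul_comm]

/-- a linear map sending a basis to a linearly independent family is injective. -/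
theorem injective_of_linearIndependent_basis {L V W ι : Type*} [Field L] [AddCommGroup V]
    [Module L V] [AddCommGroup W] [Module L W] (B : Module.Basis ι L V) (Φ : V →ₗ[L] W)
    (h : LinearIndependent L (fun x => Φ (B x))) : Function.Injective Φ := by
  rw [← LinearMap.ker_eq_bot, LinearMap.ker_eq_bot']
  intro v hv
  rw [linearIndependent_iff] at h
  have h1 := h (B.repr v) (by
    have : Finsupp.linearCombination L (fun x => Φ (B x)) (B.repr v)
        = Φ (Finsupp.linearCombination L B (B.repr v)) :=
      (Finsupp.apply_linearCombination L Φ B (B.repr v)).symm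
    rw [this, B.linearCombination_repr, hv])
  exact B.repr.map_eq_zero_iff.mp h1

/-- the evaluation map `p ↦ ∑ p_k(u) b_k`. -/
noncomputable def evalMap {L : Type*} [Field L] (u : LaurentSeries L) {n : ℕ}
    (b : Fin n → LaurentSeries L) : (Fin n → L[X]) →ₗ[L] LaurentSeries L where
  toFun p := ∑ k, aeval u (p k) * b k
  map_add' p q := by simp [add_mul, Finset.sum_add_distrib]
  map_smul' c p := by
    simp only [Pi.smul_apply, RingHom.id_apply, Finset.smul_sum]
    refine Finset.sum_congr rfl fun k _ => ?_
    rw [smul_eq_C_mul, map_mul, aeval_C, mul_assoc, algebraMap_laurentSeries_eq_single,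
      HahnSeries.single_zero_mul_eq_smul]

theorem evalMap_apply {L : Type*} [Field L] (u : LaurentSeries L) {n : ℕ}
    (b : Fin n → LaurentSeries L) (p : Fin n → L[X]) :
    evalMap u b p = ∑ k, aeval u (p k) * b k := rfl

theorem evalMap_basis {L : Type*} [Field L] (u : LaurentSeries L) {n : ℕ}
    (b : Fin n → LaurentSeries L) (x : Σ _ : Fin n, ℕ) :
    evalMap u b (Pi.basis (fun _ : Fin n => Polynomial.basisMonomials L) x) = u ^ x.2 * b x.1 := by
  rw [evalMap_apply, Pi.basis_apply, Finset.sum_eq_single x.1]
  · simp
  · intro k _ hk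
    rw [Pi.single_eq_of_ne hk, map_zero, zero_mul]
  · intro h; exact absurd (Finset.mem_univ _) h

theorem independent_over_adjoin {K K' : Type*} [Field K] [Field K'] (i : K →+* K')
    (u : LaurentSeries K) {n : ℕ} (b : Fin n → LaurentSeries K)
    (hb : ∀ p : Fin n → K[X], ∑ k, aeval u (p k) * b k = 0 → p = 0)
    (p : Fin n → K'[X]) (hp : ∑ k, aeval (coeffMap i u) (p k) * coeffMap i (b k) = 0) : p = 0 := by
  have h1 : Function.Injective (evalMap u b) := by
    rw [← LinearMap.ker_eq_bot, LinearMap.ker_eq_bot']
    intro q hq
    exact hb q (by rw [← evalMap_apply, hq])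
  have h2 : LinearIndependent K (fun x : Σ _ : Fin n, ℕ => u ^ x.2 * b x.1) := by
    have := (Pi.basis (fun _ : Fin n => Polynomial.basisMonomials K)).linearIndependent.map'
      (evalMap u b) (LinearMap.ker_eq_bot.mpr h1)
    have e : (fun x : Σ _ : Fin n, ℕ => u ^ x.2 * b x.1) = (evalMap u b) ∘
        (Pi.basis (fun _ : Fin n => Polynomial.basisMonomials K)) :=
      funext fun x => (evalMap_basis u b x).symm
    rw [e]
    exact this
  have h3 := linearIndependent_coeffMap i _ h2
  have h4 : Function.Injective (evalMap (coeffMap i u) (fun k => coeffMap i (b k))) := by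
    apply injective_of_linearIndependent_basis
      (Pi.basis (fun _ : Fin n => Polynomial.basisMonomials K'))
    simp only [evalMap_basis]
    simpa only [map_mul, map_pow] using h3
  apply h4
  rw [evalMap_apply, hp, map_zero]

end Fermat.Agent.Crux.GT
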