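import Fermat.Agent.Crux.GT.Mods
import Fermat.Agent.Crux.G.GK

/-!
# Crux / GT : assembly
-/

set_option autoImplicit false
set_option linter.unusedVariables false
set_option linter.unusedSectionVars false

open Polynomial ModularCurve AlgebraicCurve
open scoped IntermediateField

namespace Fermat.Agent.Crux.GT

noncomputable section

open Fermat.Agent.S28 (jd evAt)
open Fermat.Agent.Crux.G
open Fermat.Agent.ES (Qb FF)
open Fermat.Agent.S24 (iotaC)

variable {K : Type} [Field K] [CharZero K] {A : ValuationSubring K} [IsDiscreteValuationRing A]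
variable {s : ℕ} [NeZero s] {P Q : ℤ[X]}

namespace MainAux

theorem coeffMap_qExpand {R S : Type*} [CommRing R] [CommRing S] (f : R →+* S) (n : ℕ) [NeZero n]
    (x : LaurentSeries R) : coeffMap f (qExpand R n x) = qExpand S n (coeffMap f x) := by
  ext k
  rw [coeffMap_coeff]
  by_cases hk : (n : ℤ) ∣ k
  · obtain ⟨m, rfl⟩ := hk
    rw [qExpand_coeff_mul, qExpand_coeff_mul, coeffMap_coeff]
  · rw [qExpand_coeff_of_not_dvd n _ hk, qExpand_coeff_of_not_dvd n _ hk, map_zero]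

theorem qExpand_algebraMap (e : ℕ) [NeZero e] (a : K) :
    qExpand K e (algebraMap K (Om K) a) = algebraMap K (Om K) a :=
  (qExpandAlgHomC K e).commutes a

end MainAux

/-- `F(w)/F` for `w ∉ F`, `w ^ d ∈ F`, `d` prime. -/
theorem kummer_degree (t : Om K) (e M : ℕ) (w : Om K) (d : ℕ) (hd : d.Prime)
    (ζ : K) (hζ : IsPrimitiveRoot ζ d)
    (W : F1 K t e M) (hw : w ^ d = (W : Om K)) (hwF : w ∉ F1 K t e M) :
    Module.finrank (F1 K t e M) (L1 K t e M w) = d ∧
    LinearIndependent (F1 K t e M)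
      (fun j : Fin d => (⟨w, IntermediateField.mem_adjoin_simple_self _ w⟩ : L1 K t e M w) ^ (j : ℕ)) := by
  have hζ' : IsPrimitiveRoot (algebraMap K (Om K) ζ) d :=
    hζ.map_of_injective (algebraMap K (Om K)).injective
  have hζF : algebraMap K (Om K) ζ ∈ F1 K t e M := by
    have h1 : algebraMap K (Om K) ζ
        = algebraMap (EE K t) (Om K) (algebraMap K (EE K t) ζ) := rfl
    rw [h1]
    exact (F1 K t e M).algebraMap_mem _
  have hnp : ∀ b : F1 K t e M, b ^ d ≠ W := by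
    intro b hb
    have hb' : (b : Om K) ^ d = w ^ d := by
      rw [hw, ← hb]; rfl
    have hb0 : (b : Om K) ≠ 0 := by
      intro h0
      rw [h0, zero_pow hd.ne_zero] at hb'
      have : w = 0 := pow_eq_zero_iff hd.ne_zero |>.mp hb'.symm
      exact hwF (this ▸ (F1 K t e M).zero_mem)
    have h1 : (w / (b : Om K)) ^ d = 1 := by
      rw [div_pow, hb', div_self]
      rw [← hb']
      exact pow_ne_zero _ hb0
    have : NeZero d := ⟨hd.ne_zero⟩
    obtain ⟨i, -, hi⟩ := hζ'.eq_pow_of_pow_eq_one h1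
    have h2 : w = algebraMap K (Om K) ζ ^ i * b := by
      rw [hi, div_mul_cancel₀ _ hb0]
    exact hwF (h2 ▸ (F1 K t e M).mul_mem ((F1 K t e M).pow_mem hζF i) b.2)
  have hirr : Irreducible (X ^ d - C W : (F1 K t e M)[X]) := X_pow_sub_C_irreducible_of_prime hd hnp
  have hroot : aeval w (X ^ d - C W : (F1 K t e M)[X]) = 0 := by
    rw [map_sub, map_pow, aeval_X, aeval_C, hw, sub_eq_zero]
    rfl
  have hmonic : (X ^ d - C W : (F1 K t e M)[X]).Monic := monic_X_pow_sub_C W hd.ne_zero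
  have hmin : minpoly (F1 K t e M) w = X ^ d - C W :=
    (minpoly.eq_of_irreducible_of_monic hirr hroot hmonic).symm
  have hint : IsIntegral (F1 K t e M) w := ⟨_, hmonic, hroot⟩
  have hdeg : (minpoly (F1 K t e M) w).natDegree = d := by
    rw [hmin, natDegree_X_pow_sub_C]
  refine ⟨?_, ?_⟩
  · rw [IntermediateField.adjoin.finrank hint, hdeg]
  · have hgen : minpoly (F1 K t e M)
        (⟨w, IntermediateField.mem_adjoin_simple_self _ w⟩ : L1 K t e M w)
        = minpoly (F1 K t e M) w := IntermediateField.minpoly_gen (F1 K t e M) w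
    have hli := linearIndependent_pow (K := F1 K t e M)
      (⟨w, IntermediateField.mem_adjoin_simple_self _ w⟩ : L1 K t e M w)
    rw [hgen] at hli
    have := hli.comp (Fin.cast hdeg.symm) (Fin.cast_injective _)
    exact this

theorem finiteDimensional_L1 (t : Om K) (e M : ℕ) (w : Om K)
    [FiniteDimensional (EE K t) (F1 K t e M)] {d : ℕ} (hd : 0 < d)
    (h : Module.finrank (F1 K t e M) (L1 K t e M w) = d) :
    FiniteDimensional (EE K t) (L1 K t e M w) := by
  have : FiniteDimensional (F1 K t e M) (L1 K t e M w) :=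
    FiniteDimensional.of_finrank_pos (by rw [h]; exact hd)
  exact FiniteDimensional.trans (EE K t) (F1 K t e M) (L1 K t e M w)

/-- The Gauss valuation ring of `K((x))`, seen from `F`. -/
theorem exists_gauss_F1 (c : Coord A s P Q) (M : ℕ) [NeZero M]
    {π : A} (hπ : Irreducible π) {k : Type} [Field k] (r : A →+* k) (hr : Function.Surjective r) :
    ∃ B : ValuationSubring (Om K),
      (∀ f : LaurentSeries A, coeffMap A.subtype f ∈ B) ∧
      (∀ f : LaurentSeries A, coeffMap A.subtype f ∈ B.nonunits ↔ coeffMap r f = 0) ∧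
      (∀ p : A[X], (algebraMap (F1 K (c.tK M) (M * s) M) (Om K))
        (algebraMap (EE K (c.tK M)) (F1 K (c.tK M) (M * s) M) (aeval (tE K (c.tK M)) p)) ∈ B) ∧
      (∀ p : A[X], (algebraMap (F1 K (c.tK M) (M * s) M) (Om K))
        (algebraMap (EE K (c.tK M)) (F1 K (c.tK M) (M * s) M) (aeval (tE K (c.tK M)) p)) ∈ B.nonunits
          ↔ C π ∣ p) := by
  obtain ⟨B, hB, hB'⟩ := exists_gaussB (coeffMap A.subtype) (coeffMap r) (coeffMap_surjective r hr)
    (fun f hf => by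
      have : f = 0 := by
        apply Fermat.Agent.S28.Build.coeffMap_injective A.subtype Subtype.val_injective
        rw [hf, map_zero]
      rw [this, map_zero])
  have key : ∀ p : A[X], (algebraMap (F1 K (c.tK M) (M * s) M) (Om K))
        (algebraMap (EE K (c.tK M)) (F1 K (c.tK M) (M * s) M) (aeval (tE K (c.tK M)) p))
      = coeffMap A.subtype (evAt (c.tA M) p) := fun p => coe_aeval_tE c M p
  refine ⟨B, hB, hB', fun p => ?_, fun p => ?_⟩
  · rw [key]; exact hB _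
  · rw [key, hB', red_evAt_tA c M hπ r hr]

/-- `W = y₁/y₂ ≡ 1` for the Gauss valuation (after `q ↦ x^e`). -/
theorem gauss_W (B : ValuationSubring (Om K)) {k : Type} [Field k] (r : A →+* k)
    (hB : ∀ f : LaurentSeries A, coeffMap A.subtype f ∈ B)
    (hB' : ∀ f : LaurentSeries A, coeffMap A.subtype f ∈ B.nonunits ↔ coeffMap r f = 0)
    (e : ℕ) [NeZero e] (y₁ y₂ : LaurentSeries A)
    (hred : coeffMap r y₁ = coeffMap r y₂) (hne : coeffMap r y₂ ≠ 0) :
    qExpand K e (coeffMap A.subtype y₁ / coeffMap A.subtype y₂) ∈ B ∧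
    (qExpand K e (coeffMap A.subtype y₁ / coeffMap A.subtype y₂))⁻¹ ∈ B ∧
    qExpand K e (coeffMap A.subtype y₁ / coeffMap A.subtype y₂) - 1 ∈ B.nonunits := by
  set Y₁ := qExpand A e y₁ with hY₁
  set Y₂ := qExpand A e y₂ with hY₂
  have hW : qExpand K e (coeffMap A.subtype y₁ / coeffMap A.subtype y₂)
      = coeffMap A.subtype Y₁ / coeffMap A.subtype Y₂ := by
    rw [map_div₀, ← MainAux.coeffMap_qExpand, ← MainAux.coeffMap_qExpand]
  have hr2 : coeffMap r Y₂ ≠ 0 := by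
    rw [hY₂, MainAux.coeffMap_qExpand]
    intro h0
    exact hne (qExpand_injective e (by rw [h0, map_zero]))
  have hr12 : coeffMap r Y₁ = coeffMap r Y₂ := by
    rw [hY₁, hY₂, MainAux.coeffMap_qExpand, MainAux.coeffMap_qExpand, hred]
  have hr1 : coeffMap r Y₁ ≠ 0 := by rw [hr12]; exact hr2
  -- valuations
  have hv : ∀ Y : LaurentSeries A, coeffMap r Y ≠ 0 → B.valuation (coeffMap A.subtype Y) = 1 := by
    intro Y hY
    have h1 : B.valuation (coeffMap A.subtype Y) ≤ 1 := (B.valuation_le_one_iff _).mpr (hB Y)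
    have h2 : ¬ B.valuation (coeffMap A.subtype Y) < 1 := by
      intro h
      exact hY ((hB' Y).mp ((ValuationSubring.mem_nonunits_iff B).mpr h))
    exact le_antisymm h1 (not_lt.mp h2)
  rw [hW]
  refine ⟨?_, ?_, ?_⟩
  · rw [← B.valuation_le_one_iff, map_div₀, hv Y₁ hr1, hv Y₂ hr2, div_one]
  · rw [← B.valuation_le_one_iff, map_inv₀, map_div₀, hv Y₁ hr1, hv Y₂ hr2, div_one, inv_one]
  · have hY20 : coeffMap A.subtype Y₂ ≠ 0 := by
      intro h0
      have := hv Y₂ hr2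
      rw [h0, map_zero] at this
      exact zero_ne_one this
    have h3 : coeffMap A.subtype Y₁ / coeffMap A.subtype Y₂ - 1
        = coeffMap A.subtype (Y₁ - Y₂) / coeffMap A.subtype Y₂ := by
      rw [map_sub, sub_div, div_self hY20]
    rw [h3, ValuationSubring.mem_nonunits_iff, map_div₀, hv Y₂ hr2, div_one,
      ← ValuationSubring.mem_nonunits_iff, hB', map_sub, hr12, sub_self]

theorem coreK_aux [Algebra K Qb] (hb : IsBase s P Q) (M ℓ : ℕ) [NeZero M] (hℓ : ℓ.Prime)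
    (hM : ¬ ℓ ∣ M) (hsℓ : ¬ ℓ ∣ s)
    (k : Type) [Field k] (r : A →+* k) (hr : Function.Surjective r) (hrℓ : r (ℓ : A) = 0)
    (d : ℕ) (hd : d.Prime) (hdℓ : d ≠ ℓ)
    (zM : K) (hzM : IsPrimitiveRoot zM M) (ζ : K) (hζ : IsPrimitiveRoot ζ d)
    (B0 Binf : Finset A)
    (hB0 : ∀ β ∈ B0, ∀ β' ∈ B0, r β = r β' → β = β')
    (hBinf : ∀ β ∈ Binf, ∀ β' ∈ Binf, r β = r β' → β = β')
    (hQ0 : ∀ x : Qb, aeval x Q = 0 → ∃ β ∈ B0, algebraMap K Qb β = x)
    (hQinf : (0 : A) ∈ Binf ∧ ∀ x : Qb, aeval x Q = 0 → x ≠ 0 → ∃ β ∈ Binf, algebraMap K Qb β = x⁻¹)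
    (y₁ y₂ : LaurentSeries A)
    (h₁ : coeffMap A.subtype y₁ ∈ modularFunctionFieldFullC K M)
    (h₂ : coeffMap A.subtype y₂ ∈ modularFunctionFieldFullC K M)
    (hred : coeffMap r y₁ = coeffMap r y₂) (hne : coeffMap r y₂ ≠ 0)
    (hlc : ∃ a : K, a ^ d = (coeffMap A.subtype y₁ / coeffMap A.subtype y₂).leadingCoeff)
    (W' : FF M)
    (hW' : (W' : LaurentSeries Qb)
      = coeffMap (algebraMap K Qb) (coeffMap A.subtype y₁ / coeffMap A.subtype y₂))
    (hdiv : ∀ v : Place Qb (FF M), (d : ℤ) ∣ v.ord W') :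
    ∃ u ∈ modularFunctionFieldFullC K M,
      u ^ d = coeffMap A.subtype y₁ / coeffMap A.subtype y₂ := by
  obtain ⟨π, hπ⟩ := IsDiscreteValuationRing.exists_irreducible A
  have hsA : IsUnit (s : A) := isUnit_natCast r hℓ hrℓ s hsℓ
  have hMA : IsUnit (M : A) := isUnit_natCast r hℓ hrℓ M hM
  have hdA : IsUnit (d : A) := isUnit_natCast r hℓ hrℓ d
    (fun h => hdℓ ((Nat.prime_dvd_prime_iff_eq hℓ hd).mp h).symm)
  obtain ⟨Z, hZ, hrel⟩ := hb.formal A hsA
  let c : Coord A s P Q := ⟨Z, hZ, hrel⟩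
  set W : LaurentSeries K := coeffMap A.subtype y₁ / coeffMap A.subtype y₂ with hWdef
  have hWmem : W ∈ modularFunctionFieldFullC K M := div_mem h₁ h₂
  have hy₂ : coeffMap A.subtype y₂ ≠ 0 := by
    intro h
    apply hne
    have : y₂ = 0 := by
      apply Fermat.Agent.S28.Build.coeffMap_injective A.subtype Subtype.val_injective
      rw [h, map_zero]
    rw [this, map_zero]
  have hy₁ : coeffMap A.subtype y₁ ≠ 0 := by
    intro h
    apply hne
    have : y₁ = 0 := by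
      apply Fermat.Agent.S28.Build.coeffMap_injective A.subtype Subtype.val_injective
      rw [h, map_zero]
    rw [← hred, this, map_zero]
  have hW0 : W ≠ 0 := div_ne_zero hy₁ hy₂
  -- the tower
  have hx := transcendental_tE c M
  have hgen := hgen_tE (A := A) (c.tK M)
  have := finiteDimensional_F1 c M hb.monic
  have hdvd : ∀ a b : A, π ∣ a - b → r a = r b := by
    intro a b h
    have := (map_eq_zero_iff_dvd hπ r hr (a - b)).mpr h
    rwa [map_sub, sub_eq_zero] at this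
  have hB0' : ∀ β ∈ B0, ∀ β' ∈ B0, π ∣ β - β' → β = β' :=
    fun β h β' h' hd => hB0 β h β' h' (hdvd _ _ hd)
  have hBinf' : ∀ β ∈ Binf, ∀ β' ∈ Binf, π ∣ β - β' → β = β' :=
    fun β h β' h' hd => hBinf β h β' h' (hdvd _ _ hd)
  -- (H1), (H2), (H0) for `F`
  have H1 := tracePerfectx_F1 hb c M hπ r hr (iotaC.comp (algebraMap K Qb)) hMA zM hzM
  have hPF := fun (c₁ : Qb) (hc₁ : aeval c₁ Q ≠ 0) => pointFam_F1 hb c M c₁ hc₁ d W hWmem W' hW' hdiv
  obtain ⟨H2F, H2F'⟩ := unramx_both (Q := Q) hx (L := F1 K (c.tK M) (M * s) M) hπ B0 Binf hQ0 hQinf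
    (fun c₁ hc₁ => (hPF c₁ hc₁).mono (fun _ _ => trivial))
  have hconn := theoremG π hπ (tE K (c.tK M)) hx hgen (H0_F1 (A := A) (c.tK M) (M * s) M) H1
    B0 Binf hB0' hBinf' H2F H2F'
  -- the Gauss valuation
  obtain ⟨B, hBmem, hBnon, hBE, hBE'⟩ := exists_gauss_F1 c M hπ r hr
  obtain ⟨hWB, hWB', hWB1⟩ := gauss_W B r hBmem hBnon (M * s) y₁ y₂ hred hne
  let WF : F1 K (c.tK M) (M * s) M := ⟨qExpand K (M * s) W, qExpand_mem_F1 c M hWmem⟩
  have hWF0 : WF ≠ 0 := by
    intro h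
    have h' : qExpand K (M * s) W = 0 := congrArg Subtype.val h
    exact hW0 (qExpand_injective (M * s) (by rw [h', map_zero]))
  have hOW : IsOLx π (tE K (c.tK M)) WF :=
    isOLx_of_mem hπ hx hgen H1 hconn B (algebraMap _ (Om K)) hBE hBE' hWB
  have hOW' : IsOLx π (tE K (c.tK M)) WF⁻¹ :=
    isOLx_of_mem hπ hx hgen H1 hconn B (algebraMap _ (Om K)) hBE hBE' (by rw [map_inv₀]; exact hWB')
  have hOW1 : IsPiOLx π (tE K (c.tK M)) (WF - 1) :=
    isPiOLx_of_mem_nonunits hπ hx hgen H1 hconn B (algebraMap _ (Om K)) hBE hBE'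
      (by rw [map_sub, map_one]; exact hWB1)
  -- the root
  obtain ⟨w₁, hw₁⟩ := exists_root_W M d hd.pos W hW0 hlc W' hW' hdiv
  have hζ' : IsPrimitiveRoot (algebraMap K (Om K) ζ) d := hζ.map_of_injective (algebraMap K (Om K)).injective
  obtain ⟨i, hi⟩ := exists_pow_mul_sub_one_mem B d hd.pos _ hζ' (qExpand K (M * s) w₁)
    (by rw [← map_pow, hw₁]; exact hWB1)
  set w₀ : LaurentSeries K := algebraMap K (Om K) ζ ^ i * w₁ with hw₀def
  have hw₀ : w₀ ^ d = W := by
    rw [hw₀def, mul_pow, hw₁, ← pow_mul, mul_comm i d, pow_mul, hζ'.pow_eq_one, one_pow, one_mul]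
  have hVw₀ : qExpand K (M * s) w₀ = algebraMap K (Om K) ζ ^ i * qExpand K (M * s) w₁ := by
    rw [hw₀def, map_mul, map_pow, MainAux.qExpand_algebraMap]
  refine ⟨w₀, ?_, hw₀⟩
  by_cases hwF : qExpand K (M * s) w₀ ∈ F1 K (c.tK M) (M * s) M
  · -- descent
    refine descent hb c M hπ r hr hsA d hd hdA ζ hζ w₀ (by rw [hw₀]; exact hWmem) hwF ?_
    refine isPiOLx_of_mem_nonunits hπ hx hgen H1 hconn B (algebraMap _ (Om K)) hBE hBE' ?_
    rw [map_sub, map_one]
    show qExpand K (M * s) w₀ - 1 ∈ B.nonunits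
    rw [hVw₀]
    exact hi
  · -- Kummer extension: contradiction with `GK`
    exfalso
    have hwW : (qExpand K (M * s) w₀) ^ d = (WF : Om K) := by
      rw [← map_pow, hw₀]
    obtain ⟨hdeg, hli⟩ := kummer_degree (c.tK M) (M * s) M (qExpand K (M * s) w₀) d hd ζ hζ WF hwW hwF
    have := finiteDimensional_L1 (c.tK M) (M * s) M (qExpand K (M * s) w₀) hd.pos hdeg
    have hwL : (⟨qExpand K (M * s) w₀, IntermediateField.mem_adjoin_simple_self _ _⟩ :
        L1 K (c.tK M) (M * s) M (qExpand K (M * s) w₀)) ^ d = algebraMap _ _ WF := by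
      apply Subtype.ext
      exact hwW
    obtain ⟨H2L, H2L'⟩ := unramx_both (Q := Q) hx
      (L := L1 K (c.tK M) (M * s) M (qExpand K (M * s) w₀)) hπ B0 Binf hQ0 hQinf
      (fun c₁ hc₁ => (hPF c₁ hc₁).kummer d hd.pos _ WF hWF0 hwL hdeg hli)
    have hdπ : ¬ π ∣ (d : A) := fun h => hπ.not_isUnit (isUnit_of_dvd_unit h hdA)
    exact GK π hπ (tE K (c.tK M)) hx hgen H1 d hd.two_le hdπ WF hOW hOW' hOW1 _ hwL hdeg hli
      (H0_L1 (A := A) (c.tK M) (M * s) M _) B0 Binf hB0' hBinf' H2L H2L'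

/-- branch sets for the Legendre coordinate. -/
theorem branch_lam [Algebra K Qb] {k : Type} [Field k] (r : A →+* k) :
    ∃ B0 Binf : Finset A,
      (∀ β ∈ B0, ∀ β' ∈ B0, r β = r β' → β = β') ∧
      (∀ β ∈ Binf, ∀ β' ∈ Binf, r β = r β' → β = β') ∧
      (∀ x : Qb, aeval x lamQ = 0 → ∃ β ∈ B0, algebraMap K Qb β = x) ∧
      ((0 : A) ∈ Binf ∧ ∀ x : Qb, aeval x lamQ = 0 → x ≠ 0 → ∃ β ∈ Binf, algebraMap K Qb β = x⁻¹) := by
  classical
  have hdist : ∀ β ∈ ({0, 1} : Finset A), ∀ β' ∈ ({0, 1} : Finset A), r β = r β' → β = β' := by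
    simp only [Finset.mem_insert, Finset.mem_singleton]
    rintro β (rfl | rfl) β' (rfl | rfl) h
    · rfl
    · rw [map_zero, map_one] at h; exact absurd h zero_ne_one
    · rw [map_zero, map_one] at h; exact absurd h.symm zero_ne_one
    · rfl
  have hroot : ∀ x : Qb, aeval x lamQ = 0 → x = 0 ∨ x = 1 := by
    intro x hx
    rw [lam_aevalQ] at hx
    rcases mul_eq_zero.mp hx with h | h
    · exact Or.inl (pow_eq_zero_iff two_ne_zero |>.mp h)
    · exact Or.inr (sub_eq_zero.mp (pow_eq_zero_iff two_ne_zero |>.mp h))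
  refine ⟨{0, 1}, {0, 1}, hdist, hdist, fun x hx => ?_, by simp, fun x hx hx0 => ?_⟩
  · rcases hroot x hx with rfl | rfl
    · exact ⟨0, by simp, by simp⟩
    · exact ⟨1, by simp, by simp⟩
  · rcases hroot x hx with rfl | rfl
    · exact absurd rfl hx0
    · exact ⟨1, by simp, by simp⟩

/-- branch sets for the Hesse coordinate (`ℓ = 2`, `K ∋ ω`). -/
theorem branch_hes [Algebra K Qb] {k : Type} [Field k] (r : A →+* k) (hr2 : r (2 : A) = 0)
    (ω : K) (hω : IsPrimitiveRoot ω 3) :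
    ∃ B0 Binf : Finset A,
      (∀ β ∈ B0, ∀ β' ∈ B0, r β = r β' → β = β') ∧
      (∀ β ∈ Binf, ∀ β' ∈ Binf, r β = r β' → β = β') ∧
      (∀ x : Qb, aeval x hesQ = 0 → ∃ β ∈ B0, algebraMap K Qb β = x) ∧
      ((0 : A) ∈ Binf ∧ ∀ x : Qb, aeval x hesQ = 0 → x ≠ 0 → ∃ β ∈ Binf, algebraMap K Qb β = x⁻¹) := by
  classical
  have hω3 : ω ^ 3 = 1 := hω.pow_eq_one
  have hωA : ω ∈ A := by
    rw [← A.valuation_le_one_iff]
    have : A.valuation ω ^ 3 = 1 := by rw [← map_pow, hω3, map_one]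
    exact ((pow_eq_one_iff.mp this).resolve_right (by norm_num)).le
  set w : A := ⟨ω, hωA⟩ with hw
  have hw3 : w ^ 3 = 1 := Subtype.ext hω3
  have hω1 : ω ≠ 1 := hω.ne_one (by norm_num)
  have hsum : w ^ 2 + w + 1 = 0 := by
    apply Subtype.ext
    have h1 : (ω - 1) * (ω ^ 2 + ω + 1) = 0 := by ring_nf; rw [hω3]; ring
    exact (mul_eq_zero.mp h1).resolve_left (sub_ne_zero.mpr hω1)
  set z : k := r w with hz
  have hz3 : z ^ 3 = 1 := by rw [hz, ← map_pow, hw3, map_one]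
  have hzsum : z ^ 2 + z + 1 = 0 := by
    have := congrArg r hsum
    simpa using this
  have h2k : (2 : k) = 0 := by rw [← hr2, map_ofNat]
  have hz1 : z ≠ 1 := by
    intro h
    rw [h] at hzsum
    have : (1 : k) = 0 := by linear_combination hzsum - h2k
    exact one_ne_zero this
  have hz0 : z ≠ 0 := by
    intro h
    rw [h] at hz3
    simp at hz3
  have hz21 : z ^ 2 ≠ 1 := by
    intro h
    apply hz1
    have : z ^ 3 = z := by rw [pow_succ, h, one_mul]
    rw [← this, hz3]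
  have hz2z : z ^ 2 ≠ z := by
    intro h
    apply hz1
    have : z * (z - 1) = 0 := by linear_combination h
    exact sub_eq_zero.mp ((mul_eq_zero.mp this).resolve_left hz0)
  have hz20 : z ^ 2 ≠ 0 := pow_ne_zero 2 hz0
  have hdist : ∀ β ∈ ({0, 1, w, w ^ 2} : Finset A), ∀ β' ∈ ({0, 1, w, w ^ 2} : Finset A),
      r β = r β' → β = β' := by
    simp only [Finset.mem_insert, Finset.mem_singleton]
    rintro β (rfl | rfl | rfl | rfl) β' (rfl | rfl | rfl | rfl) h <;>
      first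
      | rfl
      | (exfalso
         simp only [map_zero, map_one, map_pow, ← hz] at h
         first
         | exact zero_ne_one h
         | exact zero_ne_one h.symm
         | exact hz0 h
         | exact hz0 h.symm
         | exact hz20 h
         | exact hz20 h.symm
         | exact hz1 h
         | exact hz1 h.symm
         | exact hz21 h
         | exact hz21 h.symm
         | exact hz2z h
         | exact hz2z h.symm)
  have hsub : ({1, w, w ^ 2} : Finset A) ⊆ {0, 1, w, w ^ 2} := Finset.subset_insert _ _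
  have hω' : IsPrimitiveRoot (algebraMap K Qb ω) 3 :=
    hω.map_of_injective (algebraMap K Qb).injective
  have hcube : ∀ x : Qb, x ^ 3 = 1 → ∃ β ∈ ({1, w, w ^ 2} : Finset A), algebraMap K Qb β = x := by
    intro x hx
    obtain ⟨i, hi, rfl⟩ := hω'.eq_pow_of_pow_eq_one hx
    interval_cases i
    · exact ⟨1, by simp, by simp⟩
    · exact ⟨w, by simp, by simp [hw]⟩
    · exact ⟨w ^ 2, by simp, by simp [hw]⟩
  have hroot : ∀ x : Qb, aeval x hesQ = 0 → x ^ 3 = 1 := by
    intro x hx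
    have : aeval x hesQ = (x ^ 3 - 1) ^ 3 := by simp [hesQ]
    rw [this] at hx
    exact sub_eq_zero.mp (pow_eq_zero_iff three_ne_zero |>.mp hx)
  refine ⟨{1, w, w ^ 2}, {0, 1, w, w ^ 2},
    fun β hβ β' hβ' => hdist β (hsub hβ) β' (hsub hβ'), hdist,
    fun x hx => hcube x (hroot x hx), by simp, fun x hx hx0 => ?_⟩
  obtain ⟨β, hβ, h⟩ := hcube x⁻¹ (by rw [inv_pow, hroot x hx, inv_one])
  exact ⟨β, hsub hβ, h⟩

/-- **CRUX over `(K, A)`**, all `ℓ ∤ M` (no admissibility condition). -/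
theorem coreK (M ℓ : ℕ) [NeZero M] (hℓ : ℓ.Prime) (hM : ¬ ℓ ∣ M)
    (K : Type) [Field K] [Algebra K Qb] (A : ValuationSubring K) [IsDiscreteValuationRing A]
    (k : Type) [Field k] (r : A →+* k) (hr : Function.Surjective r) (hrℓ : r (ℓ : A) = 0)
    (d : ℕ) (hd : d.Prime) (hdℓ : d ≠ ℓ)
    (hzM : ∃ z : K, IsPrimitiveRoot z M) (hzd : ∃ z : K, IsPrimitiveRoot z d)
    (hz3 : ∃ z : K, IsPrimitiveRoot z 3)
    (y₁ y₂ : LaurentSeries A)
    (h₁ : coeffMap A.subtype y₁ ∈ modularFunctionFieldFullC K M)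
    (h₂ : coeffMap A.subtype y₂ ∈ modularFunctionFieldFullC K M)
    (hred : coeffMap r y₁ = coeffMap r y₂) (hne : coeffMap r y₂ ≠ 0)
    (hlc : ∃ a : K, a ^ d = (coeffMap A.subtype y₁ / coeffMap A.subtype y₂).leadingCoeff)
    (W' : FF M)
    (hW' : (W' : LaurentSeries Qb)
      = coeffMap (algebraMap K Qb) (coeffMap A.subtype y₁ / coeffMap A.subtype y₂))
    (hdiv : ∀ v : Place Qb (FF M), (d : ℤ) ∣ v.ord W') :
    ∃ u ∈ modularFunctionFieldFullC K M,
      u ^ d = coeffMap A.subtype y₁ / coeffMap A.subtype y₂ := by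
  have : CharZero K :=
    ((algebraMap K Qb).charZero_iff (algebraMap K Qb).injective).mpr inferInstance
  obtain ⟨zM, hzM⟩ := hzM
  obtain ⟨ζ, hζ⟩ := hzd
  obtain ⟨ω, hω⟩ := hz3
  by_cases h2 : ℓ = 2
  · subst h2
    obtain ⟨B0, Binf, hB0, hBinf, hQ0, hQinf⟩ := branch_hes (A := A) r (by exact_mod_cast hrℓ) ω hω
    exact coreK_aux isBase_hes M 2 hℓ hM (by norm_num) k r hr hrℓ d hd hdℓ zM hzM ζ hζ B0 Binf
      hB0 hBinf hQ0 hQinf y₁ y₂ h₁ h₂ hred hne hlc W' hW' hdiv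
  · obtain ⟨B0, Binf, hB0, hBinf, hQ0, hQinf⟩ := branch_lam (A := A) r
    have h2' : ¬ ℓ ∣ 2 := fun h => h2 ((Nat.prime_dvd_prime_iff_eq hℓ Nat.prime_two).mp h)
    exact coreK_aux isBase_lam M ℓ hℓ hM h2' k r hr hrℓ d hd hdℓ zM hzM ζ hζ B0 Binf
      hB0 hBinf hQ0 hQinf y₁ y₂ h₁ h₂ hred hne hlc W' hW' hdiv

end

end Fermat.Agent.Crux.GT
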