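import Fermat.Agent.Crux.GT.Formal

/-!
# Crux / GT : local lifting of the base coordinate at a point `c`

`κ` algebraically closed of characteristic `0`; `P, Q ∈ κ[T]`, `c₀ = P(c)/Q(c)`,
`P - c₀ Q = (T - c)^e H`, `H(c) ≠ 0`, `Q(c) ≠ 0`; `v ∈ κ⟦w⟧` of order exactly `e`.
Then there is `T ∈ κ⟦w⟧` with `T(0) = c`, `ord (T - c) = 1` and `P(T) = (c₀ + v) Q(T)`.

Proof.  `v = w^e v₁`, `v₁(0) ≠ 0`.  Put `T = c + w Z`:  `P(T) - (c₀+v) Q(T) =
w^e (Z^e H(c + wZ) - v₁ Q(c + wZ))`.  `G(Z) := Z^e H(c+wZ) - v₁ Q(c+wZ) ∈ κ⟦w⟧[Z]` has reduction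
`H(c) Z^e - v₁(0) Q(c)` mod `w`, with a simple nonzero root `Z₀` (`κ` alg. closed, char `0`).
`G` is not monic; we use the version `exists_root` of Hensel's lemma without monicity.
-/

set_option autoImplicit false

open Polynomial

namespace Fermat.Agent.Crux.GT

theorem exists_local_root {κ : Type*} [Field κ] [IsAlgClosed κ] [CharZero κ] (P Q H : κ[X])
    (c c₀ : κ) (e : ℕ) (he : 0 < e) (hH : P - C c₀ * Q = (X - C c) ^ e * H)
    (hHc : H.eval c ≠ 0) (hQc : Q.eval c ≠ 0) (v : PowerSeries κ) (hv : v.order = e) :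
    ∃ T : PowerSeries κ, PowerSeries.constantCoeff T = c ∧
      (T - PowerSeries.C c).order = 1 ∧
      aeval T P = (PowerSeries.C c₀ + v) * aeval T Q := by
  -- `v = w^e v₁`
  obtain ⟨hve, hvlt⟩ := PowerSeries.order_eq_nat.1 hv
  obtain ⟨v₁, hv₁⟩ : (PowerSeries.X : PowerSeries κ) ^ e ∣ v := PowerSeries.X_pow_dvd_iff.2 hvlt
  have hv₁0 : PowerSeries.constantCoeff v₁ ≠ 0 := by
    have h := PowerSeries.coeff_X_pow_mul v₁ e 0
    rw [zero_add, ← hv₁] at h
    rw [h] at hve
    simpa using hve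
  -- the substitution `T = c + w Z`
  let L : (PowerSeries κ)[X] := C (PowerSeries.C c) + C PowerSeries.X * X
  let sub : κ[X] → (PowerSeries κ)[X] := fun F => (F.map (PowerSeries.C (R := κ))).comp L
  have hsub_map : ∀ F : κ[X], (sub F).map (PowerSeries.constantCoeff (R := κ)) = C (F.eval c) := by
    intro F
    have hL : L.map (PowerSeries.constantCoeff (R := κ)) = C c := by
      simp [L]
    have hF : (F.map (PowerSeries.C (R := κ))).map (PowerSeries.constantCoeff (R := κ)) = F := by
      rw [Polynomial.map_map]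
      have : (PowerSeries.constantCoeff (R := κ)).comp (PowerSeries.C (R := κ)) = RingHom.id κ := by
        ext x; simp
      rw [this, Polynomial.map_id]
    simp only [sub]
    rw [Polynomial.map_comp, hL, hF, Polynomial.comp_C]
  have hsub_eval : ∀ (F : κ[X]) (Z : PowerSeries κ),
      (sub F).eval Z = aeval (PowerSeries.C c + PowerSeries.X * Z) F := by
    intro F Z
    simp only [sub]
    rw [Polynomial.eval_comp, Polynomial.aeval_def, Polynomial.eval₂_eq_eval_map]
    simp only [L, eval_add, eval_C, eval_mul, eval_X]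
    rfl
  let G : (PowerSeries κ)[X] := X ^ e * sub H - C v₁ * sub Q
  have hGmap : G.map (PowerSeries.constantCoeff (R := κ)) =
      X ^ e * C (H.eval c) - C (PowerSeries.constantCoeff v₁ * Q.eval c) := by
    simp only [G, Polynomial.map_sub, Polynomial.map_mul, Polynomial.map_pow, Polynomial.map_X,
      Polynomial.map_C, hsub_map, C_mul]
  obtain ⟨Z₀, hZ₀⟩ := IsAlgClosed.exists_pow_nat_eq
    (PowerSeries.constantCoeff v₁ * Q.eval c / H.eval c) he
  have hZ₀0 : Z₀ ≠ 0 := by
    rintro rfl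
    rw [zero_pow he.ne'] at hZ₀
    exact (div_ne_zero (mul_ne_zero hv₁0 hQc) hHc) hZ₀.symm
  obtain ⟨Z, hZ, hZ0⟩ := exists_root G Z₀
    (by
      rw [hGmap]
      simp only [eval_sub, eval_mul, eval_pow, eval_X, eval_C]
      rw [hZ₀, div_mul_cancel₀ _ hHc, sub_self])
    (by
      rw [hGmap]
      simp only [derivative_sub, derivative_mul, derivative_X_pow, derivative_C, mul_zero,
        add_zero, sub_zero, eval_mul, eval_pow, eval_X, eval_C]
      rw [isUnit_iff_ne_zero]
      exact mul_ne_zero (mul_ne_zero (Nat.cast_ne_zero.2 he.ne') (pow_ne_zero _ hZ₀0)) hHc)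
  refine ⟨PowerSeries.C c + PowerSeries.X * Z, by simp, ?_, ?_⟩
  · rw [add_sub_cancel_left, PowerSeries.order_mul, PowerSeries.order_X]
    have : Z.order = 0 := by
      rw [PowerSeries.order_zero_of_unit]
      rw [PowerSeries.isUnit_iff_constantCoeff, hZ0, isUnit_iff_ne_zero]
      exact hZ₀0
    rw [this, add_zero]
  · set T := PowerSeries.C c + PowerSeries.X * Z with hT
    have h1 : aeval T P - PowerSeries.C c₀ * aeval T Q = (PowerSeries.X * Z) ^ e * aeval T H := by
      have := congrArg (aeval T) hH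
      simp only [map_sub, map_mul, map_pow, aeval_X, aeval_C] at this
      rw [show algebraMap κ (PowerSeries κ) c₀ = PowerSeries.C c₀ from rfl,
        show algebraMap κ (PowerSeries κ) c = PowerSeries.C c from rfl] at this
      rw [this, hT, add_sub_cancel_left]
    have h2 : Z ^ e * aeval T H = v₁ * aeval T Q := by
      simp only [G, eval_sub, eval_mul, eval_pow, eval_X, eval_C, hsub_eval] at hZ
      exact sub_eq_zero.1 hZ
    have h3 : aeval T P = PowerSeries.C c₀ * aeval T Q + (PowerSeries.X * Z) ^ e * aeval T H := by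
      rw [← h1]; ring
    rw [h3, mul_pow, mul_assoc, h2, hv₁]
    ring

end Fermat.Agent.Crux.GT
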