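import Fermat.Agent.Crux.GT.Rho
import Fermat.Agent.Crux.GT.Extend
import Fermat.Agent.Crux.GT.Root
import Fermat.Agent.Crux.GT.LinDisj
import Fermat.Agent.Crux.GT.PF.Pack
import Fermat.Agent.Crux.GT.PF.Iota
import Fermat.Agent.Crux.GT.PF.Deg
import Fermat.Agent.Crux.GT.PF.Maps
import Fermat.Agent.Crux.GM.Place

/-!
# Crux / GT : the point families of `F` (input of (H2)), from the S24 packages

Fix `c₁ ∈ ℚ̄`, `Q(c₁) ≠ 0`, `c₀ = P(c₁)/Q(c₁)`.  `F₀ = modularFunctionFieldFullC K M`, `jK = J ∈ F₀`, `Kj = K(jK)`.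
1. S24 `package_generic / package_I / package_rho` at `c₀`: `σ_a : FF M →ₐ[ℚ̄] ℂ((w))`, `a ∈ XN M`, distinct, equal on `j`,
   `ord (σ j - c₀) = e₀ ∈ {1,2,3}`; `#XN M = [FF M : ℚ̄(j)]` (`S24.finrank_FN`).
2. `β : F₀ → FF M` induced by `coeffMap (algebraMap K ℚ̄)`.  `σ_a ∘ β` are distinct (`S24.algHom_ext_FN`), so
   `#XN M ≤ [F₀ : Kj]`; `[F₀ : Kj] ≤ [FF M : ℚ̄(j)]` by `LinDisj.independent_over_adjoin` (a `Kj`-basis of `F₀` stays
   independent over `ℚ̄(j)`).  So `#XN M = [F₀ : Kj]`.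
3. `hb.mult ℂ (iotaC c₁)` gives `e = e₀`, `H`; `Root.exists_local_root` gives `T ∈ ℂ⟦w⟧`, `T(0) = c₁`, `ord (T - c₁) = 1`,
   `P(T) = σ(j) Q(T)`.  `ι : E = K(t) → ℂ((w))`, `t ↦ T` (both transcendental over `K`).
4. `Extend.extend` with `φ = V_e : F₀ → F`, `ψ = V_e : Kj → E` (`j(x^e) = P(t)/Q(t)`, `Basic.rel_tK`).
5. `d ∣ ord τ_i(V_e W) = ord σ_a(W')`: `ord ∘ σ_a = c · v.ord` for a place `v` (`S24.FF.exists_place_of_ordFun`, as in
   `S24/Counting.lean` l. 325), or all orders vanish.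
-/

set_option autoImplicit false

open Polynomial ModularCurve AlgebraicCurve
open scoped IntermediateField

namespace Fermat.Agent.Crux.GT

noncomputable section

open Fermat.Agent.S28 (jd evAt)
open Fermat.Agent.Crux.G
open Fermat.Agent.ES (Qb FF)
open Fermat.Agent.S24 (iotaC)

variable {K : Type} [Field K] [CharZero K] {A : ValuationSubring K} [IsDiscreteValuationRing A]
variable {s : ℕ} [NeZero s] {P Q : ℤ[X]}

namespace PF

/-- integer polynomials commute with ring homomorphisms. -/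
theorem map_aeval_int {R S : Type*} [CommRing R] [CommRing S] [Algebra ℤ R] [Algebra ℤ S]
    (f : R →+* S) (x : R) (p : ℤ[X]) :
    f (aeval x p) = aeval (f x) p := by
  rw [aeval_def, aeval_def, hom_eval₂]
  congr 1
  exact RingHom.ext_int _ _

theorem aeval_map_int {R S : Type*} [CommRing R] [CommRing S] [Algebra R S] [Algebra ℤ S]
    (x : S) (p : ℤ[X]) :
    aeval x (p.map (Int.castRingHom R)) = aeval x p := by
  rw [aeval_def, aeval_def, eval₂_map]
  congr 1
  exact RingHom.ext_int _ _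

/-- step 3: the local coordinate `T`. -/
theorem exists_T (hb : IsBase s P Q) (c₁ : Qb) (hc₁ : aeval c₁ Q ≠ 0) (e₀ : ℕ)
    (v : PowerSeries ℂ) (hv : v.order = e₀)
    (h0 : aeval c₁ P / aeval c₁ Q = 0 → e₀ = 3) (h1 : aeval c₁ P / aeval c₁ Q = 1728 → e₀ = 2)
    (h2 : aeval c₁ P / aeval c₁ Q ≠ 0 → aeval c₁ P / aeval c₁ Q ≠ 1728 → e₀ = 1) :
    ∃ T : PowerSeries ℂ, PowerSeries.constantCoeff T = iotaC c₁ ∧
      (T - PowerSeries.C (iotaC c₁)).order = 1 ∧
      aeval T P = (PowerSeries.C (iotaC (aeval c₁ P / aeval c₁ Q)) + v) * aeval T Q := by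
  have hP' : aeval (iotaC c₁) P = iotaC (aeval c₁ P) := (map_aeval_int iotaC c₁ P).symm
  have hQ' : aeval (iotaC c₁) Q = iotaC (aeval c₁ Q) := (map_aeval_int iotaC c₁ Q).symm
  have hQne : aeval (iotaC c₁) Q ≠ 0 := by rw [hQ']; exact (map_ne_zero iotaC).2 hc₁
  obtain ⟨e, H, hH, hHc, he3, he2, he1⟩ := hb.mult ℂ (iotaC c₁) hQne
  have hee : e = e₀ := by
    by_cases hA : aeval c₁ P = 0
    · rw [he3 (by rw [hP', hA, map_zero]), h0 (by rw [hA, zero_div])]
    by_cases hB : aeval c₁ P = 1728 * aeval c₁ Q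
    · rw [he2 (by rw [hP', hQ', hB, map_mul, map_ofNat]), h1 (by rw [hB, mul_div_cancel_right₀ _ hc₁])]
    · rw [he1 (by rw [hP']; exact (map_ne_zero iotaC).2 hA) (by
          rw [hP', hQ', ← map_ofNat iotaC 1728, ← map_mul]
          exact fun h => hB (iotaC.injective h)),
        h2 (div_ne_zero hA hc₁) (by
          intro h
          exact hB ((div_eq_iff hc₁).1 h))]
  have he : 0 < e := by
    rw [hee]
    by_cases hA : aeval c₁ P / aeval c₁ Q = 0
    · rw [h0 hA]; norm_num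
    by_cases hB : aeval c₁ P / aeval c₁ Q = 1728
    · rw [h1 hB]; norm_num
    · rw [h2 hA hB]; norm_num
  obtain ⟨T, hT0, hT1, hT⟩ := exists_local_root (P.map (Int.castRingHom ℂ))
    (Q.map (Int.castRingHom ℂ)) H (iotaC c₁) (aeval (iotaC c₁) P / aeval (iotaC c₁) Q) e he hH hHc
    (by
      have : (Q.map (Int.castRingHom ℂ)).eval (iotaC c₁) = aeval (iotaC c₁) Q := by
        rw [← aeval_map_int (R := ℂ), coe_aeval_eq_eval]
      rw [this]; exact hQne) v (by rw [hv, hee])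
  refine ⟨T, hT0, hT1, ?_⟩
  rw [aeval_map_int, aeval_map_int, hP', hQ', ← map_div₀] at hT
  exact hT

end PF

/-! ### (H2) -/

theorem pointFam_F1 [Algebra K Qb] (hb : IsBase s P Q) (c : Coord A s P Q) (M : ℕ) [NeZero M]
    (c₁ : Qb) (hc₁ : aeval c₁ Q ≠ 0) (d : ℕ)
    (W : LaurentSeries K) (hW : W ∈ modularFunctionFieldFullC K M)
    (W' : FF M) (hW' : (W' : LaurentSeries Qb) = coeffMap (algebraMap K Qb) W)
    (hdiv : ∀ v : Place Qb (FF M), (d : ℤ) ∣ v.ord W') :
    PointFam (F1 K (c.tK M) (M * s) M) (rhoA A) (tE K (c.tK M)) (iotaC c₁)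
      (fun τ => (d : ℤ) ∣ (τ ⟨qExpand K (M * s) W, qExpand_mem_F1 c M hW⟩).order) := by
  classical
  obtain ⟨e₀, σ, v, hσinj, hσj, hv, h0, h1, h2⟩ := PF.package_at M (aeval c₁ P / aeval c₁ Q)
  obtain ⟨T, hT0, hT1, hTrel⟩ := PF.exists_T hb c₁ hc₁ e₀ v hv h0 h1 h2
  set ρ : K →+* LaurentSeries ℂ :=
    (HahnSeries.C : ℂ →+* LaurentSeries ℂ).comp (iotaC.comp (algebraMap K Qb)) with hρ
  obtain ⟨ι, hιK, hιt⟩ := PF.exists_iota (c.tK M) (PF.transcendental_tK c M hb) ρ
    (HahnSeries.ofPowerSeries ℤ ℂ T)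
    (fun p hp => PF.eval₂_ne_zero_of_order (iotaC.comp (algebraMap K Qb)) T _ hT1 p hp)
  obtain ⟨hfd, hrank⟩ := PF.finrank_F0 K M
  have hfdF := finiteDimensional_F1 c M hb.monic
  have hfin : Finite (S24.XN M) := Subgroup.finite_quotient_of_finiteIndex
  have : Fintype (S24.XN M) := Fintype.ofFinite _
  set Tl : LaurentSeries ℂ := HahnSeries.ofPowerSeries ℤ ℂ T with hTl
  -- the relation `P(T) = σ(j) Q(T)`
  have hrelL : ∀ a, aeval Tl P = σ a (S24.jN M) * aeval Tl Q := by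
    intro a
    rw [hσj a, hTl, ← PF.map_aeval_int (HahnSeries.ofPowerSeries ℤ ℂ) T P, hTrel, map_mul,
      PF.map_aeval_int]
  have hQT : aeval Tl Q ≠ 0 := by
    rw [hTl, ← PF.map_aeval_int (HahnSeries.ofPowerSeries ℤ ℂ) T Q]
    intro h
    have h3 : aeval T Q = 0 := HahnSeries.ofPowerSeries_injective (by rw [h, map_zero])
    have h4 := congrArg (PowerSeries.constantCoeff (R := ℂ)) h3
    rw [PF.map_aeval_int, hT0, ← PF.map_aeval_int iotaC, map_zero] at h4
    exact hc₁ ((map_eq_zero iotaC).1 h4)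
  -- the embeddings of `F₀`
  let σ' : S24.XN M → (modularFunctionFieldFullC K M →+* LaurentSeries ℂ) :=
    fun a => (σ a : S24.FN M →+* LaurentSeries ℂ).comp (PF.beta K M)
  have hσ'inj : Function.Injective σ' := by
    intro a b hab
    apply hσinj
    apply PF.algHom_eq_of_beta K M
    intro f
    exact congrArg (fun g : modularFunctionFieldFullC K M →+* LaurentSeries ℂ => g f) hab
  -- compatibility on `K(j)`
  have hcoe : ∀ p : ℤ[X], ((aeval (tE K (c.tK M)) p : EE K (c.tK M)) : Om K) = aeval (c.tK M) p :=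
    fun p => PF.map_aeval_int ((EE K (c.tK M)).val : EE K (c.tK M) →+* Om K) (tE K (c.tK M)) p
  have hι : ∀ a (x : K⟮PF.jK K M⟯),
      σ' a (algebraMap K⟮PF.jK K M⟯ (modularFunctionFieldFullC K M) x)
        = ι (PF.psi c M hb.monic x) := by
    intro a x
    have key : (σ' a).comp (algebraMap K⟮PF.jK K M⟯ (modularFunctionFieldFullC K M))
        = ι.comp (PF.psi c M hb.monic) := by
      apply PF.ringHom_ext_adjoin_simple
      · intro k
        simp only [RingHom.comp_apply]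
        rw [← IsScalarTower.algebraMap_apply K K⟮PF.jK K M⟯ (modularFunctionFieldFullC K M),
          PF.psi_algebraMap, hιK]
        show σ a (PF.beta K M (algebraMap K _ k)) = _
        rw [PF.beta_algebraMap, AlgHom.commutes, S24.Packages.algebraMap_Kb]
        rfl
      · simp only [RingHom.comp_apply]
        have h1 : algebraMap K⟮PF.jK K M⟯ (modularFunctionFieldFullC K M)
            (IntermediateField.AdjoinSimple.gen K (PF.jK K M)) = PF.jK K M := rfl
        rw [h1]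
        show σ a (PF.beta K M (PF.jK K M)) = _
        rw [PF.beta_jK]
        have h2 : aeval (tE K (c.tK M)) P
            = PF.psi c M hb.monic (IntermediateField.AdjoinSimple.gen K (PF.jK K M))
              * aeval (tE K (c.tK M)) Q := by
          apply Subtype.ext
          rw [IntermediateField.coe_mul, hcoe, hcoe, PF.psi_gen, rel_tK]
        have h3 := congrArg ι h2
        rw [map_mul, PF.map_aeval_int, PF.map_aeval_int,
          show ι (tE K (c.tK M)) = Tl from hιt, hrelL a] at h3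
        exact mul_right_cancel₀ hQT h3
    exact congrArg (fun g : K⟮PF.jK K M⟯ →+* LaurentSeries ℂ => g x) key
  have : CharZero K⟮PF.jK K M⟯ :=
    charZero_of_injective_algebraMap (algebraMap K K⟮PF.jK K M⟯).injective
  obtain ⟨τ, hτinj, hτι, hτσ⟩ := extend (PF.phi c M) (PF.psi c M hb.monic)
    (PF.phi_algebraMap c M hb.monic) (PF.hgen_F1 c M)
    (by rw [← Nat.card_eq_fintype_card, hrank]) σ' hσ'inj ι hι
  refine ⟨ι, T, ?_, hιt, hT0, hT1, τ, hτinj, hτι, ?_⟩
  · intro a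
    exact hιK (a : K)
  · intro i
    obtain ⟨a, ha⟩ := hτσ i
    have h3 : (⟨qExpand K (M * s) W, qExpand_mem_F1 c M hW⟩ : F1 K (c.tK M) (M * s) M)
        = PF.phi c M ⟨W, hW⟩ := rfl
    rw [h3, ha]
    show (d : ℤ) ∣ (σ a (PF.beta K M ⟨W, hW⟩)).order
    have h4 : PF.beta K M ⟨W, hW⟩ = W' := Subtype.ext hW'.symm
    rw [h4]
    by_cases hW0 : W' = 0
    · rw [hW0, map_zero, HahnSeries.order_zero]
      exact dvd_zero _
    · refine GM.dvd_order_of_forall_place M d W' hW0 hdiv (σ a : S24.FN M →+* LaurentSeries ℂ) ?_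
      intro c' _
      show (σ a (algebraMap _ _ c')).order = 0
      rw [AlgHom.commutes, S24.Packages.algebraMap_Kb, HahnSeries.order_C]

end

end Fermat.Agent.Crux.GT
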