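import Fermat.Agent.Crux.GT.Rho
import Fermat.Agent.ES.An.FormalRoot
import Fermat.Agent.Crux.GM.Place
import Fermat.Agent.Crux.GM.Root

/-!
# Crux / GT : `W` has a `d`-th root in `K((q))`

`d ∣ ord_q W`: the map `FF M ↪ ℚ̄((q)) → ℂ((q))` (`coeffMap iotaC`) is a `ℚ̄`-algebra embedding, so `ord_q` is a multiple of
`v.ord` for a place `v` (`S24.FF.exists_place_of_ordFun`).  `W = a^d q^{d n} (1 + …)`; `ES.An.exists_pow_eq_powerSeries`.
-/

set_option autoImplicit false

open Polynomial ModularCurve AlgebraicCurve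
open scoped IntermediateField

namespace Fermat.Agent.Crux.GT

noncomputable section

open Fermat.Agent.S28 (jd evAt)
open Fermat.Agent.Crux.G
open Fermat.Agent.ES (Qb FF)
open Fermat.Agent.S24 (iotaC)

variable {K : Type} [Field K] [CharZero K] {A : ValuationSubring K} [IsDiscreteValuationRing A]
variable {s : ℕ} [NeZero s] {P Q : ℤ[X]}

/-! ### the `d`-th root of `W` -/

theorem exists_root_W [Algebra K Qb] (M : ℕ) [NeZero M] (d : ℕ) (hd : 0 < d)
    (W : LaurentSeries K) (hW0 : W ≠ 0) (hlc : ∃ a : K, a ^ d = W.leadingCoeff)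
    (W' : FF M) (hW' : (W' : LaurentSeries Qb) = coeffMap (algebraMap K Qb) W)
    (hdiv : ∀ v : Place Qb (FF M), (d : ℤ) ∣ v.ord W') :
    ∃ w₀ : LaurentSeries K, w₀ ^ d = W := by
  have hinj : Function.Injective (algebraMap K Qb) := (algebraMap K Qb).injective
  have hc0 : coeffMap (algebraMap K Qb) W ≠ 0 := by
    intro h
    apply hW0
    ext n
    have h1 := congrArg (fun z : LaurentSeries Qb => z.coeff n) h
    simp only [coeffMap_coeff, HahnSeries.coeff_zero] at h1
    rw [HahnSeries.coeff_zero]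
    exact (map_eq_zero_iff _ hinj).1 h1
  have hW'0 : W' ≠ 0 := by
    rintro rfl
    exact hc0 hW'.symm
  have hord : (coeffMap (algebraMap K Qb) W).order = W.order := by
    refine le_antisymm (HahnSeries.order_le_of_coeff_ne_zero ?_) ?_
    · rw [coeffMap_coeff]
      exact (map_ne_zero_iff _ hinj).2 (HahnSeries.coeff_order_eq_zero.not.mpr hW0)
    · refine HahnSeries.order_le_of_coeff_ne_zero ?_
      have h1 := HahnSeries.coeff_order_eq_zero.not.mpr hc0
      rw [coeffMap_coeff] at h1
      exact fun h => h1 (by rw [h, map_zero])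
  have h1 := GM.dvd_order_coe M d W' hW'0 hdiv
  rw [hW', hord] at h1
  exact GM.exists_pow_eq_laurent d hd W hW0 h1 hlc


end

end Fermat.Agent.Crux.GT
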