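import Fermat.Agent.Crux.GT.H0
import Fermat.Agent.Crux.GT.H1
import Fermat.Agent.Crux.GT.PF
import Fermat.Agent.Crux.GT.H2
import Fermat.Agent.Crux.GT.WRoot
import Fermat.Agent.Crux.GT.Desc
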