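import Fermat.Agent.Crux.G.Emb
import Fermat.Agent.Crux.G.Main

/-!
# Crux / GT : (H2) from "point families" (abstract wrappers around `G/Emb.lean`)

`A` a DVR, chart `X ↦ x`, `L/E` finite, `ρ : A → ℂ` injective.

`PointFam L ρ x c₁`: there is `ι : E → ℂ((w))`, equal to `ρ` on `A`, with `ι x = T ∈ ℂ⟦w⟧`, `T(0) = c₁`,
`ord (T - c₁) = 1`, and `[L : E]` distinct extensions of `ι` to `L`.

* `unramx_of_points`: point families at all `c₁` algebraic over `A` outside `ρ(B)` ⇒ `Unramx L π x B`.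
  Proof: `g` irreducible, not associated to `π`: `deg g ≥ 1` (irreducible constants of `A[X]` are associated to
  `C π`); root `c₁ ∈ ℂ` of `ρ(g)`; `c₁ ≠ ρ β` (otherwise `X - β ∣ g` in `A[X]`: `g(β) = 0`, `dvd_iff_isRoot`, so they are
  associated); `ρ(g) = (X - c₁) h`, `h(c₁) ≠ 0` (`g` is irreducible over `Frac A` by Gauss, hence separable,
  char `0`); so `ι(g(x)) = g(T)` has order `1`, `ι(r(x)) = r(T)` has order `≥ 0`, `ι(π) = C (ρ π)` order `0`.
  Then `G.unram_at_of_embeddings` (with `letI := algE x; letI := algL L x; …` as in `G/Main.lean`).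
* `PointFam.inv`: a point family at `c₁ ≠ 0` for `x` is a point family at `c₁⁻¹` for `x⁻¹`.
* `PointFam.kummer`: point family for `F` with `d ∣ ord τ_i(W)` ⇒ point family for `L = F(w)`
  (`G.kummer_embeddings`, index `Fin n × Fin d ≃ Fin (n d)`, `finrank E L = finrank E F * d`).
-/

set_option autoImplicit false
set_option linter.style.haveILetI false
set_option linter.unusedSectionVars false

open Polynomial

namespace Fermat.Agent.Crux.GT

open Fermat.Agent.Crux.G

namespace Pts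

theorem order_ofPS (P : PowerSeries ℂ) (n : ℕ) (h : P.order = n) :
    (HahnSeries.ofPowerSeries ℤ ℂ P).order = n := by
  obtain ⟨h1, h2⟩ := PowerSeries.order_eq_nat.mp h
  have hc : ∀ k : ℤ, (HahnSeries.ofPowerSeries ℤ ℂ P).coeff k
      = if k < 0 then 0 else PowerSeries.coeff k.natAbs P := fun k => PowerSeries.coeff_coe P k
  have h0 : (HahnSeries.ofPowerSeries ℤ ℂ P).coeff n ≠ 0 := by
    rw [hc, if_neg (by omega)]
    simpa using h1
  have hne : HahnSeries.ofPowerSeries ℤ ℂ P ≠ 0 := by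
    intro h
    rw [h] at h0
    exact h0 rfl
  refine le_antisymm (HahnSeries.order_le_of_coeff_ne_zero h0) ?_
  rw [HahnSeries.le_order_iff_forall hne]
  intro k hk
  rw [hc]
  split_ifs with hk0
  · rfl
  · exact h2 _ (by omega)

theorem order_ofPS_nonneg (P : PowerSeries ℂ) : 0 ≤ (HahnSeries.ofPowerSeries ℤ ℂ P).order := by
  by_cases hP : P = 0
  · rw [hP, map_zero, HahnSeries.order_zero]
  · have h := PowerSeries.order_finite_iff_ne_zero.mpr hP
    obtain ⟨n, hn⟩ := ENat.ne_top_iff_exists.mp h.ne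
    rw [order_ofPS P n hn.symm]
    exact Int.natCast_nonneg n

theorem order_eq_zero_of_constantCoeff {P : PowerSeries ℂ} (h : PowerSeries.constantCoeff P ≠ 0) :
    P.order = 0 := by
  have : P.order = ((0 : ℕ) : ℕ∞) := by
    rw [PowerSeries.order_eq_nat]
    exact ⟨by simpa using h, fun i hi => absurd hi (Nat.not_lt_zero i)⟩
  simpa using this

theorem separable_map {A : Type*} [CommRing A] [IsDomain A] [IsDiscreteValuationRing A]
    (ρ : A →+* ℂ) (hρ : Function.Injective ρ) {g : A[X]} (hg : Irreducible g)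
    (hdeg : g.natDegree ≠ 0) : (g.map ρ).Separable := by
  have : CharZero A := ⟨fun m n h => by have := congrArg ρ h; simpa using this⟩
  have : CharZero (FractionRing A) :=
    charZero_of_injective_algebraMap (IsFractionRing.injective A (FractionRing A))
  have hprim : g.IsPrimitive := hg.isPrimitive hdeg
  have hirr : Irreducible (g.map (algebraMap A (FractionRing A))) :=
    (hprim.irreducible_iff_irreducible_map_fraction_map).mp hg
  have h1 := hirr.separable.map (f := (IsFractionRing.lift hρ : FractionRing A →+* ℂ))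
  rw [map_map] at h1
  have e : (IsFractionRing.lift hρ : FractionRing A →+* ℂ).comp (algebraMap A (FractionRing A))
      = ρ := by
    ext a
    rw [RingHom.comp_apply]
    exact IsFractionRing.lift_algebraMap hρ a
  rwa [e] at h1

end Pts

/-- A point family at `c₁`; `good τ` is an extra property required from the embeddings. -/
def PointFam {A E : Type*} [CommRing A] [Field E] [Algebra A E] (L : Type*) [Field L] [Algebra E L]
    (ρ : A →+* ℂ) (x : E) (c₁ : ℂ) (good : (L →+* LaurentSeries ℂ) → Prop) : Prop :=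
  ∃ (ι : E →+* LaurentSeries ℂ) (T : PowerSeries ℂ),
    (∀ a : A, ι (algebraMap A E a) = HahnSeries.C (ρ a)) ∧
    ι x = HahnSeries.ofPowerSeries ℤ ℂ T ∧ PowerSeries.constantCoeff T = c₁ ∧
    (T - PowerSeries.C c₁).order = 1 ∧
    ∃ τ : Fin (Module.finrank E L) → (L →+* LaurentSeries ℂ), Function.Injective τ ∧
      (∀ i y, τ i (algebraMap E L y) = ι y) ∧ ∀ i, good (τ i)

variable {A E F L : Type*} [CommRing A] [IsDomain A] [IsDiscreteValuationRing A]
    [Field E] [Field F] [Field L] [CharZero E] [Algebra A E]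

theorem unramx_of_points [Algebra E L] [FiniteDimensional E L]
    {π : A} (hπ : Irreducible π) {x : E} (hx : Transcendental A x)
    (hgen : ∀ c : E, ∃ p q : A[X], q ≠ 0 ∧ c * aeval x q = aeval x p)
    (ρ : A →+* ℂ) (hρ : Function.Injective ρ) (B : Finset A)
    (hfam : ∀ c₁ : ℂ, (∃ g : A[X], g ≠ 0 ∧ eval₂ ρ c₁ g = 0) → (∀ β ∈ B, c₁ ≠ ρ β) →
      PointFam L ρ x c₁ (fun _ => True)) :
    Unramx L π x B := by
  letI := algE (A := A) x
  letI := algL (A := A) L x
  haveI := isScalarTower_alg (A := A) (L := L) x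
  haveI := isFractionRing_algE hx hgen
  intro g hg hgπ hgB y z hy hz hyz
  -- `deg g ≥ 1`
  have hdeg : g.natDegree ≠ 0 := by
    intro h0
    obtain ⟨a, rfl⟩ : ∃ a, g = C a := ⟨_, eq_C_of_natDegree_eq_zero h0⟩
    haveI : IsLocalHom (C : A →+* A[X]) := ⟨fun a ha => isUnit_C.mp ha⟩
    have ha : Irreducible a := Irreducible.of_map (f := (C : A →+* A[X])) hg
    exact hgπ ((IsDiscreteValuationRing.associated_of_irreducible A ha hπ).map (C : A →+* A[X]))
  -- a root
  have hdeg' : (g.map ρ).degree ≠ 0 := by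
    rw [degree_map_eq_of_injective hρ]
    intro h
    exact hdeg (natDegree_eq_of_degree_eq_some h)
  obtain ⟨c₁, hc₁⟩ := IsAlgClosed.exists_root (g.map ρ) hdeg'
  have hc₁' : eval₂ ρ c₁ g = 0 := by rwa [IsRoot.def, eval_map] at hc₁
  have hcB : ∀ β ∈ B, c₁ ≠ ρ β := by
    rintro β hβ rfl
    rw [eval₂_at_apply, map_eq_zero_iff _ hρ] at hc₁'
    obtain ⟨h, rfl⟩ := dvd_iff_isRoot.mpr hc₁'
    rcases hg.isUnit_or_isUnit rfl with hu | hu
    · exact not_isUnit_X_sub_C β hu
    · exact hgB β hβ (associated_mul_unit_left _ _ hu)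
  obtain ⟨ι, T, h1, h2, h3, h4, τ, h5, h6, -⟩ := hfam c₁ ⟨g, hg.ne_zero, hc₁'⟩ hcB
  -- `ι` on `A[X]`
  let φ : A[X] →+* PowerSeries ℂ := eval₂RingHom ((PowerSeries.C : ℂ →+* PowerSeries ℂ).comp ρ) T
  have hφ : ∀ r : A[X], ι (algebraMap A[X] E r) = HahnSeries.ofPowerSeries ℤ ℂ (φ r) := by
    intro r
    have : ι.comp (algebraMap A[X] E) = (HahnSeries.ofPowerSeries ℤ ℂ).comp φ := by
      apply Polynomial.ringHom_ext
      · intro a
        show ι (aeval x (C a)) = HahnSeries.ofPowerSeries ℤ ℂ (eval₂ _ T (C a))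
        rw [aeval_C, h1, eval₂_C]
        exact (HahnSeries.ofPowerSeries_C _).symm
      · show ι (aeval x X) = HahnSeries.ofPowerSeries ℤ ℂ (eval₂ _ T X)
        rw [aeval_X, h2, eval₂_X]
    exact congrArg (fun f => f r) this
  have hι : ∀ r : A[X], 0 ≤ (ι (algebraMap A[X] E r)).order := by
    intro r
    rw [hφ]
    exact Pts.order_ofPS_nonneg _
  have hπu : (ι (algebraMap A[X] E (C π))).order = 0 := by
    rw [hφ]
    have : (φ (C π)).order = ((0 : ℕ) : ℕ∞) := by
      rw [Nat.cast_zero]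
      apply Pts.order_eq_zero_of_constantCoeff
      show PowerSeries.constantCoeff (eval₂ _ T (C π)) ≠ 0
      rw [eval₂_C]
      simpa using (map_ne_zero_iff ρ hρ).mpr hπ.ne_zero
    simpa using Pts.order_ofPS _ 0 this
  -- separability
  have hsep : (g.map ρ).Separable := Pts.separable_map ρ hρ hg hdeg
  obtain ⟨h, hh⟩ := dvd_iff_isRoot.mpr hc₁
  have hhc : eval c₁ h ≠ 0 := by
    intro h0
    obtain ⟨h', rfl⟩ := dvd_iff_isRoot.mpr h0
    have := hsep.squarefree (X - C c₁) ⟨h', by rw [hh]; ring⟩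
    exact not_isUnit_X_sub_C c₁ this
  have hg1 : (ι (algebraMap A[X] E g)).order = 1 := by
    rw [hφ]
    have e : φ g = (T - PowerSeries.C c₁) * eval₂ (PowerSeries.C : ℂ →+* PowerSeries ℂ) T h := by
      show eval₂ _ T g = _
      rw [← eval₂_map, hh, eval₂_mul, eval₂_sub, eval₂_X, eval₂_C]
    have e2 : PowerSeries.constantCoeff (eval₂ (PowerSeries.C : ℂ →+* PowerSeries ℂ) T h)
        = eval c₁ h := by
      rw [hom_eval₂, h3]
      have : (PowerSeries.constantCoeff (R := ℂ)).comp PowerSeries.C = RingHom.id ℂ := by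
        ext a; simp
      rw [this, eval₂_id]
    have : (φ g).order = ((1 : ℕ) : ℕ∞) := by
      rw [e, PowerSeries.order_mul, h4, Pts.order_eq_zero_of_constantCoeff (by rw [e2]; exact hhc),
        add_zero, Nat.cast_one]
    simpa using Pts.order_ofPS _ 1 this
  exact unram_at_of_embeddings hπ ι hι hπu g hg hgπ hg1 (Fintype.card_fin _) τ h5 h6 y z hy hz hyz

theorem PointFam.inv [Algebra E L] {ρ : A →+* ℂ} {x : E} {c₁ : ℂ}
    {good : (L →+* LaurentSeries ℂ) → Prop} (h : PointFam L ρ x c₁ good) (hc : c₁ ≠ 0) :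
    PointFam L ρ x⁻¹ c₁⁻¹ good := by
  obtain ⟨ι, T, h1, h2, h3, h4, τ, h5, h6, h7⟩ := h
  have hT : PowerSeries.constantCoeff T ≠ 0 := by rw [h3]; exact hc
  refine ⟨ι, T⁻¹, h1, ?_, ?_, ?_, τ, h5, h6, h7⟩
  · rw [map_inv₀, h2]
    apply inv_eq_of_mul_eq_one_right
    rw [← map_mul, PowerSeries.mul_inv_cancel T hT, map_one]
  · rw [PowerSeries.constantCoeff_inv, h3]
  · have e : T⁻¹ - PowerSeries.C c₁⁻¹ = (T - PowerSeries.C c₁) * (- (T⁻¹ * PowerSeries.C c₁⁻¹)) := by
      have e1 : T * T⁻¹ = 1 := PowerSeries.mul_inv_cancel T hT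
      have e2 : (PowerSeries.C c₁ : PowerSeries ℂ) * PowerSeries.C c₁⁻¹ = 1 := by
        rw [← map_mul, mul_inv_cancel₀ hc, map_one]
      linear_combination (PowerSeries.C c₁⁻¹) * e1 - T⁻¹ * e2
    rw [e, PowerSeries.order_mul, h4, Pts.order_eq_zero_of_constantCoeff, add_zero]
    rw [map_neg, map_mul, PowerSeries.constantCoeff_inv, h3, PowerSeries.constantCoeff_C]
    exact neg_ne_zero.mpr (mul_ne_zero (inv_ne_zero hc) (inv_ne_zero hc))

theorem PointFam.mono [Algebra E L] {ρ : A →+* ℂ} {x : E} {c₁ : ℂ}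
    {good good' : (L →+* LaurentSeries ℂ) → Prop} (h : PointFam L ρ x c₁ good)
    (hg : ∀ τ, good τ → good' τ) : PointFam L ρ x c₁ good' := by
  obtain ⟨ι, T, h1, h2, h3, h4, τ, h5, h6, h7⟩ := h
  exact ⟨ι, T, h1, h2, h3, h4, τ, h5, h6, fun i => hg _ (h7 i)⟩

theorem PointFam.kummer [Algebra E F] [FiniteDimensional E F] [Algebra E L] [Algebra F L]
    [IsScalarTower E F L] {ρ : A →+* ℂ} {x : E} {c₁ : ℂ}
    (d : ℕ) (hd : 0 < d) (w : L) (W : F) (hW0 : W ≠ 0)
    (hw : w ^ d = algebraMap F L W) (hdeg : Module.finrank F L = d)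
    (hli : LinearIndependent F (fun j : Fin d => w ^ (j : ℕ)))
    (h : PointFam F ρ x c₁ (fun τ => (d : ℤ) ∣ (τ W).order)) :
    PointFam L ρ x c₁ (fun _ => True) := by
  obtain ⟨ι, T, h1, h2, h3, h4, τ, h5, h6, h7⟩ := h
  choose τ' hτ'inj hτ' using fun i => kummer_embeddings d hd w W hW0 hw hdeg hli (τ i) (h7 i)
  have hrank : Module.finrank E F * d = Module.finrank E L := by
    rw [← hdeg, Module.finrank_mul_finrank]
  let e : Fin (Module.finrank E L) ≃ Fin (Module.finrank E F) × Fin d :=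
    (finCongr hrank.symm).trans finProdFinEquiv.symm
  refine ⟨ι, T, h1, h2, h3, h4, fun k => τ' (e k).1 (e k).2, ?_, ?_, fun _ => trivial⟩
  · intro k k' hkk
    have hkk' : τ' (e k).1 (e k).2 = τ' (e k').1 (e k').2 := hkk
    have e1 : (e k).1 = (e k').1 := by
      apply h5
      ext c
      rw [← hτ' (e k).1 (e k).2, ← hτ' (e k').1 (e k').2, hkk']
    have e2 : (e k).2 = (e k').2 := by
      apply hτ'inj (e k).1
      rw [hkk', e1]
    exact e.injective (Prod.ext e1 e2)
  · intro k y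
    rw [IsScalarTower.algebraMap_apply E F L, hτ', h6]

/-- Normalisation of a `d`-th root: if `u ^ d ≡ 1` then `z u ≡ 1` for some power `z` of `ζ`. -/
theorem exists_pow_mul_sub_one_mem {Ω : Type*} [Field Ω] (B : ValuationSubring Ω) (d : ℕ)
    (hd : 0 < d) (ζ : Ω) (hζ : IsPrimitiveRoot ζ d) (u : Ω) (hu : u ^ d - 1 ∈ B.nonunits) :
    ∃ i : ℕ, ζ ^ i * u - 1 ∈ B.nonunits := by
  classical
  haveI : NeZero d := ⟨hd.ne'⟩
  have h1 := hζ.pow_sub_pow_eq_prod_sub_mul u 1 hd
  rw [one_pow] at h1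
  rw [h1, ValuationSubring.mem_nonunits_iff, map_prod] at hu
  obtain ⟨z, hz, hzlt⟩ : ∃ z ∈ nthRootsFinset d (1 : Ω), B.valuation (u - z * 1) < 1 := by
    by_contra hcon
    push Not at hcon
    exact absurd hu (not_lt.mpr (Finset.one_le_prod' hcon))
  rw [mul_one] at hzlt
  have hz1 : z ^ d = 1 := (mem_nthRootsFinset hd 1).mp hz
  have hz0 : z ≠ 0 := by
    rintro rfl
    rw [zero_pow hd.ne'] at hz1
    exact zero_ne_one hz1
  have hzi : (z⁻¹) ^ d = 1 := by rw [inv_pow, hz1, inv_one]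
  obtain ⟨i, -, hi⟩ := hζ.eq_pow_of_pow_eq_one hzi
  refine ⟨i, ?_⟩
  rw [hi, ValuationSubring.mem_nonunits_iff]
  have e : z⁻¹ * u - 1 = z⁻¹ * (u - z) := by field_simp
  have hv : B.valuation z⁻¹ = 1 := by
    have h : B.valuation z⁻¹ ^ d = 1 := by rw [← map_pow, hzi, map_one]
    exact (pow_eq_one_iff_of_nonneg zero_le hd.ne').mp h
  rw [e, map_mul, hv, one_mul]
  exact hzlt

end Fermat.Agent.Crux.GT
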