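import Fermat.Agent.Crux.GT.Basic
import Fermat.Agent.Crux.GT.Pts
import Fermat.Agent.S24.Packages
import Fermat.Agent.ES.Defs

/-!
# Crux / GT : the embedding `A → K → ℚ̄ → ℂ`
-/

set_option autoImplicit false

open Polynomial ModularCurve AlgebraicCurve
open scoped IntermediateField

namespace Fermat.Agent.Crux.GT

noncomputable section

open Fermat.Agent.S28 (jd evAt)
open Fermat.Agent.Crux.G
open Fermat.Agent.ES (Qb FF)
open Fermat.Agent.S24 (iotaC)

variable {K : Type} [Field K] [CharZero K] {A : ValuationSubring K} [IsDiscreteValuationRing A]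
variable {s : ℕ} [NeZero s] {P Q : ℤ[X]}

/-- `A → K → ℚ̄ → ℂ`. -/
def rhoA (A : ValuationSubring K) [Algebra K Qb] : A →+* ℂ :=
  (iotaC.comp (algebraMap K Qb)).comp A.subtype


end

end Fermat.Agent.Crux.GT
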